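import Fermat.Agent.RT.AtP.Module
import Fermat.Agent.RT.MazurQ.EigenClass
import Fermat.Agent.GaloisReps.Unconditional
import Fermat.Prelude.Def_GaloisRep_Residual

/-!
# Extending a congruence modulo two to more primes

A congruence at almost all primes with the Frobenius traces of a residual representation holds at
every good prime at which the representation has the prescribed trace.
-/

set_option autoImplicit false

noncomputable section

namespace Fermat.Agent.RT.Two.Theta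

open ModularCurve AlgebraicCurve
open Fermat.Agent.RT.AtP (eigTors eigRep eigRep_quadratic coe_eigRep smul_mem_eigTors)
open Arith (QBar GQ)

theorem det_eq_one_two (r : GQ →* Matrix (Fin 2) (Fin 2) (ZMod 2)) (σ : GQ) :
    (r σ).det = 1 := by
  have h1 : (r σ).det * (r σ⁻¹).det = 1 := by
    rw [← Matrix.det_mul, ← map_mul, mul_inv_cancel, map_one, Matrix.det_one]
  revert h1
  generalize (r σ).det = u
  generalize (r σ⁻¹).det = w
  revert u w
  decide

/-- **Extension of a congruence.** -/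
theorem hasCong_extend {N : ℕ} [NeZero N] (r : GQ →* Matrix (Fin 2) (Fin 2) (ZMod 2))
    (hfin : GaloisFactorsThroughFiniteLevel r) {G G' : ℕ → Prop} {a : ℕ → ℕ} (T : Finset ℕ)
    (hT : ∀ l, l.Prime → l ∉ T → G l) (hG : ∀ l, l.Prime → G l → G' l)
    (hG' : ∀ l, l.Prime → G' l → ¬ l ∣ 2 * N)
    (hfrob : ∀ l, l.Prime → G' l → ∀ A : ValuationSubring QBar, A.LiesOverPrime l →
      ∀ σ : GQ, A.IsFrobeniusAt σ l → (r σ).trace = a l)
    (h : MazurP.HasCong N 2 G a) : MazurP.HasCong N 2 G' a := by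
  obtain ⟨g, hg, 𝔪, h𝔪, h2𝔪, hcong⟩ := h
  have := h𝔪.isPrime
  obtain ⟨x, hx0, h2x, hxe⟩ := AtP.exists_eigenclass hg 𝔪 h2𝔪 G a hcong
  refine MazurQ.hasCong_of_eigenclass hx0 h2x fun l hl hG'l => ?_
  have hGN : ∀ m, m.Prime → G m → ¬ m ∣ N * 2 := fun m hm hGm => by
    rw [mul_comm]; exact hG' m hm (hG m hm hGm)
  have hfrob' : ∀ m, m.Prime → G' m → ∀ A : ValuationSubring QBar, A.LiesOverPrime m →
      ∀ σ : GQ, A.IsFrobeniusAt σ m → (r σ).trace = a m ∧ (r σ).det = m :=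
    fun m hm hGm A hA σ hσ => ⟨hfrob m hm hGm A hA σ hσ, by
      rw [det_eq_one_two, eq_comm, ZMod.natCast_eq_one_iff_odd]
      exact hm.odd_of_ne_two fun e => hG' m hm hGm (e ▸ dvd_mul_right 2 N)⟩
  obtain ⟨A, hA⟩ := Arith.exists_liesOverPrime hl
  obtain ⟨σ, hσ⟩ := Arith.exists_isFrobeniusAt hA hl
  have hv : x ∈ eigTors N 2 G a := ⟨h2x, hxe⟩
  have hw : σ⁻¹ • x ∈ eigTors N 2 G a := smul_mem_eigTors N 2 G a σ⁻¹ hv
  have hquad := congrArg Subtype.val (eigRep_quadratic (GaloisReps.congruenceProperty N 2) hGN T hT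
    r hfin (fun m hm hGm => hfrob' m hm (hG m hm hGm)) σ ⟨σ⁻¹ • x, hw⟩)
  obtain ⟨htr, hdet⟩ := hfrob' l hl hG'l A hA σ hσ
  have hmod := (GaloisReps.congruenceProperty N 2 l hl (fun hd => hG' l hl hG'l
    (mul_comm N 2 ▸ hd)) A hA 1 ⟨σ⁻¹ • x, Pic0.mem_torsion.mpr
      (by rw [natCast_zsmul, pow_one]; exact hw.1)⟩).2 σ hσ
  simp only [smul_inv_smul] at hmod
  rw [htr, hdet, Nat.cast_smul_eq_nsmul (ZMod 2), Nat.cast_smul_eq_nsmul (ZMod 2)] at hquad
  simp only [AddSubgroup.coe_add, AddSubgroupClass.coe_sub, coe_eigRep, AddSubgroupClass.coe_nsmul,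
    ZeroMemClass.coe_zero, smul_inv_smul] at hquad
  exact sub_right_injective (add_right_cancel (hmod.trans hquad.symm))

end Fermat.Agent.RT.Two.Theta

end
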