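import Fermat.Agent.RT.Two.Recip.Pair
import Fermat.Agent.RT.Two.Select.InertiaTwo
import Fermat.Agent.RT.Two.Select.Space

/-!
# The quadratic field of a residual representation at two

The sign of `r` times the character of `√(-N)` is unramified everywhere, hence trivial.
-/

set_option autoImplicit false
set_option linter.style.haveILetI false

noncomputable section

namespace Fermat.Agent.RT.Two.Theta

open Fermat.Agent.Arith Fermat.Agent.Deform Fermat.Agent.CFT.Flat
open scoped Pointwise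

/-- The sign of an element of `GL₂(𝔽₂)`. -/
def sgnTwo (g : M2 (ZMod 2)) : ZMod 2 := if g ^ 3 = 1 then 0 else 1

set_option synthInstance.maxSize 2000 in
set_option synthInstance.maxHeartbeats 400000 in
set_option maxRecDepth 4000 in
theorem sgnTwo_mul : ∀ g : M2 (ZMod 2), g 0 0 * g 1 1 + g 0 1 * g 1 0 = 1 →
    ∀ h : M2 (ZMod 2), h 0 0 * h 1 1 + h 0 1 * h 1 0 = 1 →
    sgnTwo (g * h) = sgnTwo g + sgnTwo h := by decide

set_option synthInstance.maxSize 2000 in
set_option synthInstance.maxHeartbeats 400000 in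
theorem sgnTwo_involution : ∀ g : M2 (ZMod 2), g ^ 2 = 1 → g ≠ 1 → sgnTwo g = 1 := by decide

theorem sgnTwo_one : sgnTwo 1 = 0 := if_pos (one_pow 3)

theorem sgnTwo_eq_zero_iff (g : M2 (ZMod 2)) : sgnTwo g = 0 ↔ g ^ 3 = 1 := by
  by_cases h : g ^ 3 = 1 <;> simp [sgnTwo, h]

theorem det_rep (r : GQ →* M2 (ZMod 2)) (g : GQ) :
    r g 0 0 * r g 1 1 + r g 0 1 * r g 1 0 = 1 := by
  have h : (r g).det = 1 := Fin.eq_one_of_ne_zero _ (CFT.Tangent.det_map_ne_zero r g)
  rwa [Matrix.det_fin_two, CharTwo.sub_eq_add] at h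

theorem sgnTwo_rep_mul (r : GQ →* M2 (ZMod 2)) (g h : GQ) :
    sgnTwo (r (g * h)) = sgnTwo (r g) + sgnTwo (r h) := by
  rw [map_mul, sgnTwo_mul _ (det_rep r g) _ (det_rep r h)]

theorem sgnTwo_rep_conj (r : GQ →* M2 (ZMod 2)) (u g : GQ) :
    sgnTwo (r (u * g * u⁻¹)) = sgnTwo (r g) := by
  have h := sgnTwo_rep_mul r u u⁻¹
  rw [mul_inv_cancel, map_one, sgnTwo_one] at h
  rw [sgnTwo_rep_mul, sgnTwo_rep_mul, add_right_comm, ← h, zero_add]

theorem neg_or_eq {x : QBar} {m : ℤ} (hx : x ^ 2 = (m : QBar)) (g : GQ) : g x = x ∨ g x = -x :=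
  sq_eq_sq_iff_eq_or_eq_neg.1 (by rw [← map_pow, hx, map_intCast])

theorem isIntegral_of_sq {x : QBar} {m : ℤ} (hx : x ^ 2 = (m : QBar)) : IsIntegral ℤ x :=
  IsIntegral.of_pow two_pos (hx ▸ isIntegral_algebraMap)

/-- A square root of a unit at an odd place is fixed by inertia. -/
theorem fixes_of_sq {q : ℕ} (hq : q.Prime) {A : ValuationSubring QBar} (hA : A.LiesOverPrime q)
    {x : QBar} {m : ℤ} (hx : x ^ 2 = (m : QBar)) (hqm : ¬ (q : ℤ) ∣ 4 * m) {σ : GQ}
    (hσ : σ ∈ A.inertiaSubgroupIn ℚ) : σ x = x := by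
  rcases neg_or_eq hx σ with h | h
  · exact h
  exfalso
  have h1 := (mem_inertia_iff hA hq).mp hσ x (isIntegral_of_sq hx)
  rw [h] at h1
  have h2 := nonunits_mul_left (mem_of_isIntegral A ((isIntegral_of_sq hx).neg.sub
    (isIntegral_of_sq hx))) h1
  rw [show (-x - x) * (-x - x) = ((4 * m : ℤ) : QBar) by push_cast; rw [← hx]; ring] at h2
  refine hqm (Int.natCast_dvd.mpr ((natCast_mem_nonunits_iff hA hq _).mp ?_))
  rcases Int.natAbs_eq (4 * m) with e | e <;> rw [e] at h2
  · simpa using h2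
  · simpa using nonunits_neg h2

/-- For `m ≡ 1 mod 4` inertia at two fixes `√m`. -/
theorem fixes_two {A : ValuationSubring QBar} (hA : A.LiesOverPrime 2) {x : QBar} {m : ℤ}
    (hx : x ^ 2 = (m : QBar)) (hm : (4 : ℤ) ∣ m - 1) {σ : GQ}
    (hσ : σ ∈ A.inertiaSubgroupIn ℚ) : σ x = x := by
  rcases neg_or_eq hx σ with h | h
  · exact h
  exfalso
  obtain ⟨j, hj⟩ := hm
  have hm' : m = 4 * j + 1 := by omega
  have hint : IsIntegral ℤ ((1 + x) / 2 : QBar) := by
    refine ⟨Polynomial.X ^ 2 - Polynomial.X - Polynomial.C j, by monicity!, ?_⟩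
    rw [hm'] at hx
    push_cast at hx
    simp only [Polynomial.eval₂_sub, Polynomial.eval₂_pow, Polynomial.eval₂_X, Polynomial.eval₂_C]
    rw [eq_intCast]
    linear_combination hx / 4
  have h1 := (mem_inertia_iff hA Nat.prime_two).mp hσ _ hint
  rw [map_div₀, map_add, map_one, map_ofNat, h,
    show ((1 + -x) / 2 - (1 + x) / 2 : QBar) = -x by ring] at h1
  have h2 := nonunits_mul_left (mem_of_isIntegral A (isIntegral_of_sq hx).neg) h1
  rw [show (-x) * (-x) = ((m : ℤ) : QBar) by rw [← hx]; ring] at h2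
  have h3 : (2 : ℕ) ∣ m.natAbs := by
    refine (natCast_mem_nonunits_iff hA Nat.prime_two _).mp ?_
    rcases Int.natAbs_eq m with e | e <;> rw [e] at h2
    · simpa using h2
    · simpa using nonunits_neg h2
  omega

/-- **The field of the sign is `ℚ(√-N)`.** -/
theorem exists_sqrt_neg {r : GQ →* M2 (ZMod 2)} {N : ℕ} [NeZero N]
    (hr : Select.IsResidualTwo r N) (hN : Squarefree N) (h4 : N % 4 = 3) :
    ∃ s : QBar, s ^ 2 = -(N : QBar) ∧ ∀ σ : GQ, σ s = s ↔ r σ ^ 3 = 1 := by
  classical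
  obtain ⟨s, hs⟩ := IsAlgClosed.exists_pow_nat_eq (-(N : QBar)) two_pos
  refine ⟨s, hs, ?_⟩
  have hsm : s ^ 2 = ((-(N : ℤ) : ℤ) : QBar) := by rw [hs]; push_cast; rfl
  have hN0 : (N : QBar) ≠ 0 := by exact_mod_cast NeZero.ne N
  have hs0 : s ≠ 0 := fun e => hN0 (by rw [e, zero_pow two_ne_zero] at hs; simpa using hs.symm)
  have hs2 : -s ≠ s := fun e => hs0 (neg_eq_self.1 e)
  let ψ : GQ →* Multiplicative (ZMod 2) :=
    { toFun := fun σ => Multiplicative.ofAdd (sgnTwo (r σ) + if σ s = s then 0 else 1)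
      map_one' := by rw [map_one, sgnTwo_one, if_pos (AlgEquiv.one_apply s), add_zero]; rfl
      map_mul' := fun a b => by
        rw [← ofAdd_add, sgnTwo_rep_mul]
        refine congrArg Multiplicative.ofAdd ?_
        have e : (if (a * b) s = s then (0 : ZMod 2) else 1)
            = (if a s = s then 0 else 1) + (if b s = s then 0 else 1) := by
          rw [AlgEquiv.mul_apply]
          rcases neg_or_eq hsm b with hb | hb <;> rcases neg_or_eq hsm a with ha | ha <;>
            simp only [hb, map_neg, ha, neg_neg, hs2, ↓reduceIte] <;> decide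
        rw [e]
        abel }
  have hψ : ψ = 1 := by
    refine eq_one_of_trivial_on_inertia' ψ ?_ fun q hq A hA g hg => ?_
    · obtain ⟨L, hL, hLr⟩ := hr.ss.finite
      haveI := hL
      haveI : FiniteDimensional ℚ (IntermediateField.adjoin ℚ {s}) :=
        IntermediateField.adjoin.finiteDimensional (Algebra.IsIntegral.isIntegral _)
      refine ⟨L ⊔ IntermediateField.adjoin ℚ {s}, inferInstance, fun σ hσ => ?_⟩
      show Multiplicative.ofAdd _ = 1
      rw [hLr σ fun x hx => hσ x ((le_sup_left : L ≤ L ⊔ _) hx), sgnTwo_one, if_pos (hσ s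
        ((le_sup_right : IntermediateField.adjoin ℚ {s} ≤ L ⊔ _)
          (IntermediateField.mem_adjoin_simple_self ℚ s))), add_zero]
      rfl
    show Multiplicative.ofAdd _ = 1
    suffices h : sgnTwo (r g) = if g s = s then 0 else 1 by
      rw [h]; split_ifs <;> rfl
    by_cases hq2 : q = 2
    · subst hq2
      haveI : Fact (Nat.Prime 2) := ⟨Nat.prime_two⟩
      haveI : IsGalois ℚ QBar := qBar_isGalois
      rw [if_pos (fixes_two hA hsm (by omega) hg)]
      obtain ⟨u, hu⟩ := exists_smul_eq (CFT.Local.padicPlace_liesOverPrime 2) hA Nat.prime_two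
      have hin : u⁻¹ * g * u ∈ inG 2 := by
        have h1 : u * (u⁻¹ * g * u) * u⁻¹ ∈ A.inertiaSubgroupIn ℚ := by
          rwa [show u * (u⁻¹ * g * u) * u⁻¹ = g by group]
        rw [← hu] at h1
        exact (mem_inertia_smul_iff (g := u) (A := padicPlace 2)).1 h1
      rw [show g = u * (u⁻¹ * g * u) * u⁻¹ by group, sgnTwo_rep_conj, sgnTwo_eq_zero_iff]
      obtain ⟨τ, hτ⟩ := Local.exists_isGen
      obtain ⟨i, hi⟩ := hr.ss.eq_pow hτ hin
      have h3 : r τ ^ 3 = 1 := by
        rw [← map_pow]; exact hr.ss.tame_one _ hτ.cube_mem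
      rw [hi, ← pow_mul, mul_comm, pow_mul, h3, one_pow]
    haveI : Fact q.Prime := ⟨hq⟩
    have hq4 : ¬ q ∣ 4 := fun h => hq2 ((Nat.prime_dvd_prime_iff_eq hq Nat.prime_two).mp
      (hq.dvd_of_dvd_pow (show q ∣ 2 ^ 2 from h)))
    by_cases hqN : q ∣ N
    · obtain ⟨M, hM⟩ := hqN
      have hqM : ¬ q ∣ M := fun ⟨M', hM'⟩ => hq.ne_one (Nat.isUnit_iff.mp (hN q ⟨M', by
        rw [hM, hM', mul_assoc]⟩))
      obtain ⟨z, hz⟩ := IsAlgClosed.exists_pow_nat_eq (q : QBar) two_pos
      have hz0 : z ≠ 0 := fun e => hq.ne_zero (by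
        rw [e, zero_pow two_ne_zero] at hz; exact_mod_cast hz.symm)
      have hw : g (s / z) = s / z := by
        refine fixes_of_sq hq hA (m := -(M : ℤ)) ?_ (fun h => ?_) hg
        · rw [div_pow, hs, hz, hM]
          have : (q : QBar) ≠ 0 := by exact_mod_cast hq.ne_zero
          push_cast
          field_simp
        · rw [mul_neg, dvd_neg] at h
          exact (hq.dvd_mul.mp (Int.natCast_dvd_natCast.mp (by exact_mod_cast h))).elim hq4 hqM
      have hiff : g s = s ↔ g z = z := by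
        have e : g s = s / z * g z := by
          conv_lhs => rw [show s = s / z * z from (div_mul_cancel₀ s hz0).symm]
          rw [map_mul, hw]
        constructor
        · intro hg'
          rw [e] at hg'
          refine mul_left_cancel₀ (div_ne_zero hs0 hz0) ?_
          rw [hg', div_mul_cancel₀ s hz0]
        · intro hg'
          rw [e, hg', div_mul_cancel₀ s hz0]
      obtain ⟨s', t, ht⟩ := Recip.exists_tamePair q hq2 hA
      obtain ⟨L, hL, hLr⟩ := hr.ss.finite
      have key := fun a ha => Select.hom_inertia_two hq hq2 hA (X := ZMod 2) (by decide)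
        (c := fun a => sgnTwo (r a)) (fun a _ b _ => sgnTwo_rep_mul r a b)
        ⟨L, hL, fun a _ hfix => by rw [hLr a hfix, sgnTwo_one]⟩ ht.inertia hz (ht.moves z hz)
        (g := a) ha
      obtain ⟨τ, hτ, hτ1⟩ := hr.ramified q hq (hM ▸ dvd_mul_right q M) A hA
      have hτs := sgnTwo_involution _ (hr.unipotent q hq (hM ▸ dvd_mul_right q M) A hA τ hτ) hτ1
      have ht1 : sgnTwo (r t) = 1 := by
        by_cases h : τ z = z
        · exact absurd ((key τ hτ).1 h) (by rw [hτs]; exact one_ne_zero)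
        · rw [← (key τ hτ).2 h, hτs]
      by_cases hgz : g z = z
      · rw [(key g hg).1 hgz, if_pos (hiff.mpr hgz)]
      · rw [(key g hg).2 hgz, if_neg (mt hiff.mp hgz), ht1]
    · have h2N : ¬ q ∣ 2 * N := fun h => (hq.dvd_mul.mp h).elim
        (fun h2 => hq2 ((Nat.prime_dvd_prime_iff_eq hq Nat.prime_two).mp h2)) hqN
      rw [hr.unramified q hq h2N A hA g hg, sgnTwo_one, if_pos]
      refine fixes_of_sq hq hA hsm (fun h => ?_) hg
      rw [mul_neg, dvd_neg] at h
      exact (hq.dvd_mul.mp (Int.natCast_dvd_natCast.mp (by exact_mod_cast h))).elim hq4 hqN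
  intro σ
  have h := congrArg Multiplicative.toAdd (DFunLike.congr_fun hψ σ)
  change sgnTwo (r σ) + (if σ s = s then 0 else 1) = (0 : ZMod 2) at h
  rw [← sgnTwo_eq_zero_iff]
  split_ifs at h with hσ
  · exact iff_of_true hσ (by simpa using h)
  · exact iff_of_false hσ (fun h' => by simp [h'] at h)

end Fermat.Agent.RT.Two.Theta
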