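import Fermat.Agent.RT.MazurQ.EigenClass

/-!
# A congruent eigenform from the odd coefficients

An integral cusp form whose odd coefficients satisfy, modulo two, the recursion of `a` at the
primes in `G` gives a normalised eigenform congruent to `a` at these primes.
-/

set_option autoImplicit false

noncomputable section

namespace Fermat.Agent.RT.Two.Theta

open CongruenceSubgroup ModularFormClass
open Fermat.Agent.GaloisReps (FullHecke)

variable {L : ℕ} [NeZero L]

/-- The odd coefficients are integers congruent to `d • b` modulo two. -/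
def CongOdd (b : ℕ → ZMod 2) (g : CuspForm (Gamma0 L) 2) (d : ZMod 2) : Prop :=
  ∀ n, Odd n → ∃ m : ℤ, qCoeff g n = (m : ℂ) ∧ (m : ZMod 2) = d * b n

theorem CongOdd.heckeOp {b : ℕ → ZMod 2} {g : CuspForm (Gamma0 L) 2} {d : ZMod 2}
    (hg : CongOdd b g d) {l : ℕ} (hl : l.Prime) (hlo : Odd l) (hlL : ¬ l ∣ L) {c : ZMod 2}
    (hrec : ∀ n, Odd n → b (l * n) + (if l ∣ n then b (n / l) else 0) = c * b n) :
    CongOdd b ((HeckeDuality.heckeOp L 2 l hl).1 g) (c * d) := by
  intro n hn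
  obtain ⟨m₁, h₁, e₁⟩ := hg (n * l) (hn.mul hlo)
  have hr := hrec n hn
  rw [mul_comm l n] at hr
  have hl1 : (l : ZMod 2) = 1 := ZMod.natCast_eq_one_iff_odd.mpr hlo
  rw [HeckeDuality.coeff_heckeOp hl g n, h₁, HeckeDuality.eulerWeight, if_neg hlL]
  by_cases hd : l ∣ n
  · have hno : Odd (n / l) := by
      rw [← Nat.div_mul_cancel hd, Nat.odd_mul] at hn
      exact hn.1
    obtain ⟨m₂, h₂, e₂⟩ := hg (n / l) hno
    rw [if_pos hd] at hr
    refine ⟨m₁ + l * m₂, by rw [if_pos hd, h₂]; push_cast; ring, ?_⟩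
    push_cast
    rw [e₁, e₂, hl1]
    linear_combination d * hr
  · rw [if_neg hd, add_zero] at hr
    refine ⟨m₁, by rw [if_neg hd, add_zero], ?_⟩
    rw [e₁]
    linear_combination d * hr

/-- **The congruent eigenform.** -/
theorem hasCong_of_parity {G : ℕ → Prop} {a : ℕ → ℕ} (hG : ∀ l, l.Prime → G l → ¬ l ∣ 2 * L)
    {b : ℕ → ZMod 2} (hb1 : b 1 = 1)
    (hrec : ∀ l, l.Prime → G l → ∀ n, Odd n →
      b (l * n) + (if l ∣ n then b (n / l) else 0) = (a l : ZMod 2) * b n)
    {f : CuspForm (Gamma0 L) 2} (hf : CongOdd b f 1) : MazurP.HasCong L 2 G a := by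
  classical
  let S : Set (FullHecke L) :=
    {t | ∃ (l : ℕ) (hl : l.Prime), G l ∧ t = HeckeDuality.heckeOp L 2 l hl}
  let T : Subalgebra ℤ (FullHecke L) := Algebra.adjoin ℤ S
  have hstep : ∀ (l : ℕ) (hl : l.Prime), G l → ∀ g d, CongOdd b g d →
      CongOdd b ((HeckeDuality.heckeOp L 2 l hl).1 g) ((a l : ZMod 2) * d) := fun l hl hGl g d hg =>
    hg.heckeOp hl (hl.odd_of_ne_two fun h => hG l hl hGl (h ▸ dvd_mul_right 2 L))
      (fun h => hG l hl hGl (h.mul_left 2)) (hrec l hl hGl)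
  have hP : ∀ t : T, ∃ c : ZMod 2, ∀ g d, CongOdd b g d → CongOdd b (t.1.1 g) (c * d) := by
    rintro ⟨t, ht⟩
    induction ht using Algebra.adjoin_induction with
    | mem x hx =>
      obtain ⟨l, hl, hGl, rfl⟩ := hx
      exact ⟨a l, hstep l hl hGl⟩
    | algebraMap r =>
      refine ⟨r, fun g d hg n hn => ?_⟩
      obtain ⟨m, hm, h2⟩ := hg n hn
      refine ⟨r * m, ?_, by push_cast; rw [h2, mul_assoc]⟩
      show qCoeff ⇑((algebraMap ℤ (Module.End ℂ (CuspForm (Gamma0 L) 2)) r) g) n = _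
      rw [Module.algebraMap_end_apply, HeckeDuality.coeff_zsmul, hm]
      push_cast
      rfl
    | add x y _ _ hx hy =>
      obtain ⟨cx, hcx⟩ := hx
      obtain ⟨cy, hcy⟩ := hy
      refine ⟨cx + cy, fun g d hg n hn => ?_⟩
      obtain ⟨m, hm, h2⟩ := hcx g d hg n hn
      obtain ⟨m', hm', h2'⟩ := hcy g d hg n hn
      refine ⟨m + m', ?_, by push_cast; rw [h2, h2']; ring⟩
      show qCoeff ⇑((x.1 + y.1) g) n = _
      rw [LinearMap.add_apply, HeckeDuality.coeff_add, hm, hm']
      push_cast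
      rfl
    | mul x y _ _ hx hy =>
      obtain ⟨cx, hcx⟩ := hx
      obtain ⟨cy, hcy⟩ := hy
      refine ⟨cx * cy, fun g d hg => ?_⟩
      have h := hcx _ _ (hcy g d hg)
      rw [← mul_assoc] at h
      exact h
  choose c hc using hP
  have huniq : ∀ (t : T) (d : ZMod 2), CongOdd b (t.1.1 f) d → c t = d := by
    intro t d hd
    obtain ⟨m, hm, h2⟩ := hc t f 1 hf 1 odd_one
    obtain ⟨m', hm', h2'⟩ := hd 1 odd_one
    have hmm : m = m' := by exact_mod_cast hm.symm.trans hm'
    subst hmm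
    rw [hb1, mul_one] at h2 h2'
    rw [mul_one] at h2
    exact h2.symm.trans h2'
  have hcast : ∀ t : T, CongOdd b (t.1.1 f) (c t) := fun t => by simpa using hc t f 1 hf
  let χ₀ : T →+* ZMod 2 :=
    { toFun := c
      map_one' := huniq 1 1 hf
      map_mul' := fun s t => huniq (s * t) (c s * c t) (hc s _ _ (hcast t))
      map_zero' := huniq 0 0 fun n _ => ⟨0, by
        show qCoeff ⇑((0 : Module.End ℂ (CuspForm (Gamma0 L) 2)) f) n = _
        simpa using (HeckeDuality.coeffLin L 2 n).map_zero, by simp⟩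
      map_add' := fun s t => huniq (s + t) (c s + c t) fun n hn => by
        obtain ⟨m, hm, h2⟩ := hcast s n hn
        obtain ⟨m', hm', h2'⟩ := hcast t n hn
        refine ⟨m + m', ?_, by push_cast; rw [h2, h2']; ring⟩
        show qCoeff ⇑((s.1.1 + t.1.1) f) n = _
        rw [LinearMap.add_apply, HeckeDuality.coeff_add, hm, hm']
        push_cast
        rfl }
  have hint := IntegralStructure.hasIntegralStructure L 2
  have := HeckeDuality.heckeAlgebra_finite_of_integralStructure (N := L) ∅ hint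
  have hsur : Function.Surjective χ₀ := fun z => ⟨(z.val : T), by simp⟩
  have hmax : (RingHom.ker χ₀).IsMaximal := RingHom.ker_isMaximal_of_surjective _ hsur
  have : Algebra.IsIntegral ℤ (FullHecke L) := Algebra.IsIntegral.of_finite ℤ _
  have : Algebra.IsIntegral T (FullHecke L) :=
    ⟨fun x => (Algebra.IsIntegral.isIntegral (R := ℤ) x).tower_top⟩
  have hker : RingHom.ker (algebraMap T (FullHecke L)) ≤ RingHom.ker χ₀ := fun x hx => by
    rw [RingHom.mem_ker] at hx ⊢
    rw [show x = 0 from Subtype.ext hx, map_zero]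
  obtain ⟨Q, hQmax, hQ⟩ := Ideal.exists_ideal_over_maximal_of_isIntegral (RingHom.ker χ₀) hker
  let _ := Ideal.Quotient.field Q
  have hchar : CharP (FullHecke L ⧸ Q) 2 := by
    refine (CharP.charP_iff_prime_eq_zero Nat.prime_two).mpr ?_
    rw [← map_natCast (Ideal.Quotient.mk Q), Ideal.Quotient.eq_zero_iff_mem,
      ← map_natCast (algebraMap T (FullHecke L)), ← Ideal.mem_comap, hQ, RingHom.mem_ker,
      map_natCast]
    rfl
  have hfin : Finite (FullHecke L ⧸ Q) := by
    have h := MazurP.finite_range_of_charP 2 (Ideal.Quotient.mk Q)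
    rw [Ideal.Quotient.mk_surjective.range_eq] at h
    exact Set.finite_univ_iff.mp h
  obtain ⟨g, hg, 𝔪, h𝔪, h2𝔪, hcong⟩ :=
    HeckeDuality.exists_eigenform_lifting (p := 2) hint (Ideal.Quotient.mk Q)
  refine ⟨g, hg, 𝔪, h𝔪, h2𝔪, fun l hl hGl => hcong l hl (a l) ?_⟩
  set t : T := ⟨HeckeDuality.heckeOp L 2 l hl, Algebra.subset_adjoin ⟨l, hl, hGl, rfl⟩⟩ with ht
  have hχ : χ₀ t = (a l : ZMod 2) := huniq t _ (by simpa using hstep l hl hGl f 1 hf)
  have hmem : t - (a l : T) ∈ RingHom.ker χ₀ := by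
    rw [RingHom.mem_ker, map_sub, map_natCast, hχ, sub_self]
  rw [← hQ, Ideal.mem_comap, map_sub, map_natCast, ← Ideal.Quotient.eq, map_natCast] at hmem
  rw [Int.cast_natCast]
  exact hmem

end Fermat.Agent.RT.Two.Theta

end
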