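import Fermat.Agent.RT.Two.Curve.Numerics

/-!
# The conductor level of a twin curve modulo eight

For a curve with `a₁` even and `a₃` odd the discriminant is `5` modulo `8`; when it is negative
with odd exponents the conductor level is `3` modulo `8`.
-/

set_option autoImplicit false

noncomputable section

namespace Fermat.Agent.RT.Two.Theta

open WeierstrassCurve

theorem pow_odd_eq_self : ∀ x : ZMod 8, x ^ 2 = 1 → ∀ e : ℕ, Odd e → x ^ e = x := fun x hx e he => by
  obtain ⟨m, rfl⟩ := he
  rw [pow_succ, pow_mul, hx, one_pow, one_mul]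

theorem natCast_sq_eq_one {q : ℕ} (hq : Odd q) : (q : ZMod 8) ^ 2 = 1 := by
  obtain ⟨m, rfl⟩ := hq
  push_cast
  have : ∀ x : ZMod 8, (2 * x + 1) ^ 2 = 1 := by decide
  exact this _

/-- **The conductor level is `3` modulo `8`.** -/
theorem conductorLevel_mod_eight {E : WeierstrassCurve ℤ} (hE : IsTwinCurve E) :
    E.conductorLevel % 8 = 3 := by
  have hΔ : (E.Δ : ZMod 8) = 5 := by
    rw [← ZMod.intCast_mod E.Δ 8, show E.Δ % ((8 : ℕ) : ℤ) = 5 from hE.Δ_emod_eight]
    rfl
  set n := E.Δ.natAbs with hn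
  have hn0 : n ≠ 0 := Int.natAbs_ne_zero.mpr hE.Δ_ne_zero
  have hn8 : (n : ZMod 8) = 3 := by
    have e : (n : ℤ) = -E.Δ := by rw [hn, Int.ofNat_natAbs_of_nonpos hE.neg.le]
    have := congrArg (Int.cast : ℤ → ZMod 8) e
    push_cast at this
    rw [this, hΔ]
    decide
  have hodd : ∀ q ∈ n.primeFactors, Odd q := fun q hq => by
    refine (Nat.prime_of_mem_primeFactors hq).odd_of_ne_two fun h => ?_
    obtain ⟨c, hc⟩ := h ▸ Nat.dvd_of_mem_primeFactors hq
    rw [hc] at hn8
    push_cast at hn8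
    revert hn8
    generalize (c : ZMod 8) = x
    revert x
    decide
  have hP : E.conductorLevel.primeFactors = n.primeFactors := by
    ext q
    simp only [Nat.mem_primeFactors]
    refine ⟨fun ⟨hq, hd, _⟩ => ⟨hq, ?_, hn0⟩, fun ⟨hq, hd, _⟩ => ⟨hq, ?_, E.conductorLevel_pos.ne'⟩⟩
    · exact Int.natCast_dvd.mp ((E.prime_dvd_conductorLevel_iff hE.Δ_ne_zero hq).mp hd)
    · exact (E.prime_dvd_conductorLevel_iff hE.Δ_ne_zero hq).mpr (Int.natCast_dvd.mpr hd)
  have h1 : (E.conductorLevel : ZMod 8) = (n : ZMod 8) := by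
    conv_rhs => rw [← Nat.prod_factorization_pow_eq_self hn0]
    rw [← Nat.prod_primeFactors_of_squarefree E.squarefree_conductorLevel, hP,
      Finsupp.prod, Nat.support_factorization, Nat.cast_prod, Nat.cast_prod]
    refine Finset.prod_congr rfl fun q hq => ?_
    have hqp := Nat.prime_of_mem_primeFactors hq
    have : Fact q.Prime := ⟨hqp⟩
    have he : Odd (n.factorization q) := by
      have h := hE.odd_exponent q hqp (Int.natCast_dvd.mpr (Nat.dvd_of_mem_primeFactors hq))
      rwa [padicValInt, ← hn, ← Nat.factorization_def n hqp] at h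
    rw [Nat.cast_pow, pow_odd_eq_self _ (natCast_sq_eq_one (hodd q hq)) _ he]
  rw [hn8] at h1
  have := (ZMod.natCast_eq_natCast_iff' E.conductorLevel 3 8).mp (by simpa using h1)
  simpa using this

end Fermat.Agent.RT.Two.Theta

end
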