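import Fermat.Agent.RT.Two.Theta.Defs

/-!
# Gauss sums of binary forms modulo an odd prime
-/

set_option autoImplicit false

noncomputable section

namespace Fermat.Agent.RT.Two.Theta

open Finset

variable {p : ℕ} [Fact p.Prime]

/-- The Gauss sum of a binary form over `ZMod p`. -/
def modSum (a b c k : ZMod p) : ℂ :=
  ∑ v : ZMod p × ZMod p, ZMod.stdAddChar (k * (a * v.1 ^ 2 + b * v.1 * v.2 + c * v.2 ^ 2))

theorem gaussSum_eq_modSum (Q : BinForm) (a : ℤ) :
    Q.gaussSum a p = modSum (Q.a : ZMod p) Q.b Q.c a := rfl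

theorem modSum_congr {a b c k a' b' c' k' : ZMod p} (σ : ZMod p × ZMod p → ZMod p × ZMod p)
    (hσ : Function.Injective σ)
    (h : ∀ v : ZMod p × ZMod p, k * (a * v.1 ^ 2 + b * v.1 * v.2 + c * v.2 ^ 2) =
      k' * (a' * (σ v).1 ^ 2 + b' * (σ v).1 * (σ v).2 + c' * (σ v).2 ^ 2)) :
    modSum a b c k = modSum a' b' c' k' :=
  Fintype.sum_bijective σ (Finite.injective_iff_bijective.1 hσ) _ _ fun v => by rw [h v]

section

variable {n : ZMod p} (hn : n ≠ 0)
include hn

theorem modSum_norm_indep (hp2 : p ≠ 2) {k : ZMod p} (hk : k ≠ 0) :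
    modSum 1 0 n k = modSum 1 0 n 1 := by
  have hdeg : ((Polynomial.X ^ 2 - Polynomial.C k : Polynomial (ZMod p))).degree = 2 :=
    Polynomial.degree_X_pow_sub_C two_pos k
  have hdeg' : (Polynomial.C n * Polynomial.X ^ 2 : Polynomial (ZMod p)).degree = 2 :=
    Polynomial.degree_C_mul_X_pow 2 hn
  have hodd : Fintype.card (ZMod p) % 2 = 1 := by
    rw [ZMod.card]; exact Nat.odd_iff.1 ((Fact.out : p.Prime).odd_of_ne_two hp2)
  obtain ⟨x, y, hxy⟩ := FiniteField.exists_root_sum_quadratic hdeg hdeg' hodd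
  replace hxy : x ^ 2 + n * y ^ 2 = k := by
    simp at hxy; linear_combination hxy
  refine modSum_congr (fun v => (x * v.1 - n * y * v.2, y * v.1 + x * v.2)) ?_ fun v => ?_
  · intro v w h
    simp only [Prod.mk.injEq] at h
    obtain ⟨h1, h2⟩ := h
    refine Prod.ext (mul_left_cancel₀ hk ?_) (mul_left_cancel₀ hk ?_)
    · linear_combination x * h1 + n * y * h2 - (v.1 - w.1) * hxy
    · linear_combination x * h2 - y * h1 - (v.2 - w.2) * hxy
  · linear_combination (-(v.1 ^ 2) - n * v.2 ^ 2) * hxy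

theorem modSum_mul_neg (hp2 : p ≠ 2) :
    modSum 1 0 n 1 * modSum 1 0 n (-1) = (p : ℂ) ^ 2 := by
  have h2 : (2 : ZMod p) ≠ 0 := Ring.two_ne_zero (by rwa [ringChar.eq (ZMod p) p])
  have hψ := ZMod.isPrimitive_stdAddChar p
  simp only [modSum, sum_mul_sum]
  rw [Finset.sum_comm]
  trans ∑ v : ZMod p × ZMod p, ∑ h : ZMod p × ZMod p,
      ZMod.stdAddChar (1 * (1 * h.1 ^ 2 + 0 * h.1 * h.2 + n * h.2 ^ 2)) *
        (ZMod.stdAddChar (v.1 * (2 * h.1)) * ZMod.stdAddChar (v.2 * (2 * n * h.2)))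
  · refine Finset.sum_congr rfl fun v _ => ?_
    rw [← Equiv.sum_comp (Equiv.addRight v)]
    refine Finset.sum_congr rfl fun h _ => ?_
    simp only [Equiv.coe_addRight, Prod.fst_add, Prod.snd_add, ← AddChar.map_add_eq_mul]
    congr 1
    ring
  rw [Finset.sum_comm]
  simp only [← Finset.mul_sum, Fintype.sum_prod_type, ← Finset.mul_sum, ← Finset.sum_mul,
    AddChar.sum_mulShift _ hψ, ZMod.card]
  rw [Finset.sum_eq_single 0 _ (by simp), Finset.sum_eq_single 0 _ (by simp)]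
  · simp [sq]
  · intro y _ hy
    simp [mul_ne_zero (mul_ne_zero h2 hn) hy]
  · intro x _ hx
    simp [mul_ne_zero h2 hx]

theorem modSum_eq_of_left_ne_zero (hp2 : p ≠ 2) {a b c k : ZMod p}
    (hd : b ^ 2 - 4 * a * c = -(4 * n)) (ha : a ≠ 0) (hk : k ≠ 0) :
    modSum a b c k = modSum 1 0 n 1 := by
  have h2 : (2 : ZMod p) ≠ 0 := Ring.two_ne_zero (by rwa [ringChar.eq (ZMod p) p])
  rw [← modSum_norm_indep hn hp2 (mul_ne_zero hk (inv_ne_zero ha))]
  refine modSum_congr (fun v => (a * v.1 + b / 2 * v.2, v.2)) ?_ fun v => ?_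
  · intro v w h
    simp only [Prod.mk.injEq] at h
    obtain ⟨h1, h2'⟩ := h
    refine Prod.ext (mul_left_cancel₀ ha ?_) h2'
    linear_combination h1 - b / 2 * h2'
  · dsimp only
    field_simp
    linear_combination -(v.2 ^ 2) * hd

theorem modSum_eq (hp2 : p ≠ 2) {a b c k : ZMod p}
    (hd : b ^ 2 - 4 * a * c = -(4 * n)) (hk : k ≠ 0) :
    modSum a b c k = modSum 1 0 n 1 := by
  have h2 : (2 : ZMod p) ≠ 0 := Ring.two_ne_zero (by rwa [ringChar.eq (ZMod p) p])
  by_cases ha : a = 0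
  · by_cases hc : c = 0
    · have hb : a + b + c ≠ 0 := by
        rw [ha, hc, zero_add, add_zero]
        rintro rfl
        apply mul_ne_zero (mul_ne_zero h2 h2) hn
        rw [ha] at hd
        linear_combination hd
      rw [← modSum_eq_of_left_ne_zero hn hp2 (b := b + 2 * c) (c := c)
        (by linear_combination hd) hb hk]
      refine (modSum_congr (fun v => (v.1, v.1 + v.2)) ?_ fun v => by ring).symm
      intro v w h
      simp only [Prod.mk.injEq] at h
      exact Prod.ext h.1 (add_left_cancel (h.1 ▸ h.2))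
    · rw [← modSum_eq_of_left_ne_zero hn hp2 (b := b) (c := a)
        (by linear_combination hd) hc hk]
      exact modSum_congr Prod.swap Prod.swap_injective fun v => by
        simp only [Prod.fst_swap, Prod.snd_swap]; ring
  · exact modSum_eq_of_left_ne_zero hn hp2 hd ha hk

end

/-- Two forms of discriminant `-4 N` have Gauss sums with product `p²` modulo `p ∤ 2 N`. -/
theorem gaussSum_mul_gaussSum {Q P : BinForm} {N : ℕ} (hQ : Q.IsPos N) (hP : P.IsPos N)
    (hp2 : p ≠ 2) (hpN : ¬ p ∣ N) {b : ℤ} (hb : (b : ZMod p) ≠ 0) :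
    Q.gaussSum b p * P.gaussSum b p = (p : ℂ) ^ 2 := by
  have hn : (N : ZMod p) ≠ 0 := fun h => hpN ((ZMod.natCast_eq_zero_iff N p).1 h)
  have hd : ∀ R : BinForm, R.IsPos N →
      (R.b : ZMod p) ^ 2 - 4 * R.a * R.c = -(4 * (N : ZMod p)) := fun R hR => by
    have := congrArg (Int.cast : ℤ → ZMod p) hR.disc
    push_cast at this
    exact this
  rw [gaussSum_eq_modSum, gaussSum_eq_modSum, modSum_eq hn hp2 (hd Q hQ) hb,
    modSum_eq hn hp2 (hd P hP) hb]
  conv_lhs => arg 2; rw [← modSum_norm_indep hn hp2 (neg_ne_zero.2 one_ne_zero)]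
  exact modSum_mul_neg hn hp2

end Fermat.Agent.RT.Two.Theta
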