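import Fermat.Agent.RT.Two.Theta.Poisson
import Fermat.Agent.RT.Two.Theta.Gauss

/-!
# Transformation of binary theta series

Splitting the lattice modulo `d` and Poisson summation give the value of a theta series at
`b / d + W / d²`; for `γ ∈ Γ₀(4 N)` with `γ₁₁` an odd prime this is the transformation law.
-/

set_option autoImplicit false

noncomputable section

open Complex Filter
open scoped Real Topology MatrixGroups

namespace Fermat.Agent.RT.Two.Theta

namespace BinForm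

variable {Q : BinForm} {N : ℕ}

theorem theta_add_int (Q : BinForm) (z : ℂ) (n : ℤ) : Q.theta (z + n) = Q.theta z := by
  refine tsum_congr fun v => ?_
  rw [mul_add, Complex.exp_add, show 2 * π * I * ((Q.eval v : ℤ) : ℂ) * (n : ℂ)
    = ((Q.eval v * n : ℤ) : ℂ) * (2 * π * I) by push_cast; ring, exp_int_mul_two_pi_mul_I,
    mul_one]

/-- The exponential sum with a linear term. -/
def linSum (Q : BinForm) (b : ℤ) (d : ℕ) [NeZero d] (ξ : ℤ × ℤ) : ℂ :=
  ∑ u : ZMod d × ZMod d,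
    ZMod.stdAddChar ((b : ZMod d) * Q.eval u + ((ξ.1 : ZMod d) * u.1 + (ξ.2 : ZMod d) * u.2))

theorem linSum_zero (Q : BinForm) (b : ℤ) (d : ℕ) [NeZero d] :
    Q.linSum b d 0 = Q.gaussSum b d := by
  simp [linSum, gaussSum]

theorem norm_linSum_le (Q : BinForm) (b : ℤ) (d : ℕ) [NeZero d] (ξ : ℤ × ℤ) :
    ‖Q.linSum b d ξ‖ ≤ (d : ℝ) * d := by
  refine (norm_sum_le _ _).trans (le_of_eq ?_)
  simp [AddChar.norm_apply, Fintype.card_prod]

/-- The lattice cut along classes modulo `d`. -/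
def splitEquiv (d : ℕ) [NeZero d] : (ZMod d × ZMod d) × (ℤ × ℤ) ≃ ℤ × ℤ where
  toFun p := ((p.1.1.val : ℤ) + d * p.2.1, (p.1.2.val : ℤ) + d * p.2.2)
  invFun v := (((v.1 : ZMod d), (v.2 : ZMod d)), (v.1 / d, v.2 / d))
  left_inv := by
    rintro ⟨⟨u, u'⟩, m, m'⟩
    have hd : (d : ℤ) ≠ 0 := by exact_mod_cast NeZero.ne d
    have h0 : ∀ x : ZMod d, (x.val : ℤ) / (d : ℤ) = 0 := fun x =>
      Int.ediv_eq_zero_of_lt (by positivity) (by exact_mod_cast ZMod.val_lt x)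
    simp [Int.add_mul_ediv_left _ _ hd, h0, -ZMod.natCast_val, ZMod.natCast_zmod_val]
  right_inv := by
    rintro ⟨x, y⟩
    simp [ZMod.val_intCast, Int.emod_add_mul_ediv, -ZMod.natCast_val]

/-- The theta series at `b / d + W / d²`. -/
theorem IsPos.theta_split (h : Q.IsPos N) [NeZero N] (d : ℕ) [NeZero d] (b : ℤ) {W : ℂ}
    (hW : 0 < W.im) :
    Q.theta ((b : ℂ) / d + W / (d : ℂ) ^ 2) = I / (W * Real.sqrt (4 * N)) *
      ∑' ξ : ℤ × ℤ, Q.linSum b d ξ *
        cexp (2 * π * I * (Q.dual.eval ξ : ℤ) * (-1 / (4 * N * W))) := by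
  have hd : (d : ℂ) ≠ 0 := by exact_mod_cast NeZero.ne d
  have hz : 0 < ((b : ℂ) / d + W / (d : ℂ) ^ 2).im := by
    rw [add_im, show (b : ℂ) / d = ((b : ℝ) / d : ℝ) by push_cast; rfl, ofReal_im, zero_add,
      show (d : ℂ) ^ 2 = (((d : ℝ) ^ 2 : ℝ) : ℂ) by push_cast; rfl, div_ofReal_im]
    exact div_pos hW (pow_pos (by exact_mod_cast Nat.pos_of_ne_zero (NeZero.ne d)) 2)
  have hs := (h.summable_theta hz).comp_injective (splitEquiv d).injective
  have hterm : ∀ u : ZMod d × ZMod d, ∀ m : ℤ × ℤ,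
      cexp (2 * π * I * (Q.eval (splitEquiv d (u, m)) : ℤ) * ((b : ℂ) / d + W / (d : ℂ) ^ 2)) =
        ZMod.stdAddChar ((b : ZMod d) * Q.eval u) * cexp (2 * π * I *
          (Q.eval ((m.1 : ℝ) + (u.1.val : ℝ) / d, (m.2 : ℝ) + (u.2.val : ℝ) / d) : ℝ) * W) :=
    fun u m => by
    have e : (b : ZMod d) * Q.eval u = ((b * Q.eval (splitEquiv d (u, m)) : ℤ) : ZMod d) := by
      rw [Int.cast_mul, eval_intCast]
      simp [splitEquiv]
    rw [e, ZMod.stdAddChar_coe, ← Complex.exp_add]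
    congr 1
    simp only [splitEquiv, Equiv.coe_fn_mk, eval, Int.cast_eq]
    push_cast
    field_simp
    ring
  have hlin : ∀ u : ZMod d × ZMod d, ∀ ξ : ℤ × ℤ,
      cexp (2 * π * I * ((ξ.1 : ℂ) * ((u.1.val : ℝ) / d : ℝ) + (ξ.2 : ℂ) * ((u.2.val : ℝ) / d : ℝ)))
        = ZMod.stdAddChar ((ξ.1 : ZMod d) * u.1 + (ξ.2 : ZMod d) * u.2) := fun u ξ => by
    have e : (ξ.1 : ZMod d) * u.1 + (ξ.2 : ZMod d) * u.2
        = ((ξ.1 * u.1.val + ξ.2 * u.2.val : ℤ) : ZMod d) := by simp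
    rw [e, ZMod.stdAddChar_coe]
    congr 1
    push_cast
    field_simp
  have hI : 0 < (-1 / (4 * N * W) : ℂ).im := by
    have hN : (0 : ℝ) < N := by exact_mod_cast Nat.pos_of_ne_zero (NeZero.ne N)
    rw [neg_div, one_div, neg_im, inv_im, neg_div, neg_neg,
      show (4 * N * W : ℂ) = ((4 * N : ℝ) : ℂ) * W by push_cast; ring, im_ofReal_mul]
    exact div_pos (by positivity) (normSq_pos.2 (mul_ne_zero
      (by exact_mod_cast (mul_pos four_pos hN).ne') fun e => by simp [e] at hW))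
  have hsum : ∀ u : ZMod d × ZMod d, Summable fun ξ : ℤ × ℤ =>
      ZMod.stdAddChar ((b : ZMod d) * Q.eval u + ((ξ.1 : ZMod d) * u.1 + (ξ.2 : ZMod d) * u.2)) *
        cexp (2 * π * I * (Q.dual.eval ξ : ℤ) * (-1 / (4 * N * W))) := fun u =>
    (h.dual.summable_theta hI).norm.of_norm_bounded fun ξ => by
      rw [norm_mul, AddChar.norm_apply, one_mul]
  unfold theta
  rw [← (splitEquiv d).tsum_eq, Summable.tsum_prod (by exact hs), tsum_fintype]
  simp only [linSum, Finset.sum_mul]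
  rw [Summable.tsum_finsetSum fun u _ => hsum u, Finset.mul_sum]
  refine Finset.sum_congr rfl fun u _ => ?_
  rw [tsum_congr (hterm u), tsum_mul_left, h.poisson hW ((u.1.val : ℝ) / d, (u.2.val : ℝ) / d),
    mul_left_comm]
  congr 1
  rw [← tsum_mul_left]
  refine tsum_congr fun ξ => ?_
  rw [hlin]
  simp only [AddChar.map_add_eq_mul]
  ring

/-- Modulo a prime not dividing `c`, the linear term is absorbed by a translation. -/
theorem IsPos.linSum_eq (h : Q.IsPos N) {p : ℕ} [NeZero p] {b c' : ℤ}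
    (hbc : (4 : ZMod p) * N * b * c' = -1) (ξ : ℤ × ℤ) :
    Q.linSum b p ξ = Q.gaussSum b p * ZMod.stdAddChar ((c' : ZMod p) * ((Q.dual.eval ξ : ℤ) : ZMod p)) := by
  have hd : (Q.b : ZMod p) ^ 2 - 4 * Q.a * Q.c = -(4 * N) := by
    have := congrArg (Int.cast : ℤ → ZMod p) h.disc
    push_cast at this
    exact this
  rw [gaussSum, Finset.sum_mul]
  refine Fintype.sum_equiv (Equiv.addRight
    ((-(c' : ZMod p) * (2 * Q.c * ξ.1 - Q.b * ξ.2) : ZMod p),
      (-(c' : ZMod p) * (2 * Q.a * ξ.2 - Q.b * ξ.1) : ZMod p))) _ _ fun u => ?_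
  rw [← AddChar.map_add_eq_mul]
  congr 1
  simp only [BinForm.dual, eval, Equiv.coe_addRight, Prod.fst_add, Prod.snd_add, Int.cast_neg,
    Int.cast_eq]
  push_cast
  linear_combination ((ξ.1 : ZMod p) * u.1 + (ξ.2 : ZMod p) * u.2
      - (c' : ZMod p) * (Q.c * ξ.1 ^ 2 - Q.b * ξ.1 * ξ.2 + Q.a * ξ.2 ^ 2)) * hbc
    + ((b : ZMod p) * c' * ((c' : ZMod p) * (Q.c * ξ.1 ^ 2 - Q.b * ξ.1 * ξ.2 + Q.a * ξ.2 ^ 2)
      - ((ξ.1 : ZMod p) * u.1 + (ξ.2 : ZMod p) * u.2))) * hd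

theorem det_eq_one (γ : SL(2, ℤ)) : γ 0 0 * γ 1 1 - γ 0 1 * γ 1 0 = 1 := by
  rw [← Matrix.det_fin_two]; exact γ.2

/-- **The transformation law** when the lower right entry is a prime. -/
theorem IsPos.theta_smul_prime (h : Q.IsPos N) [NeZero N] {γ : SL(2, ℤ)} {p : ℕ} [Fact p.Prime]
    (hp : γ 1 1 = p) {c' : ℤ} (hc : γ 1 0 = 4 * N * c') (z : UpperHalfPlane) :
    Q.theta ((γ • z : UpperHalfPlane) : ℂ) = Q.gaussSum (γ 0 1) p / p *
      ((γ 1 0 : ℂ) * z + (γ 1 1 : ℂ)) * Q.theta (z : ℂ) := by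
  set D : ℂ := (γ 1 0 : ℂ) * z + (γ 1 1 : ℂ) with hD
  have hdet := det_eq_one γ
  rw [hp, hc] at hdet
  have hpC : (p : ℂ) ≠ 0 := by exact_mod_cast (Fact.out : p.Prime).ne_zero
  have hz : (z : ℂ) ≠ 0 := z.ne_zero
  have hD0 : D ≠ 0 := by
    intro e
    have := congrArg Complex.im e
    rw [hD, hc, hp] at this
    simp at this
    rcases this with (hN | hc0) | hz0
    · exact NeZero.ne N hN
    · rw [hD, hc, hp, hc0] at e
      simp [hpC] at e
    · exact z.im_ne_zero hz0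
  set W : ℂ := (p : ℂ) * z / D with hW
  have hpt : ((γ • z : UpperHalfPlane) : ℂ) = ((γ 0 1 : ℤ) : ℂ) / p + W / (p : ℂ) ^ 2 := by
    rw [UpperHalfPlane.coe_specialLinearGroup_apply]
    have e : (γ 0 0 : ℂ) * p - (γ 0 1 : ℂ) * (4 * N * c') = 1 := by exact_mod_cast hdet
    simp only [algebraMap_int_eq, eq_intCast, ofReal_intCast]
    rw [← hD, hW]
    field_simp
    rw [hD, hc, hp]
    push_cast
    linear_combination (z : ℂ) * e
  have hWim : 0 < W.im := by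
    have hi := (γ • z).im_pos
    rw [← UpperHalfPlane.coe_im, hpt, add_im,
      show ((γ 0 1 : ℤ) : ℂ) / p = ((γ 0 1 : ℝ) / p : ℝ) by push_cast; rfl, ofReal_im, zero_add,
      show (p : ℂ) ^ 2 = (((p : ℝ) ^ 2 : ℝ) : ℂ) by push_cast; rfl, div_ofReal_im] at hi
    exact (div_pos_iff_of_pos_right (pow_pos (by exact_mod_cast (Fact.out : p.Prime).pos) 2)).1 hi
  have hbc : (4 : ZMod p) * N * (γ 0 1 : ℤ) * c' = -1 := by
    have := congrArg (Int.cast : ℤ → ZMod p) hdet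
    push_cast at this
    rw [ZMod.natCast_self, mul_zero] at this
    linear_combination -this
  rw [hpt, h.theta_split p (γ 0 1) hWim]
  have hterm : ∀ ξ : ℤ × ℤ, Q.linSum (γ 0 1) p ξ *
      cexp (2 * π * I * (Q.dual.eval ξ : ℤ) * (-1 / (4 * N * W))) =
      Q.gaussSum (γ 0 1) p *
        cexp (2 * π * I * (Q.dual.eval ξ : ℤ) * (-1 / (4 * N * z))) := fun ξ => by
    rw [h.linSum_eq hbc, mul_assoc, ← Int.cast_mul, ZMod.stdAddChar_coe, ← Complex.exp_add]
    congr 2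
    have hNC : (N : ℂ) ≠ 0 := by exact_mod_cast NeZero.ne N
    rw [hW]
    push_cast
    field_simp
    rw [hD, hc, hp]
    push_cast
    ring
  rw [tsum_congr hterm, tsum_mul_left]
  have h0 := h.poisson z.im_pos (0 : ℝ × ℝ)
  simp only [Prod.fst_zero, Prod.snd_zero, add_zero, ofReal_zero, mul_zero, Complex.exp_zero,
    one_mul] at h0
  have hθ : Q.theta (z : ℂ) = I / ((z : ℂ) * Real.sqrt (4 * N)) * ∑' ξ : ℤ × ℤ,
      cexp (2 * π * I * (Q.dual.eval ξ : ℤ) * (-1 / (4 * N * z))) := by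
    refine Eq.trans (tsum_congr fun v => ?_) h0
    simp [eval]
  rw [hθ, hW]
  field_simp

end BinForm

end Fermat.Agent.RT.Two.Theta
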