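import Fermat.Agent.RT.Two.Theta.Analytic
import Fermat.Agent.RT.Two.Theta.Transform
import Fermat.Agent.DeligneSerre.Conjugate
import Fermat.Prelude.Thm_CongruenceSubgroup_one_mem_strictPeriods_Gamma0

/-!
# Weight two cusp forms from binary theta series

`(∑ εᵢ θ_{Qᵢ}) θ_P` is a cusp form on `Γ₀(4 N)` as soon as `∑ εᵢ H_{Qᵢ}(a, c) = 0` for all
coprime `a`, `c`.
-/

set_option autoImplicit false

noncomputable section

open Complex Filter
open UpperHalfPlane hiding I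
open CongruenceSubgroup
open scoped Real Topology MatrixGroups ModularForm Manifold

namespace Fermat.Agent.RT.Two.Theta

variable {N : ℕ} [NeZero N]

theorem slash_two_apply (f : ℍ → ℂ) (γ : SL(2, ℤ)) (τ : ℍ) :
    (f ∣[(2 : ℤ)] γ) τ = f (γ • τ) * (((γ 1 0 : ℂ) * τ + (γ 1 1 : ℂ)) ^ 2)⁻¹ := by
  rw [ModularForm.SL_slash_apply]
  simp [denom, zpow_neg, zpow_ofNat]

theorem slash_two_eq_self {f : ℍ → ℂ} {γ : SL(2, ℤ)}
    (h : ∀ τ : ℍ, f (γ • τ) = ((γ 1 0 : ℂ) * τ + (γ 1 1 : ℂ)) ^ 2 * f τ) :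
    f ∣[(2 : ℤ)] γ = f := by
  funext τ
  rw [ModularForm.slash_action_eq'_iff]
  simpa [zpow_ofNat] using h τ

theorem slash_two_neg (f : ℍ → ℂ) (γ : SL(2, ℤ)) : f ∣[(2 : ℤ)] (-γ) = f ∣[(2 : ℤ)] γ := by
  funext τ
  rw [slash_two_apply, slash_two_apply, ModularGroup.SL_neg_smul]
  simp only [Matrix.SpecialLinearGroup.coe_neg, Matrix.neg_apply, Int.cast_neg]
  rw [show -(γ 1 0 : ℂ) * τ + -(γ 1 1 : ℂ) = -((γ 1 0 : ℂ) * τ + (γ 1 1 : ℂ)) by ring, neg_sq]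

/-- The product of two theta series. -/
def pair (Q P : BinForm) (τ : ℍ) : ℂ := Q.theta (τ : ℂ) * P.theta (τ : ℂ)

variable {Q P : BinForm}

theorem pair_slash_of_eq_zero (Q P : BinForm) {γ : SL(2, ℤ)} (hc : γ 1 0 = 0) :
    pair Q P ∣[(2 : ℤ)] γ = pair Q P := by
  refine slash_two_eq_self fun τ => ?_
  have hdet := BinForm.det_eq_one γ
  rw [hc, mul_zero, sub_zero] at hdet
  have e : ((γ • τ : ℍ) : ℂ) = (τ : ℂ) + ((γ 0 1 * γ 1 1 : ℤ) : ℂ) := by
    rw [coe_specialLinearGroup_apply]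
    rcases Int.mul_eq_one_iff_eq_one_or_neg_one.1 hdet with ⟨h0, h1⟩ | ⟨h0, h1⟩ <;>
      simp [hc, h0, h1]; ring
  have hsq : ((γ 1 0 : ℂ) * τ + (γ 1 1 : ℂ)) ^ 2 = 1 := by
    rcases Int.mul_eq_one_iff_eq_one_or_neg_one.1 hdet with ⟨h0, h1⟩ | ⟨h0, h1⟩ <;> simp [hc, h1]
  rw [hsq, one_mul, pair, pair, e, BinForm.theta_add_int, BinForm.theta_add_int]

theorem pair_slash_prime (hQ : Q.IsPos N) (hP : P.IsPos N) {γ : SL(2, ℤ)} {p : ℕ} [Fact p.Prime]
    (hp2 : p ≠ 2) (hpN : ¬ p ∣ N) (hp : γ 1 1 = p) {c' : ℤ} (hc : γ 1 0 = 4 * N * c') :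
    pair Q P ∣[(2 : ℤ)] γ = pair Q P := by
  refine slash_two_eq_self fun τ => ?_
  have hb : ((γ 0 1 : ℤ) : ZMod p) ≠ 0 := fun h0 => by
    have := congrArg (Int.cast : ℤ → ZMod p) (BinForm.det_eq_one γ)
    rw [hp] at this
    simp [h0] at this
  have hpC : (p : ℂ) ≠ 0 := by exact_mod_cast (Fact.out : p.Prime).ne_zero
  simp only [pair]
  rw [hQ.theta_smul_prime hp hc, hP.theta_smul_prime hp hc]
  have e := gaussSum_mul_gaussSum hQ hP hp2 hpN hb
  field_simp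
  linear_combination (((γ 1 0 : ℂ) * τ + (γ 1 1 : ℂ)) ^ 2 * (Q.theta (τ : ℂ) * P.theta (τ : ℂ))) * e

/-- **Invariance of the product under `Γ₀(4 N)`.** -/
theorem pair_slash_gamma0 (hQ : Q.IsPos N) (hP : P.IsPos N) {γ : SL(2, ℤ)}
    (hγ : γ ∈ Gamma0 (4 * N)) : pair Q P ∣[(2 : ℤ)] γ = pair Q P := by
  obtain ⟨c', hc⟩ : ((4 * N : ℕ) : ℤ) ∣ γ 1 0 :=
    (ZMod.intCast_zmod_eq_zero_iff_dvd _ _).1 (Gamma0_mem.1 hγ)
  push_cast at hc
  by_cases h0 : γ 1 0 = 0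
  · exact pair_slash_of_eq_zero Q P h0
  set q : ℕ := (γ 1 0).natAbs with hq
  have : NeZero q := ⟨by simpa [hq] using h0⟩
  have hu : IsUnit ((γ 1 1 : ℤ) : ZMod q) := by
    refine .of_mul_eq_one ((γ 0 0 : ℤ) : ZMod q) ?_
    have hq0 : ((γ 1 0 : ℤ) : ZMod q) = 0 :=
      (ZMod.intCast_zmod_eq_zero_iff_dvd _ _).2 (hq ▸ Int.natAbs_dvd.2 dvd_rfl)
    have := congrArg (Int.cast : ℤ → ZMod q) (BinForm.det_eq_one γ)
    push_cast at this
    rw [hq0, mul_zero, sub_zero, mul_comm] at this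
    exact this
  obtain ⟨p, hpgt, hp, hpd⟩ := Nat.forall_exists_prime_gt_and_eq_mod hu (2 * N)
  have : Fact p.Prime := ⟨hp⟩
  have hN : 0 < N := Nat.pos_of_ne_zero (NeZero.ne N)
  obtain ⟨t, ht⟩ : γ 1 0 ∣ (p : ℤ) - γ 1 1 := by
    rw [← Int.natAbs_dvd, ← hq, ← ZMod.intCast_zmod_eq_zero_iff_dvd]
    push_cast
    rw [hpd, sub_self]
  set γ' : SL(2, ℤ) := γ * ModularGroup.T ^ t with hγ'
  have h10 : γ' 1 0 = γ 1 0 := by
    simp [hγ', Matrix.SpecialLinearGroup.coe_mul, ModularGroup.coe_T_zpow, Matrix.mul_apply,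
      Fin.sum_univ_two]
  have h11 : γ' 1 1 = p := by
    simp [hγ', Matrix.SpecialLinearGroup.coe_mul, ModularGroup.coe_T_zpow, Matrix.mul_apply,
      Fin.sum_univ_two]
    linarith
  have hT : ∀ n : ℤ, pair Q P ∣[(2 : ℤ)] (ModularGroup.T ^ n) = pair Q P := fun n =>
    pair_slash_of_eq_zero Q P (by simp [ModularGroup.coe_T_zpow])
  have h' := pair_slash_prime hQ hP (p := p) (by omega)
    (fun hd => by have := Nat.le_of_dvd hN hd; omega) h11 (h10.trans hc)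
  have hback : γ = γ' * ModularGroup.T ^ (-t) := by rw [hγ', zpow_neg, mul_inv_cancel_right]
  rw [hback, SlashAction.slash_mul, h', hT]

/-- **Behaviour at a cusp.** -/
theorem tendsto_theta_smul (hQ : Q.IsPos N) {γ : SL(2, ℤ)} {c : ℕ} [NeZero c] (hc : γ 1 0 = c) :
    Tendsto (fun τ : ℍ => Q.theta ((γ • τ : ℍ) : ℂ) / ((γ 1 0 : ℂ) * τ + (γ 1 1 : ℂ))) atImInfty
      (𝓝 (-I / ((c : ℂ) * Real.sqrt (4 * N)) * Q.gaussSum (γ 0 0) c)) := by
  have hcC : (c : ℂ) ≠ 0 := by exact_mod_cast NeZero.ne c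
  have hcR : (0 : ℝ) < c := by exact_mod_cast Nat.pos_of_ne_zero (NeZero.ne c)
  have hNC : (N : ℂ) ≠ 0 := by exact_mod_cast NeZero.ne N
  have hNR : (0 : ℝ) < N := by exact_mod_cast Nat.pos_of_ne_zero (NeZero.ne N)
  set α : ℍ → ℂ := fun τ => ((γ 1 0 : ℂ) * τ + (γ 1 1 : ℂ)) / (4 * N * c) with hα
  have hαim : Tendsto (fun τ => (α τ).im) atImInfty atTop := by
    have : ∀ τ : ℍ, (α τ).im = 1 / (4 * N) * τ.im := fun τ => by
      simp only [hα, hc]
      rw [show (4 * N * c : ℂ) = ((4 * N * c : ℝ) : ℂ) by push_cast; rfl, div_ofReal_im]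
      simp
      field_simp
    simp only [this]
    exact (tendsto_comap).const_mul_atTop (by positivity)
  have key := (hQ.dual.tendsto_tsum hαim (fun ξ => Q.linSum (γ 0 0) c ξ)
    fun ξ => Q.norm_linSum_le _ _ _).const_mul (-I / ((c : ℂ) * Real.sqrt (4 * N)))
  rw [Q.linSum_zero] at key
  refine key.congr fun τ => ?_
  set D : ℂ := (γ 1 0 : ℂ) * τ + (γ 1 1 : ℂ) with hD
  have hDim : 0 < D.im := by
    rw [hD, hc]
    simpa using mul_pos hcR τ.im_pos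
  have hD0 : D ≠ 0 := fun e => by simp [e] at hDim
  have hW : 0 < (-(c : ℂ) / D).im := by
    rw [show (-(c : ℂ) / D).im = c * D.im / normSq D by simp [div_im, neg_div]]
    exact div_pos (mul_pos hcR hDim) (normSq_pos.2 hD0)
  have hpt : ((γ • τ : ℍ) : ℂ) = ((γ 0 0 : ℤ) : ℂ) / c + (-(c : ℂ) / D) / (c : ℂ) ^ 2 := by
    rw [coe_specialLinearGroup_apply]
    simp only [algebraMap_int_eq, eq_intCast, ofReal_intCast]
    rw [← hD]
    field_simp
    have e : (γ 0 0 : ℂ) * (γ 1 1 : ℂ) - (γ 0 1 : ℂ) * c = 1 := by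
      have := BinForm.det_eq_one γ
      rw [hc] at this
      exact_mod_cast this
    rw [hD, hc]
    push_cast
    linear_combination -e
  rw [hpt, hQ.theta_split c (γ 0 0) hW]
  have hexp : ∀ ξ : ℤ × ℤ, cexp (2 * π * I * (Q.dual.eval ξ : ℤ) * α τ)
      = cexp (2 * π * I * (Q.dual.eval ξ : ℤ) * (-1 / (4 * N * (-(c : ℂ) / D)))) := fun ξ => by
    congr 2
    simp only [hα, ← hD]
    field_simp
  simp only [hexp]
  generalize ∑' ξ : ℤ × ℤ, Q.linSum (γ 0 0) c ξ *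
    cexp (2 * π * I * (Q.dual.eval ξ : ℤ) * (-1 / (4 * N * (-(c : ℂ) / D)))) = S
  field_simp

/-- `(∑ εᵢ θ_{Qᵢ}) θ_P`. -/
def combo {ι : Type} [Fintype ι] (Q : ι → BinForm) (P : BinForm) (eps : ι → ℤ) (τ : ℍ) : ℂ :=
  (∑ i, (eps i : ℂ) * (Q i).theta (τ : ℂ)) * P.theta (τ : ℂ)

variable {ι : Type} [Fintype ι] {R : ι → BinForm} {eps : ι → ℤ}

theorem combo_eq (R : ι → BinForm) (P : BinForm) (eps : ι → ℤ) :
    combo R P eps = ∑ i, (eps i : ℂ) • pair (R i) P := by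
  funext τ
  simp [combo, pair, Finset.sum_mul, mul_assoc]

theorem combo_slash (hR : ∀ i, (R i).IsPos N) (hP : P.IsPos N) {γ : SL(2, ℤ)}
    (hγ : γ ∈ Gamma0 (4 * N)) : combo R P eps ∣[(2 : ℤ)] γ = combo R P eps := by
  rw [combo_eq, SlashAction.sum_slash]
  exact Finset.sum_congr rfl fun i _ => by
    rw [ModularForm.SL_smul_slash, pair_slash_gamma0 (hR i) hP hγ]

theorem combo_isZero (hR : ∀ i, (R i).IsPos N) (hP : P.IsPos N)
    (hH : ∀ (c : ℕ) [NeZero c] (a : ℤ), IsCoprime a (c : ℤ) →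
      ∑ i, (eps i : ℂ) * (R i).gaussSum a c = 0) (γ : SL(2, ℤ)) :
    IsZeroAtImInfty (combo R P eps ∣[(2 : ℤ)] γ) := by
  have pos : ∀ δ : SL(2, ℤ), 0 < δ 1 0 → IsZeroAtImInfty (combo R P eps ∣[(2 : ℤ)] δ) := by
    intro δ hδ
    obtain ⟨c, hc⟩ := Int.eq_ofNat_of_zero_le hδ.le
    have : NeZero c := ⟨by omega⟩
    have hcop : IsCoprime (δ 0 0) (c : ℤ) := ⟨δ 1 1, -δ 0 1, by
      have := BinForm.det_eq_one δ
      rw [hc] at this
      linear_combination this⟩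
    have h1 := tendsto_finsetSum Finset.univ fun i _ =>
      (tendsto_theta_smul (hR i) hc).const_mul (eps i : ℂ)
    have h0 : ∑ i, (eps i : ℂ) * (-I / ((c : ℂ) * Real.sqrt (4 * N)) * (R i).gaussSum (δ 0 0) c)
        = 0 := by
      simp only [mul_left_comm ((eps _ : ℤ) : ℂ), ← Finset.mul_sum, hH c _ hcop, mul_zero]
    rw [h0] at h1
    have h2 := h1.mul (tendsto_theta_smul hP hc)
    rw [zero_mul] at h2
    refine h2.congr fun τ => ?_
    rw [slash_two_apply, combo, ← div_eq_mul_inv, sq, ← div_mul_div_comm, Finset.sum_div]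
    simp only [mul_div_assoc]
  rcases lt_trichotomy (γ 1 0) 0 with h | h | h
  · rw [← slash_two_neg]
    exact pos (-γ) (by simpa using h)
  · have hγ : γ ∈ Gamma0 (4 * N) := Gamma0_mem.2 (by rw [h, Int.cast_zero])
    rw [combo_slash hR hP hγ]
    have h1 := (tendsto_finsetSum Finset.univ fun i _ =>
      ((hR i).tendsto_theta).const_mul (eps i : ℂ)).mul hP.tendsto_theta
    have h0 : ∑ i, (eps i : ℂ) * 1 = 0 := by
      have := hH 1 0 (by norm_num [IsCoprime])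
      simpa [BinForm.gaussSum_one] using this
    rw [h0, zero_mul] at h1
    exact h1
  · exact pos γ h

theorem combo_mdiff (hR : ∀ i, (R i).IsPos N) (hP : P.IsPos N) : MDiff (combo R P eps) := by
  rw [combo_eq]
  exact MDifferentiable.sum fun i _ => MDifferentiable.const_smul (eps i : ℂ)
    ((hR i).mdiff_theta.mul hP.mdiff_theta)

theorem hasSum_pair (hQ : Q.IsPos N) (hP : P.IsPos N) (τ : ℍ) :
    HasSum (fun n => ((∑ p ∈ Finset.HasAntidiagonal.antidiagonal n,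
        (Q.repNum p.1 * P.repNum p.2 : ℤ) : ℤ) : ℂ) * Function.Periodic.qParam 1 (τ : ℂ) ^ n)
      (pair Q P τ) := by
  have hf := hQ.hasSum_theta τ
  have hg := hP.hasSum_theta τ
  have e := tsum_mul_tsum_eq_tsum_sum_antidiagonal_of_summable_norm hf.summable.norm hg.summable.norm
  rw [hf.tsum_eq, hg.tsum_eq] at e
  have hs := (summable_sum_mul_antidiagonal_of_summable_norm' hf.summable.norm hf.summable
    hg.summable.norm hg.summable).hasSum
  rw [← e] at hs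
  refine hs.congr_fun fun n => ?_
  push_cast
  rw [Finset.sum_mul]
  refine Finset.sum_congr rfl fun p hp => ?_
  rw [← Finset.HasAntidiagonal.mem_antidiagonal.1 hp, pow_add]
  ring

/-- **The cusp forms `(∑ εᵢ θ_{Qᵢ}) θ_P`.** -/
theorem cuspFormInput : CuspFormInput := by
  intro N _ ι _ Q P eps hQ hP hH
  have : NeZero (4 * N) := ⟨mul_ne_zero four_ne_zero (NeZero.ne N)⟩
  let F : CuspForm (Gamma0 (4 * N)) 2 := DeligneSerre.mkCuspForm (Gamma0 (4 * N)) 2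
    (combo Q P eps) (fun γ hγ => combo_slash hQ hP hγ) (combo_mdiff hQ hP)
    (combo_isZero hQ hP hH)
  refine ⟨F, fun n => (ModularFormClass.qExpansion_coeff_unique (f := F) one_pos
    (one_mem_strictPeriods_Gamma0 _) (c := fun n => ((∑ i, eps i *
      ∑ p ∈ Finset.HasAntidiagonal.antidiagonal n,
        ((Q i).repNum p.1 * P.repNum p.2 : ℤ) : ℤ) : ℂ)) (fun τ => ?_) n).symm⟩
  show HasSum _ (combo Q P eps τ)
  rw [combo_eq, Finset.sum_apply]
  refine (hasSum_sum fun i _ => (hasSum_pair (hQ i) hP τ).mul_left (eps i : ℂ)).congr_fun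
    fun m => ?_
  simp only [Int.cast_sum, Int.cast_mul, smul_eq_mul, Finset.sum_mul, Finset.mul_sum, mul_assoc]

end Fermat.Agent.RT.Two.Theta
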