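import Fermat.Agent.RT.Two.Theta.Classes
import Fermat.Agent.HeckeDuality.Coeff

/-!
# Representation numbers and the cusp form

For odd `n` the weighted representation number is the number of units times the weighted number
of ideals of norm `n`; half of the cusp form has integral coefficients with that parity.
-/

set_option autoImplicit false
set_option linter.unusedSectionVars false

noncomputable section

namespace Fermat.Agent.RT.Two.Theta

open ModularFormClass

variable {O : Type} [CommRing O] [IsDedekindDomain O] [CharZero O] [Module.Free ℤ O]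
  [Module.Finite ℤ O] {N : ℕ} {H : QuadOrder O N}

namespace QuadOrder

variable (H) in
/-- The elements of norm one. -/
def normOne : Finset O := (H.finite_nrm_eq 1).toFinset

theorem mem_normOne {u : O} : u ∈ H.normOne ↔ H.nrm u = 1 := by simp [normOne]

variable (H) in
theorem exists_card_normOne : ∃ k, H.normOne.card = 2 * (2 * k + 1) := by
  classical
  by_cases hN : N = 3
  · refine ⟨1, ?_⟩
    have hM : H.M = 1 := by
      have := H.four_mul
      rw [show (N : ℤ) = 3 by exact_mod_cast hN] at this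
      omega
    set S : Finset (ℤ × ℤ) := {(1, 0), (-1, 0), (0, 1), (0, -1), (1, -1), (-1, 1)}
    have h : H.normOne = S.image (fun p => H.el p.1 p.2) := by
      ext x
      rw [mem_normOne, Finset.mem_image]
      constructor
      · intro hx
        refine ⟨(H.cu x, H.cv x), ?_, H.el_coords x⟩
        rw [nrm, hM, one_mul] at hx
        have h4 : (2 * H.cu x + H.cv x) ^ 2 + 3 * H.cv x ^ 2 = 4 := by linarith
        have b1 : H.cv x ^ 2 ≤ 1 := by nlinarith [sq_nonneg (2 * H.cu x + H.cv x)]
        have b2 : H.cu x ^ 2 ≤ 1 := by nlinarith [sq_nonneg (H.cu x + 2 * H.cv x)]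
        have hv : -1 ≤ H.cv x ∧ H.cv x ≤ 1 :=
          abs_le.mp (sq_le_one_iff_abs_le_one _ |>.mp b1)
        have hu : -1 ≤ H.cu x ∧ H.cu x ≤ 1 :=
          abs_le.mp (sq_le_one_iff_abs_le_one _ |>.mp b2)
        obtain ⟨hv1, hv2⟩ := hv
        obtain ⟨hu1, hu2⟩ := hu
        interval_cases H.cv x <;> interval_cases H.cu x <;> simp [S] at hx ⊢
      · rintro ⟨p, hp, rfl⟩
        simp only [S, Finset.mem_insert, Finset.mem_singleton] at hp
        rcases hp with rfl | rfl | rfl | rfl | rfl | rfl <;> simp [nrm, hM]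
    rw [h, Finset.card_image_of_injective]
    · decide
    · intro p q hpq
      exact Prod.ext (by simpa using congrArg H.cu hpq) (by simpa using congrArg H.cv hpq)
  · refine ⟨0, ?_⟩
    have hN7 : (7 : ℤ) ≤ N := by
      have := H.four_mul
      have : 0 < N := H.N_pos
      have : (N : ℤ) ≠ 3 := by exact_mod_cast hN
      omega
    have h : H.normOne = {1, -1} := by
      ext x
      rw [mem_normOne, Finset.mem_insert, Finset.mem_singleton]
      constructor
      · intro hx
        have h4 := H.four_mul_nrm x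
        rw [hx] at h4
        have hv : H.cv x = 0 := by
          by_contra hv
          have : (1 : ℤ) ≤ H.cv x ^ 2 := (Int.one_le_abs hv).trans (abs_le_sq _)
          nlinarith [sq_nonneg (2 * H.cu x + H.cv x)]
        rw [hv] at h4
        have hu : (H.cu x - 1) * (H.cu x + 1) = 0 := by linarith
        rcases mul_eq_zero.mp hu with hu | hu
        · exact Or.inl (H.ext_coords (by rw [cu_one]; omega) (by rw [cv_one, hv]))
        · exact Or.inr (H.ext_coords (by rw [cu_neg, cu_one]; omega)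
            (by rw [cv_neg, cv_one, hv, neg_zero]))
      · rintro (rfl | rfl) <;> simp [nrm_neg, nrm_one]
    rw [h, Finset.card_pair]
    intro h1
    have := congrArg H.cu h1
    simp [cu_neg] at this

end QuadOrder

namespace ThetaData

variable (D : ThetaData H) (B : FormData H) [Fintype (ClassGroup O)]

/-- The weighted representation number. -/
def repSum (n : ℕ) : ℤ := ∑ i, D.wt B i * (B.Q i).repNum n

theorem even_repSum {n : ℕ} : Even (D.repSum B n) := by
  have : NeZero N := ⟨H.N_pos.ne'⟩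
  rcases eq_or_ne n 0 with rfl | hn
  · refine ⟨0, ?_⟩
    rw [repSum, add_zero, ← D.sum_wt B]
    refine Finset.sum_congr rfl fun i _ => ?_
    rw [BinForm.repNum_zero (B.pos i), Nat.cast_one, mul_one]
  · exact Finset.even_sum _ fun i _ =>
      (Int.even_coe_nat _ |>.mpr (BinForm.even_repNum (B.pos i) hn)).mul_left _

/-- The elements of the chosen ideal of norm `n` times that of the ideal. -/
def elems (n : ℕ) (c : ClassGroup O) [DecidablePred (· ∈ B.J c)] : Finset O :=
  (H.finite_nrm_eq (n * Ideal.absNorm (B.J c) : ℕ)).toFinset.filter (· ∈ B.J c)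

open Classical in
theorem mem_elems {n : ℕ} {c : ClassGroup O} {x : O} :
    x ∈ elems B n c ↔ H.nrm x = ((n * Ideal.absNorm (B.J c) : ℕ) : ℤ) ∧ x ∈ B.J c := by
  simp [elems]

open Classical in
theorem repNum_eq {n : ℕ} (hn : Odd n) (i : ClassGroup O × Fin 3) :
    (B.Q i).repNum n = ((elems B n i.1).filter (H.par · = parVec i.2)).card := by
  rw [BinForm.repNum, ← Nat.card_eq_finsetCard]
  have hn0 : (Ideal.absNorm (B.J i.1) : ℤ) ≠ 0 :=
    Int.natCast_ne_zero.mpr fun h => B.J_ne _ (Ideal.absNorm_eq_zero_iff.mp h)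
  refine Nat.card_congr (Equiv.ofBijective
    (fun v => ⟨QuadOrder.comb (B.e₁ i) (B.e₂ i) v.1, ?_⟩) ⟨fun v w h => ?_, fun x => ?_⟩)
  · obtain ⟨hJ, hp⟩ := (B.lat i _).mpr ⟨v.1, rfl⟩
    have hval := B.val i v.1
    rw [v.2] at hval
    refine Finset.mem_filter.mpr ⟨(mem_elems B).mpr ⟨by rw [hval]; push_cast; rfl, hJ⟩,
      hp.resolve_left fun h0 => ?_⟩
    rw [H.par_eq_zero_iff, hval] at h0
    have : Odd ((n : ℤ) * (Ideal.absNorm (B.J i.1) : ℤ)) :=
      ((Int.odd_coe_nat n).mpr hn).mul ((Int.odd_coe_nat _).mpr (B.J_odd _))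
    exact Int.not_even_iff_odd.mpr this (even_iff_two_dvd.mpr h0)
  · exact Subtype.ext (B.inj i (congrArg Subtype.val h))
  · obtain ⟨hx, hp⟩ := Finset.mem_filter.mp x.2
    obtain ⟨hx1, hx2⟩ := (mem_elems B).mp hx
    obtain ⟨v, hv⟩ := (B.lat i x.1).mp ⟨hx2, Or.inr hp⟩
    refine ⟨⟨v, ?_⟩, Subtype.ext hv⟩
    have hval := B.val i v
    rw [hv, hx1, Nat.cast_mul] at hval
    exact (mul_right_cancel₀ hn0 hval).symm

open Classical in
theorem repSum_eq_elems {n : ℕ} (hn : Odd n) :
    D.repSum B n = ∑ c, ∑ x ∈ elems B n c, eps3 (D.ψ (Ideal.span {x}) - D.ψ (B.J c)) := by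
  rw [repSum, Fintype.sum_prod_type]
  refine Finset.sum_congr rfl fun c _ => ?_
  calc ∑ k, D.wt B (c, k) * ((B.Q (c, k)).repNum n : ℤ)
      = ∑ k, ∑ x ∈ elems B n c,
          if H.par x = parVec k then eps3 (D.ψ (Ideal.span {x}) - D.ψ (B.J c)) else 0 := by
        refine Finset.sum_congr rfl fun k _ => ?_
        rw [repNum_eq B hn (c, k), Finset.sum_ite, Finset.sum_const_zero, add_zero, mul_comm,
          ← nsmul_eq_mul, ← Finset.sum_const]
        refine Finset.sum_congr rfl fun x hx => ?_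
        rw [D.ψ_span_congr (H.rep_odd k)
          ((Finset.mem_filter.mp hx).2.trans (H.par_rep k).symm)]
        rfl
    _ = _ := by
        rw [Finset.sum_comm]
        refine Finset.sum_congr rfl fun x hx => ?_
        obtain ⟨hx1, -⟩ := (mem_elems B).mp hx
        have hodd : ¬ (2 : ℤ) ∣ H.nrm x := by
          rw [hx1]
          have := hn.mul (B.J_odd c)
          rw [← Int.odd_coe_nat, Int.odd_iff] at this
          omega
        obtain ⟨k, hk, hu⟩ := existsUnique_parVec _ (H.par_ne_zero_of_odd hodd)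
        rw [Finset.sum_eq_single k (fun j _ hj => if_neg fun h => hj (hu j h.symm))
          (fun h => absurd (Finset.mem_univ k) h), if_pos hk.symm]

/-- **The weighted representation numbers count ideals.** -/
theorem repSum_odd {n : ℕ} (hn : Odd n) :
    D.repSum B n = H.normOne.card * D.count n := by
  classical
  have hn0 : n ≠ 0 := hn.pos.ne'
  rw [D.repSum_eq_elems B hn, Finset.sum_sigma', count]
  set U : Finset ((_ : ClassGroup O) × O) := Finset.univ.sigma fun c => elems B n c with hU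
  have hex : ∀ p ∈ U,
      ∃ I : Ideal O, Ideal.span {p.2} = B.J p.1 * I := fun p hp =>
    exists_eq_mul ((Ideal.span_singleton_le_iff_mem _).mpr
      ((mem_elems B).mp (Finset.mem_sigma.mp hp).2).2)
  choose! g hg using hex
  have hnorm : ∀ p ∈ U, Ideal.absNorm (g p) = n := by
    intro p hp
    have h := congrArg Ideal.absNorm (hg p hp)
    rw [map_mul] at h
    have h2 := H.absNorm_span p.2
    rw [((mem_elems B).mp (Finset.mem_sigma.mp hp).2).1] at h2
    rw [Int.natCast_inj.mp h2, mul_comm] at h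
    exact (Nat.eq_of_mul_eq_mul_left
      (Nat.pos_of_ne_zero fun h0 => B.J_ne p.1 (Ideal.absNorm_eq_zero_iff.mp h0)) h).symm
  have hψ : ∀ p ∈ U,
      D.ψ (Ideal.span {p.2}) - D.ψ (B.J p.1) = D.ψ (g p) := fun p hp => by
    rw [hg p hp, D.ψ_mul _ _ (B.J_ne _) (ne_bot_of_mem hn0 (mem_idealsOfNorm.mpr (hnorm p hp)))]
    ring
  rw [Finset.sum_congr rfl fun p hp => congrArg eps3 (hψ p hp),
    ← Finset.sum_fiberwise_of_maps_to (t := idealsOfNorm O n) (g := g)
      (fun p hp => mem_idealsOfNorm.mpr (hnorm p hp)), Finset.mul_sum]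
  refine Finset.sum_congr rfl fun I hI => ?_
  rw [Finset.sum_congr rfl (g := fun _ => eps3 (D.ψ I))
    fun p hp => by rw [(Finset.mem_filter.mp hp).2], Finset.sum_const, nsmul_eq_mul]
  congr 1
  rw [Nat.cast_inj]
  have hI0 := ne_bot_of_mem hn0 hI
  rw [mem_idealsOfNorm] at hI
  obtain ⟨x₀, hx₀⟩ := exists_gen (I := B.J (cls I)⁻¹ * I) (mul_ne_zero (B.J_ne _) hI0)
    (by rw [cls_mul (B.J_ne _) hI0, B.J_cls, inv_mul_cancel])
  have hnx : H.nrm x₀ = ((n * Ideal.absNorm (B.J (cls I)⁻¹) : ℕ) : ℤ) := by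
    rw [← H.absNorm_span, ← hx₀, map_mul, hI, mul_comm]
  have hmem₀ : x₀ ∈ B.J (cls I)⁻¹ :=
    Ideal.mul_le_inf.trans inf_le_left (hx₀ ▸ Ideal.mem_span_singleton_self x₀)
  have hx00 : x₀ ≠ 0 := fun h => mul_ne_zero (B.J_ne (cls I)⁻¹) hI0 (by
    rw [hx₀, h, Set.singleton_zero, Ideal.span_zero]; rfl)
  have hfib : (U).filter (fun p => g p = I)
      = H.normOne.image fun u => (⟨(cls I)⁻¹, u * x₀⟩ : (_ : ClassGroup O) × O) := by
    ext ⟨c, x⟩
    simp only [Finset.mem_filter, Finset.mem_image]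
    constructor
    · rintro ⟨hp, hgp⟩
      have hspan := hg _ hp
      rw [hgp] at hspan
      have hc : c = (cls I)⁻¹ := by
        have h := congrArg cls hspan
        rw [cls_span, cls_mul (B.J_ne c) hI0, B.J_cls] at h
        exact eq_inv_of_mul_eq_one_left h.symm
      subst hc
      simp only at hspan
      rw [hx₀, Ideal.span_singleton_eq_span_singleton] at hspan
      obtain ⟨u, hu⟩ := hspan.symm
      refine ⟨u, ?_, by rw [mul_comm, hu]⟩
      rw [QuadOrder.mem_normOne]
      have h1 := congrArg H.nrm hu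
      rw [H.nrm_mul, hnx, ((mem_elems B).mp (Finset.mem_sigma.mp hp).2).1] at h1
      have h0 : ((n * Ideal.absNorm (B.J (cls I)⁻¹) : ℕ) : ℤ) ≠ 0 := by
        rw [← hnx]; exact fun h => hx00 (H.nrm_eq_zero_iff.mp h)
      exact (mul_eq_left₀ h0).mp h1
    · rintro ⟨u, hu, he⟩
      obtain ⟨rfl, he'⟩ := Sigma.mk.inj_iff.mp he
      obtain rfl := eq_of_heq he'
      rw [QuadOrder.mem_normOne] at hu
      have hp : (⟨(cls I)⁻¹, u * x₀⟩ : (_ : ClassGroup O) × O)
          ∈ U :=
        Finset.mem_sigma.mpr ⟨Finset.mem_univ _, (mem_elems B).mpr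
          ⟨by rw [H.nrm_mul, hu, one_mul, hnx], Ideal.mul_mem_left _ _ hmem₀⟩⟩
      refine ⟨hp, ?_⟩
      have huU : IsUnit u := IsUnit.of_mul_eq_one (H.conj u) (by rw [H.mul_conj, hu, Int.cast_one])
      have h := hg _ hp
      rw [Ideal.span_singleton_mul_left_unit huU, ← hx₀] at h
      exact (mul_left_cancel₀ (B.J_ne (cls I)⁻¹) h).symm
  rw [hfib, Finset.card_image_of_injective]
  intro u v huv
  exact mul_right_cancel₀ hx00 (eq_of_heq (Sigma.mk.inj_iff.mp huv).2)

/-- **The cusp form.** -/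
theorem exists_cuspForm (hin : CuspFormInput) :
    ∃ g : CuspForm (CongruenceSubgroup.Gamma0 (4 * N)) 2, ∀ n, ∃ m : ℤ,
      qCoeff g n = (m : ℂ) ∧ (Odd n → (m : ZMod 2) = (D.count n : ZMod 2)) := by
  classical
  obtain ⟨B⟩ := nonempty_formData H
  have : NeZero N := ⟨H.N_pos.ne'⟩
  set P : BinForm := ⟨1, 0, N⟩
  have hP : P.IsPos N := ⟨by norm_num [P], by simp [P]⟩
  obtain ⟨F, hF⟩ := hin N (ClassGroup O × Fin 3) B.Q P (D.wt B) B.pos hP
    fun c _ a _ => D.sum_wt_gaussSum B c a
  choose h' hh using fun n => (D.even_repSum B (n := n))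
  refine ⟨(2⁻¹ : ℂ) • F, fun n => ⟨∑ p ∈ Finset.HasAntidiagonal.antidiagonal n,
    h' p.1 * (P.repNum p.2 : ℤ), ?_, fun hn => ?_⟩⟩
  · rw [HeckeDuality.coeff_smul, hF n]
    have e : (∑ i, D.wt B i * ∑ p ∈ Finset.HasAntidiagonal.antidiagonal n,
        ((B.Q i).repNum p.1 * P.repNum p.2 : ℤ))
        = 2 * ∑ p ∈ Finset.HasAntidiagonal.antidiagonal n, h' p.1 * (P.repNum p.2 : ℤ) := by
      simp only [Finset.mul_sum]
      rw [Finset.sum_comm]
      refine Finset.sum_congr rfl fun p _ => ?_
      rw [← mul_assoc, two_mul, ← hh, repSum, Finset.sum_mul]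
      exact Finset.sum_congr rfl fun i _ => (mul_assoc _ _ _).symm
    rw [e]
    push_cast
    ring
  · rw [Int.cast_sum, Finset.sum_eq_single (n, 0) (fun p hp hne => ?_)
      (fun h => absurd (Finset.HasAntidiagonal.mem_antidiagonal.mpr (add_zero n)) h)]
    · obtain ⟨k, hk⟩ := QuadOrder.exists_card_normOne H
      have h1 : h' n = (2 * k + 1) * D.count n := by
        have h2 := D.repSum_odd B hn
        rw [hh n, hk] at h2
        push_cast at h2
        linarith
      rw [BinForm.repNum_zero hP, Nat.cast_one, mul_one, h1]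
      push_cast
      rw [show (2 : ZMod 2) = 0 from rfl, zero_mul, zero_add, one_mul]
    · have hp2 : p.2 ≠ 0 := fun h0 => hne (Prod.ext
        (by have := Finset.HasAntidiagonal.mem_antidiagonal.mp hp; simp only; omega) h0)
      push_cast
      rw [ZMod.natCast_eq_zero_iff_even.mpr (BinForm.even_repNum hP hp2), mul_zero]

end ThetaData

end Fermat.Agent.RT.Two.Theta

end
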