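import Fermat.Agent.Arith.Frobenius

/-!
# Frobenius on a square root of `-N`

At an odd prime `ℓ` prime to `N` a Frobenius element fixes a square root of `-N` exactly when
`X² - X + M` has a root modulo `ℓ`, where `4 M = N + 1`.
-/

set_option autoImplicit false

noncomputable section

namespace Fermat.Agent.RT.Two.Theta

open Fermat.Agent.Arith IsLocalRing

theorem isIntegral_sqrt {N : ℕ} {s : QBar} (hs : s ^ 2 = -(N : QBar)) : IsIntegral ℤ s :=
  IsIntegral.of_pow two_pos (by rw [hs]; exact (isIntegral_algebraMap (R := ℤ) (x := N)).neg)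

theorem apply_sqrt {N : ℕ} {s : QBar} (hs : s ^ 2 = -(N : QBar)) (σ : GQ) : σ s = s ∨ σ s = -s :=
  sq_eq_sq_iff_eq_or_eq_neg.mp (by rw [← map_pow, hs, map_neg, map_natCast])

variable {N : ℕ} {s : QBar} {l : ℕ} {A : ValuationSubring QBar}

theorem residue_intCast_eq_zero_iff (hA : A.LiesOverPrime l) (hl : l.Prime) (z : ℤ) :
    (z : ResidueField A) = 0 ↔ (z : ZMod l) = 0 := by
  rw [← map_intCast (residue A) z, residue_eq_zero_iff, ← ValuationSubring.coe_mem_nonunits_iff,
    ZMod.intCast_zmod_eq_zero_iff_dvd]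
  show ((z : A) : QBar) ∈ A.nonunits ↔ _
  rw [show ((z : A) : QBar) = (z : QBar) by simp]
  exact intCast_mem_nonunits_iff hA hl z

/-- **Frobenius fixes `√(-N)` iff `-N` is a square.** -/
theorem frobenius_fix_iff (hs : s ^ 2 = -(N : QBar)) [hl : Fact l.Prime] (hl2 : l ≠ 2)
    (hlN : ¬ l ∣ N) (hA : A.LiesOverPrime l) {F : GQ} (hF : A.IsFrobeniusAt F l) :
    F s = s ↔ IsSquare (-(N : ZMod l)) := by
  set k := ResidueField A
  have hsA : s ∈ A := mem_of_isIntegral A (isIntegral_sqrt hs)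
  set S : k := residue A ⟨s, hsA⟩
  have hS2 : S ^ 2 = ((-(N : ℤ) : ℤ) : k) := by
    rw [← map_pow, ← map_intCast (residue A)]
    congr 1
    exact Subtype.ext (by simp [hs])
  have hNl : ((-(N : ℤ) : ℤ) : ZMod l) ≠ 0 := by
    push_cast
    rwa [neg_ne_zero, Ne, ZMod.natCast_eq_zero_iff]
  have hS0 : S ≠ 0 := fun h => hNl ((residue_intCast_eq_zero_iff hA hl.out _).mp (by
    rw [← hS2, h]; ring))
  have h2 : (2 : k) ≠ 0 := fun h => by
    have := (residue_intCast_eq_zero_iff hA hl.out 2).mp (by exact_mod_cast h)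
    rw [show ((2 : ℤ) : ZMod l) = ((2 : ℕ) : ZMod l) by simp, ZMod.natCast_eq_zero_iff] at this
    exact hl2 ((Nat.prime_dvd_prime_iff_eq hl.out Nat.prime_two).mp this)
  obtain ⟨hFA, hcong⟩ := isFrobeniusAt_iff_forall_mem.mp hF
  have hFs : F s ∈ A := map_mem_of_mem_decomposition hFA hsA
  have hres : residue A ⟨F s, hFs⟩ = S ^ l := by
    rw [← map_pow]
    exact residue_eq_iff.mpr (hcong s hsA)
  have hl' : l = 2 * (l / 2) + 1 := by
    have := Nat.odd_iff.mp (hl.out.odd_of_ne_two hl2)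
    omega
  have hpow : S ^ l = (((-(N : ℤ)) ^ (l / 2) : ℤ) : k) * S := by
    conv_lhs => rw [hl', pow_succ, pow_mul, hS2]
    push_cast
    rfl
  have euler : IsSquare (-(N : ZMod l)) ↔ (-(N : ZMod l)) ^ (l / 2) = 1 :=
    ZMod.euler_criterion l (by simpa using hNl)
  have hone : ∀ z : ℤ, (z : k) = 1 ↔ (z : ZMod l) = 1 := fun z => by
    have := residue_intCast_eq_zero_iff hA hl.out (z - 1)
    push_cast at this
    rwa [sub_eq_zero, sub_eq_zero] at this
  rw [euler]
  constructor
  · intro h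
    have hsame : residue A ⟨F s, hFs⟩ = S := congrArg (residue A) (Subtype.ext h)
    rw [hres, hpow] at hsame
    have := (hone _).mp (mul_right_cancel₀ hS0 (hsame.trans (one_mul S).symm))
    push_cast at this
    exact this
  · intro h
    refine (apply_sqrt hs F).resolve_right fun hneg => ?_
    have hsame : residue A ⟨F s, hFs⟩ = -S := by
      rw [← map_neg]
      exact congrArg (residue A) (Subtype.ext hneg)
    rw [hres, hpow, (hone _).mpr (by push_cast; exact h), one_mul] at hsame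
    exact hS0 ((mul_eq_zero.mp (show (2 : k) * S = 0 by linear_combination hsame)).resolve_left h2)

theorem isSquare_iff_exists_root {l : ℕ} [hl : Fact l.Prime] (hl2 : l ≠ 2) {N : ℕ} {M : ℤ}
    (hM : 4 * M = N + 1) :
    IsSquare (-(N : ZMod l)) ↔ ∃ t : ZMod l, t ^ 2 - t + (M : ZMod l) = 0 := by
  have hM' := congrArg (Int.cast : ℤ → ZMod l) hM
  push_cast at hM'
  have h2 : (2 : ZMod l) ≠ 0 := fun h => by
    rw [show (2 : ZMod l) = ((2 : ℕ) : ZMod l) by simp, ZMod.natCast_eq_zero_iff] at h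
    exact hl2 ((Nat.prime_dvd_prime_iff_eq hl.out Nat.prime_two).mp h)
  constructor
  · rintro ⟨c, hc⟩
    refine ⟨(1 + c) / 2, ?_⟩
    field_simp
    linear_combination hM' - hc
  · rintro ⟨t, ht⟩
    exact ⟨2 * t - 1, by linear_combination -4 * ht + hM'⟩

end Fermat.Agent.RT.Two.Theta

end
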