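import Fermat.Agent.RT.Two.Theta.Quad
import Fermat.Agent.RT.Two.Theta.Frob

/-!
# The ring of integers of `ℚ(√-N)`

For squarefree `N ≡ 3 (mod 8)` the ring of integers has the basis `1, (1 + √-N) / 2`.
-/

set_option autoImplicit false

noncomputable section

namespace Fermat.Agent.RT.Two.Theta

open Fermat.Agent.Arith Module
open scoped NumberField

theorem exists_intCast_of_isIntegral {q : ℚ} (h : IsIntegral ℤ (q : QBar)) : ∃ z : ℤ, (z : ℚ) = q := by
  have h' : IsIntegral ℤ q :=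
    (isIntegral_algebraMap_iff (algebraMap ℚ QBar).injective).mp (by rwa [eq_ratCast])
  obtain ⟨z, hz⟩ := IsIntegrallyClosed.isIntegral_iff.mp h'
  exact ⟨z, by simpa using hz⟩

theorem den_eq_one_of_mul_sq {N : ℕ} (hN : Squarefree N) {q : ℚ} {z : ℤ}
    (h : (N : ℚ) * q ^ 2 = z) : q.den = 1 := by
  have hd : ((q.den : ℤ) ^ 2) ∣ (N : ℤ) := by
    refine (IsCoprime.pow (m := 2) (n := 2) (Int.isCoprime_iff_nat_coprime.mpr
      (show (q.num.natAbs).Coprime (q.den : ℤ).natAbs by simpa using q.reduced))).symm.dvd_of_dvd_mul_right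
      ⟨z, ?_⟩
    have h2 : (N : ℚ) * (q.num : ℚ) ^ 2 = (q.den : ℚ) ^ 2 * z := by
      rw [← h, ← Rat.mul_den_eq_num q]; ring
    exact_mod_cast h2
  have hd' : q.den ^ 2 ∣ N := by exact_mod_cast hd
  exact Nat.isUnit_iff.mp (hN q.den (by rwa [← pow_two]))

variable {K : IntermediateField ℚ QBar} {s : QBar} {N : ℕ}

theorem mem_iff_coords (hK : K = IntermediateField.adjoin ℚ {s}) (hs : s ^ 2 = -(N : QBar))
    {x : QBar} (hx : x ∈ K) : ∃ a b : ℚ, x = (a : QBar) + (b : QBar) * s := by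
  subst hK
  induction hx using IntermediateField.adjoin_induction with
  | mem x hx => exact ⟨0, 1, by rw [Set.mem_singleton_iff.mp hx]; simp⟩
  | algebraMap q => exact ⟨q, 0, by simp⟩
  | add x y _ _ hx hy =>
    obtain ⟨a, b, rfl⟩ := hx
    obtain ⟨a', b', rfl⟩ := hy
    exact ⟨a + a', b + b', by push_cast; ring⟩
  | inv x _ hx =>
    obtain ⟨a, b, rfl⟩ := hx
    by_cases h0 : (a : QBar) + (b : QBar) * s = 0
    · exact ⟨0, 0, by rw [h0]; simp⟩
    refine ⟨a / (a ^ 2 + N * b ^ 2), -b / (a ^ 2 + N * b ^ 2), ?_⟩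
    by_cases h1 : a ^ 2 + (N : ℚ) * b ^ 2 = 0
    · have ha : a = 0 := by nlinarith [sq_nonneg a, mul_nonneg (Nat.cast_nonneg (α := ℚ) N) (sq_nonneg b)]
      subst ha
      have hb : (N : ℚ) * b ^ 2 = 0 := by linarith
      refine absurd ?_ h0
      have e : ((b : QBar) * s) ^ 2 = 0 := by
        rw [mul_pow, hs]
        have hb' := congrArg (Rat.cast : ℚ → QBar) hb
        push_cast at hb'
        linear_combination -hb'
      rw [pow_eq_zero_iff two_ne_zero] at e
      rw [e]; simp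
    · have h2 : ((a ^ 2 + (N : ℚ) * b ^ 2 : ℚ) : QBar) ≠ 0 := by exact_mod_cast h1
      push_cast at h2 ⊢
      refine inv_eq_of_mul_eq_one_right ?_
      rw [show ((a : QBar) + b * s) * ((a : QBar) / (a ^ 2 + N * b ^ 2) +
        -(b : QBar) / (a ^ 2 + N * b ^ 2) * s) =
          ((a : QBar) ^ 2 - b ^ 2 * s ^ 2) / (a ^ 2 + N * b ^ 2) by ring, hs, div_eq_one_iff_eq h2]
      ring
  | mul x y _ _ hx hy =>
    obtain ⟨a, b, rfl⟩ := hx
    obtain ⟨a', b', rfl⟩ := hy
    exact ⟨a * a' - N * b * b', a * b' + b * a', by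
      push_cast; linear_combination (b : QBar) * (b' : QBar) * hs⟩

theorem exists_half_coords (hK : K = IntermediateField.adjoin ℚ {s}) (hs : s ^ 2 = -(N : QBar))
    (hN : Squarefree N) (hodd : Odd N) {σ : GQ} (hσ : σ s = -s) {x : QBar} (hx : x ∈ K)
    (hint : IsIntegral ℤ x) : ∃ u v : ℤ, x = (u : QBar) + (v : QBar) * ((1 + s) / 2) := by
  obtain ⟨a, b, rfl⟩ := mem_iff_coords hK hs hx
  set y : QBar := σ ((a : QBar) + (b : QBar) * s) with hy
  have hyint : IsIntegral ℤ y := hint.map (σ : QBar →ₐ[ℚ] QBar).toIntAlgHom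
  have hy' : y = (a : QBar) - (b : QBar) * s := by
    rw [hy, map_add, map_mul, map_ratCast, map_ratCast, hσ]; ring
  obtain ⟨A, hA⟩ := exists_intCast_of_isIntegral (q := 2 * a) (by
    have h := hint.add hyint
    rw [hy'] at h
    rw [show ((2 * a : ℚ) : QBar) = (a : QBar) + b * s + ((a : QBar) - b * s) by push_cast; ring]
    exact h)
  obtain ⟨m, hm⟩ := exists_intCast_of_isIntegral (q := a ^ 2 + N * b ^ 2) (by
    have h := hint.mul hyint
    rw [hy'] at h
    rw [show ((a ^ 2 + N * b ^ 2 : ℚ) : QBar) = ((a : QBar) + b * s) * ((a : QBar) - b * s) by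
      push_cast; linear_combination (b : QBar) ^ 2 * hs]
    exact h)
  have h4 : (N : ℚ) * (2 * b) ^ 2 = ((4 * m - A ^ 2 : ℤ) : ℚ) := by
    push_cast; rw [hA, hm]; ring
  have hb := den_eq_one_of_mul_sq hN h4
  set B := (2 * b).num with hB
  have hB' : (B : ℚ) = 2 * b := Rat.den_eq_one_iff _ |>.mp hb
  have hpar : (4 : ℤ) ∣ A ^ 2 + N * B ^ 2 := ⟨m, by
    have : ((A ^ 2 + N * B ^ 2 : ℤ) : ℚ) = ((4 * m : ℤ) : ℚ) := by
      push_cast; rw [hA, hB', hm]; ring
    exact_mod_cast this⟩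
  have h2 : (2 : ℤ) ∣ A - B := by
    obtain ⟨k, hk⟩ := hodd
    have h2' : ((A ^ 2 + N * B ^ 2 : ℤ) : ZMod 2) = 0 :=
      (ZMod.intCast_zmod_eq_zero_iff_dvd _ 2).mpr ((show (2 : ℤ) ∣ 4 by norm_num).trans hpar)
    apply (intCast_two_eq_zero_iff _).mp
    rw [hk] at h2'
    push_cast at h2' ⊢
    rw [show (2 : ZMod 2) = 0 from rfl, zero_mul, zero_add, one_mul] at h2'
    revert h2'
    generalize (A : ZMod 2) = p, (B : ZMod 2) = q
    revert p q
    decide
  obtain ⟨u, hu⟩ := h2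
  refine ⟨u, B, ?_⟩
  have eA : (A : QBar) = 2 * (a : QBar) := by
    have := congrArg (Rat.cast : ℚ → QBar) hA; push_cast at this; exact this
  have eB : (B : QBar) = 2 * (b : QBar) := by
    have := congrArg (Rat.cast : ℚ → QBar) hB'; push_cast at this; exact this
  have eu : (A : QBar) - (B : QBar) = 2 * (u : QBar) := by exact_mod_cast hu
  linear_combination -(1 / 2 : QBar) * eA - s / 2 * eB + (1 / 2 : QBar) * eu

/-- **The integral basis.** -/
theorem exists_quadOrder [FiniteDimensional ℚ K] (hK : K = IntermediateField.adjoin ℚ {s})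
    (hs : s ^ 2 = -(N : QBar)) (hN : Squarefree N) (h8 : N % 8 = 3) {σ : GQ} (hσ : σ s = -s) :
    ∃ H : QuadOrder (𝓞 K) N, ((H.bas 1 : K) : QBar) = (1 + s) / 2 := by
  obtain ⟨M, hM⟩ : ∃ M : ℤ, 4 * M = N + 1 := ⟨((N : ℤ) + 1) / 4, by omega⟩
  have hMQ : (4 : QBar) * (M : QBar) = (N : QBar) + 1 := by exact_mod_cast hM
  set w : QBar := (1 + s) / 2 with hw
  have hw2 : w * w = w - (M : QBar) := by
    rw [hw]; linear_combination (1 / 4 : QBar) * hs + (1 / 4 : QBar) * hMQ
  have hwK : w ∈ K := by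
    have hsK : s ∈ K := hK ▸ IntermediateField.mem_adjoin_simple_self ℚ s
    exact div_mem (add_mem (one_mem K) hsK) (by simp)
  have hwint : IsIntegral ℤ w := by
    refine ⟨Polynomial.X ^ 2 - Polynomial.X + Polynomial.C M, ?_, ?_⟩
    · monicity!
    · simp only [Polynomial.eval₂_add, Polynomial.eval₂_sub, Polynomial.eval₂_X_pow,
        Polynomial.eval₂_X, Polynomial.eval₂_C]
      rw [eq_intCast]
      linear_combination hw2
  let g : 𝓞 K := ⟨⟨w, hwK⟩,
    (isIntegral_algebraMap_iff (R := ℤ) (A := K) (B := QBar)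
      (algebraMap K QBar).injective).mp hwint⟩
  have coe_comb : ∀ u v : ℤ, (((u • (1 : 𝓞 K) + v • g : 𝓞 K) : K) : QBar)
      = (u : QBar) + (v : QBar) * w := fun u v => by
    show ((algebraMap (𝓞 K) K (u • 1 + v • g) : K) : QBar) = _
    rw [zsmul_eq_mul, zsmul_eq_mul, mul_one, map_add, map_mul, map_intCast, map_intCast]
    push_cast
    rfl
  have hli : LinearIndependent ℤ ![(1 : 𝓞 K), g] := by
    rw [LinearIndependent.pair_iff]
    intro u v huv
    have h := congrArg (fun z : 𝓞 K => ((z : K) : QBar)) huv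
    rw [coe_comb] at h
    simp only [map_zero, ZeroMemClass.coe_zero] at h
    have h' := congrArg σ h
    rw [hw] at h h'
    simp only [map_add, map_mul, map_div₀, map_intCast, map_one, map_ofNat, hσ, map_zero] at h'
    have hs0 : s ≠ 0 := fun e => by
      rw [e] at hs
      norm_num at hs
      omega
    have hv : (v : QBar) = 0 := (mul_eq_zero.mp (show (v : QBar) * s = 0 by
      linear_combination h - h')).resolve_right hs0
    have hv' : v = 0 := by exact_mod_cast hv
    subst hv'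
    refine ⟨?_, rfl⟩
    simp only [Int.cast_zero, zero_mul, add_zero] at h
    exact_mod_cast h
  have hsp : ⊤ ≤ Submodule.span ℤ (Set.range ![(1 : 𝓞 K), g]) := fun x _ => by
    obtain ⟨u, v, huv⟩ := exists_half_coords hK hs hN (Nat.odd_iff.mpr (by omega)) hσ (x : K).2
      ((NumberField.RingOfIntegers.isIntegral_coe x).map
        (IsScalarTower.toAlgHom ℤ K QBar))
    have hx : x = u • (1 : 𝓞 K) + v • g :=
      NumberField.RingOfIntegers.coe_injective (Subtype.ext (huv.trans (coe_comb u v).symm))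
    rw [hx]
    exact add_mem (Submodule.smul_mem _ _ (Submodule.subset_span ⟨0, rfl⟩))
      (Submodule.smul_mem _ _ (Submodule.subset_span ⟨1, rfl⟩))
  refine ⟨⟨Basis.mk hli hsp, M, hM, ?_, by simp, ?_⟩, ?_⟩
  · exact Int.odd_iff.mpr (by omega)
  · simp only [Basis.mk_apply, Matrix.cons_val_one, Matrix.cons_val_fin_one]
    refine NumberField.RingOfIntegers.coe_injective (Subtype.ext ?_)
    show ((algebraMap (𝓞 K) K (g * g) : K) : QBar) = ((algebraMap (𝓞 K) K (g - M) : K) : QBar)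
    rw [map_mul, map_sub, map_intCast]
    push_cast
    exact hw2
  · simp only [Basis.mk_apply, Matrix.cons_val_one, Matrix.cons_val_fin_one]
    rfl

end Fermat.Agent.RT.Two.Theta

end
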