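import Fermat.Agent.RT.Two.Curve.Main
import Fermat.Agent.RT.Two.RingClass.Main
import Fermat.Agent.RT.Two.Seed.Lower
import Fermat.Agent.RT.Two.Theta.RepCount
import Fermat.Agent.RT.Two.Theta.HeckeTwo
import Fermat.Agent.RT.Two.Theta.Main
import Fermat.Agent.RT.Two.Theta.Extend
import Fermat.Agent.RT.Two.Theta.Field
import Fermat.Agent.RT.Two.Theta.Level
import Fermat.Agent.RT.Two.Theta.Ring

/-!
# The seed

The two-torsion of a twin curve occurs at four times its conductor level through a theta series of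
the quadratic field cut out by its sign, hence at its conductor level.
-/

set_option autoImplicit false
set_option linter.style.haveILetI false

noncomputable section

namespace Fermat.Agent.RT.Two

namespace Theta

open Fermat.Agent.Deform Fermat.Agent.Arith
open scoped NumberField

theorem trace_eq_zero_of_cube_ne : ∀ X : M2 (ZMod 2), X.det = 1 → X ^ 3 ≠ 1 → X.trace = 0 := by
  decide

theorem eq_one_iff_trace_of_cube : ∀ X : M2 (ZMod 2), X ^ 3 = 1 → (X = 1 ↔ X.trace = 0) := by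
  decide

theorem cube_of_trace : ∀ X : M2 (ZMod 2), X.det = 1 → X.trace = 1 → X ^ 3 = 1 ∧ X ≠ 1 := by
  decide

/-- The place ideal in the ring of integers. -/
def placeIdeal (K : IntermediateField ℚ QBar) (A : ValuationSubring QBar) : Ideal (𝓞 K) :=
  Ideal.comap ((((K.val : K →ₐ[ℚ] QBar) : K →+* QBar).comp
      (algebraMap (𝓞 K) K)).codRestrict A fun x => Arith.mem_of_isIntegral A
        ((NumberField.RingOfIntegers.isIntegral_coe x).map (IsScalarTower.toAlgHom ℤ K QBar)))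
    (IsLocalRing.maximalIdeal A)

theorem mem_placeIdeal {K : IntermediateField ℚ QBar} {A : ValuationSubring QBar} {x : 𝓞 K} :
    x ∈ placeIdeal K A ↔ ((x : K) : QBar) ∈ A.nonunits := by
  rw [placeIdeal, Ideal.mem_comap, ← ValuationSubring.coe_mem_nonunits_iff]
  rfl

variable {N : ℕ} [NeZero N] {r : GQ →* M2 (ZMod 2)}

/-- **The theta series attached to a dihedral representation.** -/
theorem hasCong_four_mul (hr : Select.IsResidualTwo r N) (hN : Squarefree N) (h8 : N % 8 = 3)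
    (hunr : ∀ v : ℕ, v.Prime → v ≠ 2 → ∀ A : ValuationSubring QBar, A.LiesOverPrime v →
      ∀ τ ∈ A.inertiaSubgroupIn ℚ, r τ ^ 2 = 1)
    (hodd : ∃ τ : GQ, (r τ).trace = 1)
    (hcc : ∃ σ : GQ, r σ ^ 3 ≠ 1)
    {G : ℕ → Prop} {a : ℕ → ℕ}
    (hG : ∀ l, l.Prime → G l → ¬ l ∣ 2 * N ∧ l ≠ 3)
    (T₀ : Finset ℕ) (hT : ∀ l, l.Prime → l ∉ T₀ → G l)
    (hfrob : ∀ l, l.Prime → G l → ∀ A : ValuationSubring QBar, A.LiesOverPrime l →
      ∀ σ : GQ, A.IsFrobeniusAt σ l → (r σ).trace = a l) :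
    MazurP.HasCong (4 * N) 2 G a := by
  classical
  have hdet : ∀ g, (r g).det = 1 := fun g => by
    rw [Matrix.det_fin_two, CharTwo.sub_eq_add]
    exact det_rep r g
  obtain ⟨s, hs, hfix⟩ := exists_sqrt_neg hr hN (by omega)
  obtain ⟨σ₀, hσ₀⟩ := hcc
  have hσs : σ₀ s = -s := (apply_sqrt hs σ₀).resolve_left fun h => hσ₀ ((hfix σ₀).mp h)
  set K : IntermediateField ℚ QBar := IntermediateField.adjoin ℚ {s} with hK
  have hsint : IsIntegral ℚ s := (Algebra.IsAlgebraic.isAlgebraic _).isIntegral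
  haveI hfd : FiniteDimensional ℚ K := IntermediateField.adjoin.finiteDimensional hsint
  have hmemK : ∀ σ : GQ, σ ∈ K.fixingSubgroup ↔ r σ ^ 3 = 1 := fun σ => by
    rw [← hfix, IntermediateField.mem_fixingSubgroup_iff]
    refine ⟨fun h => h _ (IntermediateField.mem_adjoin_simple_self ℚ _), fun h x hx => ?_⟩
    obtain ⟨p, q, rfl⟩ := mem_iff_coords hK hs hx
    rw [map_add, map_mul, map_ratCast, map_ratCast, h]
  haveI hnormal : Normal ℚ K := by
    have hn : K.fixingSubgroup.Normal := ⟨fun n hn g => by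
      rw [hmemK] at hn ⊢
      rw [← map_pow, conj_pow, map_mul, map_mul, map_pow, hn, mul_one, ← map_mul,
        mul_inv_cancel, map_one]⟩
    haveI : IsGalois ℚ K := (InfiniteGalois.normal_iff_isGalois K).1 hn
    exact IsGalois.to_normal
  haveI : NumberField K := ⟨⟩
  obtain ⟨H, hH⟩ := exists_quadOrder (K := K) hK hs hN h8 hσs
  obtain ⟨τ₀, hτ₀⟩ := hodd
  obtain ⟨ψ, ψ_mul, ψ_span, ψ_prime⟩ := RingClass.exists_ringClassChar r hr.ss.finite K hmemK
    ⟨τ₀, cube_of_trace _ (hdet τ₀) hτ₀⟩ hunr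
  have hG2 : ∀ l, l.Prime → G l → l ≠ 2 := fun l hl hg h => (hG l hl hg).1 (h ▸ dvd_mul_right 2 N)
  have hGN : ∀ l, l.Prime → G l → ¬ l ∣ N := fun l hl hg h => (hG l hl hg).1 (h.mul_left 2)
  have hpar : ∀ l, l.Prime → G l → ∀ A : ValuationSubring QBar, A.LiesOverPrime l →
      ∀ σ : GQ, A.IsFrobeniusAt σ l → ((r σ).trace = 0 ↔ Even (a l)) := fun l hl hg A hA σ hσ => by
    rw [hfrob l hl hg A hA σ hσ, ZMod.natCast_eq_zero_iff_even]
  have hroot : ∀ l [Fact l.Prime], G l → ∀ A : ValuationSubring QBar, A.LiesOverPrime l →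
      ∀ σ : GQ, A.IsFrobeniusAt σ l → (r σ ^ 3 = 1 ↔ ∃ t : ZMod l, H.IsRoot t) :=
    fun l hl hg A hA σ hσ => by
      rw [← hfix, frobenius_fix_iff hs (hG2 l hl.out hg) (hGN l hl.out hg) hA hσ,
        isSquare_iff_exists_root (hG2 l hl.out hg) H.four_mul]
      rfl
  let D : ThetaData H := {
    ψ := ψ
    a := a
    good := G
    ψ_mul := ψ_mul
    ψ_span := ψ_span
    not_dvd := fun l hl hg => (hG l hl hg).1
    even_of_inert := fun l hl hg hno => by
      haveI : Fact l.Prime := ⟨hl⟩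
      obtain ⟨A, hA⟩ := exists_liesOverPrime hl
      obtain ⟨F, hF⟩ := exists_isFrobeniusAt hA hl
      exact (hpar l hl hg A hA F hF).mp (trace_eq_zero_of_cube_ne _ (hdet F)
        fun h => ((hroot l hg A hA F hF).mp h).elim hno)
    split := fun l _ hg t ht => by
      have hl : l.Prime := Fact.out
      obtain ⟨A, hA⟩ := exists_liesOverPrime hl
      obtain ⟨F, hF⟩ := exists_isFrobeniusAt hA hl
      have hF3 : r F ^ 3 = 1 := (hroot l hg A hA F hF).mpr ⟨t, ht⟩
      have hP := ψ_prime l hl (hG2 l hl hg) (hG l hl hg).2 A hA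
        (hr.unramified l hl (hG l hl hg).1 A hA) F hF hF3 (placeIdeal K A) fun _ => mem_placeIdeal
      rw [eq_one_iff_trace_of_cube _ hF3, hpar l hl hg A hA F hF] at hP
      haveI : (placeIdeal K A).IsPrime := Ideal.comap_isPrime _ _
      have hlP : (l : 𝓞 K) ∈ placeIdeal K A := mem_placeIdeal.mpr (by
        simpa [ValuationSubring.LiesOverPrime] using hA)
      rcases H.prime_eq_rootIdeal ht (hGN l hl hg) ‹_› hlP with h | h <;> rw [h] at hP
      · exact hP
      · have hsum : ψ (H.rootIdeal t ht) + ψ (H.rootIdeal (1 - t) (H.isRoot_one_sub ht)) = 0 := by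
          rw [← ψ_mul _ _ (H.rootIdeal_ne_bot ht) (H.rootIdeal_ne_bot _),
            H.rootIdeal_mul ht (hGN l hl hg)]
          refine ψ_span _ (Ideal.mem_span_singleton.mpr ?_)
          obtain ⟨k, hk⟩ := hl.odd_of_ne_two (hG2 l hl hg)
          exact ⟨k, by rw [hk]; push_cast; ring⟩
        rw [← hP, add_eq_zero_iff_eq_neg.mp hsum, neg_eq_zero]
    many := fun T => by
      obtain ⟨L, hL, hrL⟩ := hr.ss.finite
      obtain ⟨l, hl, hlT, A, hA, σ, hσ, he⟩ :=
        Arith.Chebotarev.exists_frobenius_eq r L hrL τ₀ (T ∪ T₀)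
      simp only [Finset.mem_union, not_or] at hlT
      refine ⟨l, hl, hT l hl hlT.2, hlT.1, ZMod.natCast_eq_one_iff_odd.mp ?_⟩
      rw [← hfrob l hl (hT l hl hlT.2) A hA σ hσ, he, hτ₀] }
  haveI : Fintype (ClassGroup (𝓞 K)) := inferInstance
  obtain ⟨g, hg⟩ := D.exists_cuspForm cuspFormInput
  refine hasCong_of_parity (b := fun n => (D.count n : ZMod 2)) (fun l hl hgl hd => ?_) ?_ ?_
    (f := g) ?_
  · rcases hl.dvd_mul.mp hd with h | h
    · exact hG2 l hl hgl ((Nat.prime_dvd_prime_iff_eq hl Nat.prime_two).mp h)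
    · rcases hl.dvd_mul.mp h with h | h
      · exact hG2 l hl hgl ((Nat.prime_dvd_prime_iff_eq hl Nat.prime_two).mp
          (hl.dvd_of_dvd_pow (show l ∣ 2 ^ 2 from h)))
      · exact hGN l hl hgl h
  · simp [D.count_one]
  · intro l hl hgl n hn
    have := D.count_rec hl hgl (n := n) hn.pos.ne'
    push_cast at this
    simpa [apply_ite] using this
  · intro n hn
    obtain ⟨m, hm, hpar'⟩ := hg n
    exact ⟨m, hm, by rw [hpar' hn, one_mul]⟩

end Theta

open Theta in
/-- **The seed.** -/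
theorem seedInput : SeedInput := by
  intro E hE
  classical
  obtain ⟨r, K, hr, -, -, -, -, -, hin, hunr, hfrob⟩ := Curve.exists_dihedral_data hE
  have h8 := conductorLevel_mod_eight hE
  set N := E.conductorLevel
  have hgood : ∀ l, l.Prime → GoodOdd E l → ¬ l ∣ 2 * N := fun l hl hg hd =>
    (hl.dvd_mul.mp hd).elim (fun h => hg.2 ((Nat.prime_dvd_prime_iff_eq hl Nat.prime_two).mp h))
      fun h => hg.1 ((E.prime_dvd_conductorLevel_iff hE.Δ_ne_zero hl).mp h)
  let G : ℕ → Prop := fun l => GoodOdd E l ∧ l ≠ 3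
  let T : Finset ℕ := {2, 3} ∪ N.primeFactors
  have hT : ∀ l, l.Prime → l ∉ T → G l := fun l hl hlT => by
    simp only [T, Finset.mem_union, Finset.mem_insert, Finset.mem_singleton, Nat.mem_primeFactors,
      not_or] at hlT
    exact ⟨⟨fun h => hlT.2 ⟨hl, (E.prime_dvd_conductorLevel_iff hE.Δ_ne_zero hl).mpr h,
      E.conductorLevel_pos.ne'⟩, hlT.1.1⟩, hlT.1.2⟩
  obtain ⟨A, hA⟩ := Fermat.Agent.Arith.exists_liesOverPrime Nat.prime_two
  obtain ⟨τ, hτ, htr⟩ := hin A hA
  obtain ⟨p, hp, hpN, -⟩ := hE.exists_three_mod_four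
  have hcc : ∃ σ : Arith.GQ, r σ ^ 3 ≠ 1 := by
    obtain ⟨B, hB⟩ := Fermat.Agent.Arith.exists_liesOverPrime hp
    obtain ⟨σ, hσ, hne⟩ := hr.ramified p hp hpN B hB
    refine ⟨σ, fun h => hne ?_⟩
    rwa [pow_succ, hr.unipotent p hp hpN B hB σ hσ, one_mul] at h
  have h4 : MazurP.HasCong (4 * N) 2 G (parityAp E) :=
    hasCong_four_mul hr E.squarefree_conductorLevel h8 hunr ⟨τ, htr⟩ hcc
      (fun l hl hg => ⟨hgood l hl hg.1, hg.2⟩) T hT
      fun l hl hg A hA σ hσ => (hfrob l hl hg.1 A hA σ hσ).1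
  have hG4 : ∀ l, l.Prime → G l → ¬ l ∣ 4 * N := fun l hl hg hd => by
    rw [show 4 * N = 2 * (2 * N) by ring] at hd
    exact hgood l hl hg.1 ((hl.dvd_mul.mp hd).elim (fun h => h.mul_right N) id)
  have h1 := Seed.exists_seed E.squarefree_conductorLevel hr.odd hE.exists_three_mod_four r
    hr.ss.finite G (parityAp E) T hT hG4 (fun l hl hg => hfrob l hl hg.1)
    ⟨A, hA, τ, hτ, htr⟩ h4
  exact hasCong_extend r hr.ss.finite T hT (fun l _ hg => hg.1) hgood
    (fun l hl hg A hA σ hσ => (hfrob l hl hg A hA σ hσ).1) h1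

end Fermat.Agent.RT.Two

end
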