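import Fermat.Agent.RT.Two.Theta.Summable

/-!
# Holomorphy and Fourier expansion of binary theta series
-/

set_option autoImplicit false

noncomputable section

open Complex Filter
open UpperHalfPlane hiding I
open scoped Real Topology Manifold

namespace Fermat.Agent.RT.Two.Theta

namespace BinForm

variable {Q : BinForm} {N : ℕ}

theorem cexp_eval_eq_qParam_pow (Q : BinForm) {v : ℤ × ℤ} {n : ℕ} (hv : Q.eval v = (n : ℤ))
    (z : ℂ) :
    cexp (2 * π * I * (Q.eval v : ℤ) * z) = Function.Periodic.qParam 1 z ^ n := by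
  rw [hv, Function.Periodic.qParam, ← Complex.exp_nat_mul]
  congr 1
  push_cast
  ring

theorem IsPos.hasSum_theta (h : Q.IsPos N) [NeZero N] (τ : ℍ) :
    HasSum (fun n => (Q.repNum n : ℂ) * Function.Periodic.qParam 1 (τ : ℂ) ^ n)
      (Q.theta (τ : ℂ)) := by
  have hs := (h.summable_theta τ.im_pos).hasSum
  rw [show (∑' v : ℤ × ℤ, cexp (2 * π * I * (Q.eval v : ℤ) * (τ : ℂ))) = Q.theta τ from rfl] at hs
  rw [← (Equiv.sigmaFiberEquiv fun v : ℤ × ℤ => (Q.eval v).toNat).hasSum_iff] at hs
  refine hs.sigma fun n => ?_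
  have e : {v : ℤ × ℤ | Q.eval v = (n : ℤ)} = {v | (Q.eval v).toNat = n} := by
    ext v
    have := h.eval_nonneg v
    simp only [Set.mem_ofPred_eq]
    omega
  have : Finite {v : ℤ × ℤ // (Q.eval v).toNat = n} :=
    (e ▸ h.finite_eval n : {v : ℤ × ℤ | (Q.eval v).toNat = n}.Finite).to_subtype
  have := Fintype.ofFinite {v : ℤ × ℤ // (Q.eval v).toNat = n}
  have hc : Q.repNum n = Fintype.card {v : ℤ × ℤ // (Q.eval v).toNat = n} := by
    rw [← Nat.card_eq_fintype_card]
    refine Nat.card_congr (Equiv.subtypeEquivRight fun v => ?_)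
    have := h.eval_nonneg v
    omega
  convert hasSum_fintype (fun v : {v : ℤ × ℤ // (Q.eval v).toNat = n} =>
    cexp (2 * π * I * (Q.eval v.1 : ℤ) * (τ : ℂ))) using 1
  · rfl
  rw [Finset.sum_congr rfl fun v _ => Q.cexp_eval_eq_qParam_pow (n := n) ?_ (τ : ℂ),
    Finset.sum_const, Finset.card_univ, hc, nsmul_eq_mul]
  have := h.eval_nonneg v.1
  have := v.2
  omega

theorem IsPos.differentiableAt_theta (h : Q.IsPos N) [NeZero N] {z : ℂ} (hz : 0 < z.im) :
    DifferentiableAt ℂ Q.theta z := by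
  have hU : IsOpen {w : ℂ | z.im / 2 < w.im} := isOpen_lt continuous_const Complex.continuous_im
  refine (differentiableOn_tsum_of_summable_norm
    (u := fun v : ℤ × ℤ => Real.exp (-(π * z.im) * (Q.eval v : ℤ)))
    (h.summable_theta_bound (by positivity)) (fun v => ?_) hU fun v w hw => ?_).differentiableAt
    (hU.mem_nhds (by show z.im / 2 < z.im; linarith))
  · exact Differentiable.differentiableOn (by fun_prop)
  · rw [← ofReal_intCast, norm_cexp_eval]
    refine Real.exp_le_exp.2 (mul_le_mul_of_nonneg_right ?_ (by exact_mod_cast h.eval_nonneg v))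
    have hw' : z.im / 2 < w.im := hw
    nlinarith [Real.pi_pos]

theorem IsPos.mdiff_theta (h : Q.IsPos N) [NeZero N] :
    MDiff (fun τ : ℍ => Q.theta (τ : ℂ)) := by
  rw [UpperHalfPlane.mdifferentiable_iff]
  refine DifferentiableOn.congr (f := Q.theta) (fun w hw =>
    (h.differentiableAt_theta hw).differentiableWithinAt) fun w hw => ?_
  simp only [Function.comp_apply, ofComplex_apply_of_im_pos hw]

theorem IsPos.tendsto_theta (h : Q.IsPos N) [NeZero N] :
    Tendsto (fun τ : ℍ => Q.theta (τ : ℂ)) atImInfty (𝓝 1) := by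
  have := h.tendsto_tsum (l := atImInfty) (α := fun τ : ℍ => (τ : ℂ))
    (by simpa [atImInfty] using! tendsto_comap) (fun _ => 1) (C := 1) (fun _ => by simp)
  simpa [theta] using this

end BinForm

end Fermat.Agent.RT.Two.Theta
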