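import Mathlib
import Fermat.Prelude.Def_FLTPrelim_Modularity

/-!
# Binary theta series: definitions

Positive binary quadratic forms of discriminant `-4 N`, their theta series, representation
numbers and Gauss sums, and the statement of the existence of the weight two cusp forms
`(∑ εᵢ θ_{Qᵢ}) θ_P` on `Γ₀(4 N)`.
-/

set_option autoImplicit false

noncomputable section

open UpperHalfPlane

namespace Fermat.Agent.RT.Two.Theta

/-- The integral binary quadratic form `a x² + b x y + c y²`. -/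
@[ext] structure BinForm where
  a : ℤ
  b : ℤ
  c : ℤ

namespace BinForm

/-- The value at a vector, in any commutative ring. -/
def eval (Q : BinForm) {R : Type*} [CommRing R] (v : R × R) : R :=
  Q.a * v.1 ^ 2 + Q.b * v.1 * v.2 + Q.c * v.2 ^ 2

/-- Positive definite of discriminant `-4 N`. -/
structure IsPos (Q : BinForm) (N : ℕ) : Prop where
  a_pos : 0 < Q.a
  disc : Q.b ^ 2 - 4 * Q.a * Q.c = -(4 * N)

/-- The number of representations of `n`. -/
def repNum (Q : BinForm) (n : ℕ) : ℕ :=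
  Nat.card {v : ℤ × ℤ // Q.eval v = (n : ℤ)}

/-- The theta series. -/
def theta (Q : BinForm) (z : ℂ) : ℂ :=
  ∑' v : ℤ × ℤ, Complex.exp (2 * Real.pi * Complex.I * (Q.eval v : ℤ) * z)

/-- The Gauss sum `∑ exp (2πi a Q(v) / c)` over `v` modulo `c`. -/
def gaussSum (Q : BinForm) (a : ℤ) (c : ℕ) [NeZero c] : ℂ :=
  ∑ v : ZMod c × ZMod c, ZMod.stdAddChar ((a : ZMod c) * Q.eval v)

theorem gaussSum_congr {Q Q' : BinForm} {a a' : ℤ} {c : ℕ} [NeZero c]
    (σ : ZMod c × ZMod c → ZMod c × ZMod c) (hσ : Function.Bijective σ)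
    (h : ∀ v, (a : ZMod c) * Q.eval v = (a' : ZMod c) * Q'.eval (σ v)) :
    Q.gaussSum a c = Q'.gaussSum a' c :=
  Fintype.sum_bijective σ hσ _ _ fun v => by rw [h v]

theorem gaussSum_one (Q : BinForm) (a : ℤ) : Q.gaussSum a 1 = 1 := by
  simp [gaussSum, Subsingleton.elim ((a : ZMod 1) * _) (0 : ZMod 1)]

namespace IsPos

variable {Q : BinForm} {N : ℕ}

theorem four_mul_eval (h : Q.IsPos N) (v : ℤ × ℤ) :
    4 * Q.a * Q.eval v = (2 * Q.a * v.1 + Q.b * v.2) ^ 2 + 4 * N * v.2 ^ 2 := by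
  simp only [eval, Int.cast_eq]
  linear_combination -(v.2 ^ 2) * h.disc

theorem c_pos (h : Q.IsPos N) [NeZero N] : 0 < Q.c := by
  have hN : (0 : ℤ) < N := by exact_mod_cast Nat.pos_of_ne_zero (NeZero.ne N)
  have := h.disc
  by_contra hc
  nlinarith [h.a_pos, sq_nonneg Q.b, mul_nonpos_iff.2 (Or.inl ⟨h.a_pos.le, not_lt.1 hc⟩)]

theorem eval_nonneg (h : Q.IsPos N) (v : ℤ × ℤ) : 0 ≤ Q.eval v := by
  have := h.four_mul_eval v
  have h0 : 0 ≤ 4 * Q.a * Q.eval v := this ▸ by positivity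
  exact nonneg_of_mul_nonneg_right h0 (by linarith [h.a_pos])

theorem sq_le (h : Q.IsPos N) (v : ℤ × ℤ) :
    (N : ℤ) * (v.1 ^ 2 + v.2 ^ 2) ≤ (Q.a + Q.c) * Q.eval v := by
  have h1 : (N : ℤ) * v.2 ^ 2 ≤ Q.a * Q.eval v := by
    nlinarith [h.four_mul_eval v, sq_nonneg (2 * Q.a * v.1 + Q.b * v.2)]
  have h2 : (N : ℤ) * v.1 ^ 2 ≤ Q.c * Q.eval v := by
    have : 4 * Q.c * Q.eval v = (2 * Q.c * v.2 + Q.b * v.1) ^ 2 + 4 * N * v.1 ^ 2 := by
      simp only [eval, Int.cast_eq]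
      linear_combination -(v.1 ^ 2) * h.disc
    nlinarith [sq_nonneg (2 * Q.c * v.2 + Q.b * v.1)]
  linarith

theorem finite_eval (h : Q.IsPos N) [NeZero N] (n : ℕ) :
    {v : ℤ × ℤ | Q.eval v = (n : ℤ)}.Finite := by
  refine ((Set.finite_Icc (-((Q.a + Q.c) * n)) ((Q.a + Q.c) * n)).prod
    (Set.finite_Icc (-((Q.a + Q.c) * n)) ((Q.a + Q.c) * n))).subset ?_
  intro v (hv : Q.eval v = n)
  have hN : (1 : ℤ) ≤ N := by exact_mod_cast Nat.one_le_iff_ne_zero.2 (NeZero.ne N)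
  have := h.sq_le v
  rw [hv] at this
  have h1 : v.1 ^ 2 + v.2 ^ 2 ≤ (Q.a + Q.c) * n := le_trans
    (le_mul_of_one_le_left (by positivity) hN) this
  have a1 := Int.natAbs_le_self_sq v.1
  have a2 := Int.natAbs_le_self_sq v.2
  simp only [Set.mem_prod, Set.mem_Icc]
  constructor <;> constructor <;>
    nlinarith [le_abs_self v.1, neg_abs_le v.1, le_abs_self v.2, neg_abs_le v.2,
      Int.natCast_natAbs v.1, Int.natCast_natAbs v.2, sq_nonneg v.1, sq_nonneg v.2]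

end IsPos

end BinForm

/-- For forms `Qᵢ`, `P` of discriminant `-4 N`: if all Gauss sums of `∑ εᵢ Qᵢ` vanish, then
`(∑ εᵢ θ_{Qᵢ}) θ_P` is a cusp form of weight two on `Γ₀(4 N)`. -/
def CuspFormInput : Prop :=
  ∀ (N : ℕ) [NeZero N] (ι : Type) [Fintype ι] (Q : ι → BinForm) (P : BinForm) (eps : ι → ℤ),
    (∀ i, (Q i).IsPos N) → P.IsPos N →
    (∀ (c : ℕ) [NeZero c] (a : ℤ), IsCoprime a (c : ℤ) →
      ∑ i, (eps i : ℂ) * (Q i).gaussSum a c = 0) →
    ∃ F : CuspForm (CongruenceSubgroup.Gamma0 (4 * N)) 2, ∀ n, ModularFormClass.qCoeff F n =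
      ((∑ i, eps i * ∑ p ∈ Finset.HasAntidiagonal.antidiagonal n,
        ((Q i).repNum p.1 * P.repNum p.2 : ℤ) : ℤ) : ℂ)

end Fermat.Agent.RT.Two.Theta
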