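import Fermat.Agent.RT.Two.Theta.Quad
import Fermat.Agent.RT.Two.Theta.Defs

/-!
# Lattices with prescribed parity inside an ideal, as binary forms
-/

set_option autoImplicit false
set_option linter.unusedSectionVars false

noncomputable section

namespace Fermat.Agent.RT.Two.Theta

/-- The three nonzero parities. -/
def parVec : Fin 3 → ZMod 2 × ZMod 2 := ![(1, 0), (0, 1), (1, 1)]

/-- The product of parities for `ω² = ω + 1`. -/
def pmul (p q : ZMod 2 × ZMod 2) : ZMod 2 × ZMod 2 :=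
  (p.1 * q.1 + p.2 * q.2, p.1 * q.2 + q.1 * p.2 + p.2 * q.2)

theorem existsUnique_parVec : ∀ p : ZMod 2 × ZMod 2, p ≠ 0 →
    ∃ k, parVec k = p ∧ ∀ j, parVec j = p → j = k := by decide

theorem parVec_ne_zero : ∀ k, parVec k ≠ 0 := by decide

theorem exists_pmul_parVec : ∀ p q : ZMod 2 × ZMod 2, p ≠ 0 → q ≠ 0 → ∀ k,
    ∃ j, pmul q (parVec j) = pmul p (parVec k) := by decide

theorem pmul_parVec_inj : ∀ p : ZMod 2 × ZMod 2, p ≠ 0 → ∀ k j,
    pmul p (parVec k) = pmul p (parVec j) → k = j := by decide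

theorem pmul_inj : ∀ p z w : ZMod 2 × ZMod 2, p ≠ 0 → pmul p z = pmul p w → z = w := by decide

theorem pmul_zero' : ∀ p : ZMod 2 × ZMod 2, pmul p 0 = 0 := by decide

theorem parity_transfer {p q z y : ZMod 2 × ZMod 2} (hp : p ≠ 0) {k j : Fin 3}
    (h : pmul q (parVec j) = pmul p (parVec k)) (hz : pmul p z = pmul q y)
    (hy : y = 0 ∨ y = parVec j) : z = 0 ∨ z = parVec k := by
  rcases hy with rfl | rfl
  · exact Or.inl (pmul_inj p z 0 hp (by rw [hz, pmul_zero', pmul_zero']))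
  · exact Or.inr (pmul_inj p z _ hp (hz.trans h))

theorem parity_cases : ∀ β γ p : ZMod 2 × ZMod 2, β.1 * γ.2 - γ.1 * β.2 ≠ 0 → p ≠ 0 →
    (β = p ∧ ∀ a c : ZMod 2,
      ((a * β.1 + c * γ.1, a * β.2 + c * γ.2) = 0 ∨ (a * β.1 + c * γ.1, a * β.2 + c * γ.2) = p) ↔
        c = 0) ∨
    (γ = p ∧ ∀ a c : ZMod 2,
      ((a * β.1 + c * γ.1, a * β.2 + c * γ.2) = 0 ∨ (a * β.1 + c * γ.1, a * β.2 + c * γ.2) = p) ↔
        a = 0) ∨
    (∀ a c : ZMod 2,
      ((a * β.1 + c * γ.1, a * β.2 + c * γ.2) = 0 ∨ (a * β.1 + c * γ.1, a * β.2 + c * γ.2) = p) ↔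
        a = c) := by decide

namespace BinForm

/-- The discriminant under a substitution. -/
theorem disc_subst (Q : BinForm) (p q r s : ℤ) :
    (Q.eval (p + r, q + s) - Q.eval (p, q) - Q.eval (r, s)) ^ 2
        - 4 * Q.eval (p, q) * Q.eval (r, s)
      = (p * s - q * r) ^ 2 * (Q.b ^ 2 - 4 * Q.a * Q.c) := by
  simp only [eval, Int.cast_eq]
  ring

/-- A substitution scaling a form by a square prime to `c` does not change the Gauss sum. -/
theorem gaussSum_scale {Q Q' : BinForm} {p q r s m : ℤ} {c : ℕ} [NeZero c]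
    (h : ∀ v : ℤ × ℤ, Q.eval (p * v.1 + r * v.2, q * v.1 + s * v.2) = m ^ 2 * Q'.eval v)
    (hm : IsUnit (m : ZMod c)) (hdet : IsUnit ((p * s - q * r : ℤ) : ZMod c)) (a : ℤ) :
    Q'.gaussSum a c = Q.gaussSum a c := by
  obtain ⟨k, hk⟩ := hm.exists_right_inv
  have h1 := h (1, 0)
  have h2 := h (0, 1)
  have h3 := h (1, 1)
  simp only [eval, Int.cast_eq, mul_one, mul_zero, add_zero, zero_add, one_pow, ne_eq,
    OfNat.ofNat_ne_zero, not_false_eq_true, zero_pow] at h1 h2 h3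
  have hb : 2 * Q.a * p * r + Q.b * (p * s + q * r) + 2 * Q.c * q * s = m ^ 2 * Q'.b := by
    linear_combination h3 - h1 - h2
  have e1 := congrArg (Int.cast (R := ZMod c)) h1
  have e2 := congrArg (Int.cast (R := ZMod c)) h2
  have e3 := congrArg (Int.cast (R := ZMod c)) hb
  push_cast at e1 e2 e3 hdet
  let σ : ZMod c × ZMod c → ZMod c × ZMod c := fun v =>
    (k * ((p : ZMod c) * v.1 + (r : ZMod c) * v.2), k * ((q : ZMod c) * v.1 + (s : ZMod c) * v.2))
  refine gaussSum_congr σ (Finite.injective_iff_bijective.mp fun v w hvw => ?_) fun v => ?_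
  · simp only [σ, Prod.ext_iff] at hvw
    obtain ⟨d, hd⟩ := hdet.exists_right_inv
    have hk' : (m : ZMod c) * k = 1 := hk
    have hA : (p : ZMod c) * v.1 + (r : ZMod c) * v.2 = (p : ZMod c) * w.1 + (r : ZMod c) * w.2 := by
      linear_combination (m : ZMod c) * hvw.1 - ((p : ZMod c) * v.1 + (r : ZMod c) * v.2
        - (p : ZMod c) * w.1 - (r : ZMod c) * w.2) * hk'
    have hB : (q : ZMod c) * v.1 + (s : ZMod c) * v.2 = (q : ZMod c) * w.1 + (s : ZMod c) * w.2 := by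
      linear_combination (m : ZMod c) * hvw.2 - ((q : ZMod c) * v.1 + (s : ZMod c) * v.2
        - (q : ZMod c) * w.1 - (s : ZMod c) * w.2) * hk'
    refine Prod.ext ?_ ?_
    · linear_combination ((s : ZMod c) * d) * hA - ((r : ZMod c) * d) * hB - (v.1 - w.1) * hd
    · linear_combination ((p : ZMod c) * d) * hB - ((q : ZMod c) * d) * hA - (v.2 - w.2) * hd
  · simp only [σ, eval]
    linear_combination (-(a : ZMod c) * k ^ 2 * v.1 ^ 2) * e1
      - ((a : ZMod c) * k ^ 2 * v.1 * v.2) * e3 - ((a : ZMod c) * k ^ 2 * v.2 ^ 2) * e2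
      - ((a : ZMod c) * ((Q'.a : ZMod c) * v.1 ^ 2 + (Q'.b : ZMod c) * v.1 * v.2
        + (Q'.c : ZMod c) * v.2 ^ 2) * ((m : ZMod c) * k + 1)) * hk

theorem even_repNum {Q : BinForm} {N : ℕ} [NeZero N] (hQ : Q.IsPos N) {n : ℕ} (hn : n ≠ 0) :
    Even (Q.repNum n) := by
  classical
  set S := (hQ.finite_eval n).toFinset with hS
  have hcard : Q.repNum n = S.card := by
    rw [repNum, ← Nat.card_eq_finsetCard]
    exact Nat.card_congr (Equiv.subtypeEquivRight fun v => by simp [hS])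
  rw [hcard, ← ZMod.natCast_eq_zero_iff_even, Finset.cast_card]
  refine Finset.sum_involution (fun v _ => -v) (fun _ _ => CharTwo.add_self_eq_zero _)
    (fun v hv _ h => hn ?_) (fun v hv => ?_) (fun v _ => neg_neg v)
  · have hv' : Q.eval v = (n : ℤ) := by simpa [hS] using hv
    have hz : v = 0 := by
      have e1 := congrArg Prod.fst h
      have e2 := congrArg Prod.snd h
      simp only [Prod.fst_neg, Prod.snd_neg] at e1 e2
      exact Prod.ext (show v.1 = 0 by omega) (show v.2 = 0 by omega)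
    rw [hz] at hv'
    simp [eval] at hv'
    exact_mod_cast hv'.symm
  · have hv' : Q.eval v = (n : ℤ) := by simpa [hS] using hv
    simp only [hS, Set.Finite.mem_toFinset, Set.mem_ofPred_eq]
    rw [← hv']
    simp [eval]

theorem repNum_zero {Q : BinForm} {N : ℕ} [NeZero N] (hQ : Q.IsPos N) : Q.repNum 0 = 1 := by
  have hN : (1 : ℤ) ≤ N := by exact_mod_cast Nat.one_le_iff_ne_zero.2 (NeZero.ne N)
  rw [repNum]
  let : Unique {v : ℤ × ℤ // Q.eval v = ((0 : ℕ) : ℤ)} :=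
    { default := ⟨0, by simp [eval]⟩
      uniq := fun ⟨v, hv⟩ => Subtype.ext (by
        have h := hQ.sq_le v
        rw [hv, Nat.cast_zero, mul_zero] at h
        have h1 : v.1 ^ 2 + v.2 ^ 2 ≤ 0 := by nlinarith [sq_nonneg v.1, sq_nonneg v.2]
        obtain ⟨e1, e2⟩ := (add_eq_zero_iff_of_nonneg (sq_nonneg v.1) (sq_nonneg v.2)).mp
          (le_antisymm h1 (by positivity))
        exact Prod.ext (sq_eq_zero_iff.mp e1) (sq_eq_zero_iff.mp e2)) }
  exact Nat.card_unique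

end BinForm

namespace QuadOrder

variable {O : Type} [CommRing O] [IsDedekindDomain O] [CharZero O] [Module.Free ℤ O]
  [Module.Finite ℤ O] {N : ℕ} (H : QuadOrder O N)

theorem par_mul (x y : O) : H.par (x * y) = pmul (H.par x) (H.par y) := by
  have hM : (H.M : ZMod 2) = 1 := ZMod.intCast_eq_one_iff_odd.mpr H.odd
  simp only [par, pmul, cu_mul, cv_mul, Prod.mk.injEq]
  push_cast [hM]
  exact ⟨by rw [one_mul, CharTwo.sub_eq_add], rfl⟩

/-- Representatives of the parities. -/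
def rep (k : Fin 3) : O := H.el ((parVec k).1.val : ℤ) ((parVec k).2.val : ℤ)

theorem par_rep (k : Fin 3) : H.par (H.rep k) = parVec k := by
  simp [rep, par]

theorem par_ne_zero_of_odd {x : O} (hx : ¬ (2 : ℤ) ∣ H.nrm x) : H.par x ≠ 0 :=
  fun h => hx (H.par_eq_zero_iff.mp h)

theorem rep_odd (k : Fin 3) : ¬ (2 : ℤ) ∣ H.nrm (H.rep k) := fun h =>
  parVec_ne_zero k (H.par_rep k ▸ H.par_eq_zero_iff.mpr h)

/-- The elements of an ideal with parity zero or a given one. -/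
def InLat (J : Ideal O) (k : Fin 3) (x : O) : Prop :=
  x ∈ J ∧ (H.par x = 0 ∨ H.par x = parVec k)

/-- Linear combinations. -/
def comb (e₁ e₂ : O) (v : ℤ × ℤ) : O := (v.1 : O) * e₁ + (v.2 : O) * e₂

theorem cu_comb (e₁ e₂ : O) (v : ℤ × ℤ) :
    H.cu (comb e₁ e₂ v) = v.1 * H.cu e₁ + v.2 * H.cu e₂ := by
  simp [comb, cu_add, cu_mul]

theorem cv_comb (e₁ e₂ : O) (v : ℤ × ℤ) :
    H.cv (comb e₁ e₂ v) = v.1 * H.cv e₁ + v.2 * H.cv e₂ := by
  simp [comb, cv_add, cv_mul]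

/-- The determinant in coordinates. -/
def det (e₁ e₂ : O) : ℤ := H.cu e₁ * H.cv e₂ - H.cu e₂ * H.cv e₁

theorem comb_injective {e₁ e₂ : O} (h : H.det e₁ e₂ ≠ 0) :
    Function.Injective (comb e₁ e₂) := by
  intro v w hvw
  have h1 := congrArg H.cu hvw
  have h2 := congrArg H.cv hvw
  simp only [cu_comb, cv_comb] at h1 h2
  refine Prod.ext ?_ ?_ <;> refine sub_eq_zero.mp ((mul_eq_zero.mp ?_).resolve_left h)
  · simp only [det]; linear_combination H.cv e₂ * h1 - H.cu e₂ * h2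
  · simp only [det]; linear_combination H.cu e₁ * h2 - H.cv e₁ * h1

theorem exists_lattice_basis {J : Ideal O} (hJ : J ≠ ⊥) (hodd : Odd (Ideal.absNorm J)) (k : Fin 3) :
    ∃ e₁ e₂ : O, (H.det e₁ e₂).natAbs = 2 * Ideal.absNorm J ∧
      ∀ x, H.InLat J k x ↔ ∃ v, comb e₁ e₂ v = x := by
  set bJ := Ideal.selfBasis H.bas J hJ with hbJ
  set b₁ : O := (bJ 0 : O) with hb₁
  set b₂ : O := (bJ 1 : O) with hb₂
  have hD : (H.det b₁ b₂).natAbs = Ideal.absNorm J := by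
    rw [← Ideal.natAbs_det_basis_change H.bas J bJ, Module.Basis.det_apply, Matrix.det_fin_two]
    rfl
  have hmem : ∀ x, x ∈ J ↔ ∃ v, comb b₁ b₂ v = x := by
    intro x
    constructor
    · intro hx
      refine ⟨(bJ.repr ⟨x, hx⟩ 0, bJ.repr ⟨x, hx⟩ 1), ?_⟩
      have h := congrArg Subtype.val (bJ.sum_repr ⟨x, hx⟩)
      rw [Fin.sum_univ_two] at h
      simpa [comb, zsmul_eq_mul, hb₁, hb₂] using h
    · rintro ⟨v, rfl⟩
      exact J.add_mem (J.mul_mem_left _ (bJ 0).2) (J.mul_mem_left _ (bJ 1).2)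
  have hdet : (H.par b₁).1 * (H.par b₂).2 - (H.par b₂).1 * (H.par b₁).2 ≠ 0 := by
    intro h0
    have h1 : ((H.det b₁ b₂ : ℤ) : ZMod 2) = 0 := by
      simp only [det]; push_cast; exact h0
    have h2 : Odd (H.det b₁ b₂) := Int.natAbs_odd.mp (hD ▸ hodd)
    rw [ZMod.intCast_eq_one_iff_odd.mpr h2] at h1
    exact one_ne_zero h1
  have hpar : ∀ v : ℤ × ℤ, H.par (comb b₁ b₂ v)
      = ((v.1 : ZMod 2) * (H.par b₁).1 + (v.2 : ZMod 2) * (H.par b₂).1,
        (v.1 : ZMod 2) * (H.par b₁).2 + (v.2 : ZMod 2) * (H.par b₂).2) := fun v => by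
    simp [par, cu_comb, cv_comb]
  have hiff : ∀ x, H.InLat J k x ↔ ∃ v, comb b₁ b₂ v = x ∧
      (((v.1 : ZMod 2) * (H.par b₁).1 + (v.2 : ZMod 2) * (H.par b₂).1,
        (v.1 : ZMod 2) * (H.par b₁).2 + (v.2 : ZMod 2) * (H.par b₂).2) = 0 ∨
      ((v.1 : ZMod 2) * (H.par b₁).1 + (v.2 : ZMod 2) * (H.par b₂).1,
        (v.1 : ZMod 2) * (H.par b₁).2 + (v.2 : ZMod 2) * (H.par b₂).2) = parVec k) := by
    intro x
    constructor
    · rintro ⟨hx, hp⟩
      obtain ⟨v, rfl⟩ := (hmem x).mp hx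
      exact ⟨v, rfl, by rwa [hpar] at hp⟩
    · rintro ⟨v, rfl, hp⟩
      exact ⟨(hmem _).mpr ⟨v, rfl⟩, by rwa [hpar]⟩
  rcases parity_cases _ _ _ hdet (parVec_ne_zero k) with ⟨-, h⟩ | ⟨-, h⟩ | h
  · refine ⟨b₁, 2 * b₂, ?_, fun x => ?_⟩
    · rw [show H.det b₁ (2 * b₂) = 2 * H.det b₁ b₂ by
        simp only [det, two_mul, cu_add, cv_add]; ring, Int.natAbs_mul, hD]
      rfl
    · rw [hiff]
      constructor
      · rintro ⟨v, rfl, hp⟩
        obtain ⟨j, hj⟩ := (intCast_two_eq_zero_iff _).mp ((h _ _).mp hp)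
        exact ⟨(v.1, j), by simp only [comb, hj]; push_cast; ring⟩
      · rintro ⟨v, rfl⟩
        refine ⟨(v.1, 2 * v.2), by simp only [comb]; push_cast; ring, (h _ _).mpr ?_⟩
        exact (intCast_two_eq_zero_iff _).mpr (dvd_mul_right _ _)
  · refine ⟨2 * b₁, b₂, ?_, fun x => ?_⟩
    · rw [show H.det (2 * b₁) b₂ = 2 * H.det b₁ b₂ by
        simp only [det, two_mul, cu_add, cv_add]; ring, Int.natAbs_mul, hD]
      rfl
    · rw [hiff]
      constructor
      · rintro ⟨v, rfl, hp⟩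
        obtain ⟨j, hj⟩ := (intCast_two_eq_zero_iff _).mp ((h _ _).mp hp)
        exact ⟨(j, v.2), by simp only [comb, hj]; push_cast; ring⟩
      · rintro ⟨v, rfl⟩
        refine ⟨(2 * v.1, v.2), by simp only [comb]; push_cast; ring, (h _ _).mpr ?_⟩
        exact (intCast_two_eq_zero_iff _).mpr (dvd_mul_right _ _)
  · refine ⟨b₁ + b₂, 2 * b₂, ?_, fun x => ?_⟩
    · rw [show H.det (b₁ + b₂) (2 * b₂) = 2 * H.det b₁ b₂ by
        simp only [det, two_mul, cu_add, cv_add]; ring, Int.natAbs_mul, hD]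
      rfl
    · rw [hiff]
      constructor
      · rintro ⟨v, rfl, hp⟩
        have he : ((v.2 - v.1 : ℤ) : ZMod 2) = 0 := by
          push_cast; rw [(h _ _).mp hp, sub_self]
        obtain ⟨j, hj⟩ := (intCast_two_eq_zero_iff _).mp he
        exact ⟨(v.1, j), by
          simp only [comb, show v.2 = v.1 + 2 * j by linarith]; push_cast; ring⟩
      · rintro ⟨v, rfl⟩
        refine ⟨(v.1, v.1 + 2 * v.2), by simp only [comb]; push_cast; ring, (h _ _).mpr ?_⟩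
        push_cast
        rw [show (2 : ZMod 2) = 0 from rfl, zero_mul, add_zero]

/-- The norm form on a lattice, divided by the norm of the ideal. -/
theorem exists_form {J : Ideal O} (hJ : J ≠ ⊥) (hodd : Odd (Ideal.absNorm J)) (k : Fin 3) :
    ∃ (Q : BinForm) (e₁ e₂ : O), Q.IsPos N ∧ Function.Injective (comb e₁ e₂) ∧
      (∀ v, H.nrm (comb e₁ e₂ v) = Q.eval v * (Ideal.absNorm J : ℤ)) ∧
      ∀ x, H.InLat J k x ↔ ∃ v, comb e₁ e₂ v = x := by
  obtain ⟨e₁, e₂, hdet, hlat⟩ := H.exists_lattice_basis hJ hodd k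
  have hn : (Ideal.absNorm J : ℤ) ≠ 0 :=
    Int.natCast_ne_zero.mpr fun h => hJ (Ideal.absNorm_eq_zero_iff.mp h)
  have hd0 : H.det e₁ e₂ ≠ 0 := fun h => by
    rw [h, Int.natAbs_zero] at hdet
    exact hJ (Ideal.absNorm_eq_zero_iff.mp (by omega))
  have hmem : ∀ v, comb e₁ e₂ v ∈ J := fun v => ((hlat _).mpr ⟨v, rfl⟩).1
  have hdvd : ∀ v, (Ideal.absNorm J : ℤ) ∣ H.nrm (comb e₁ e₂ v) := fun v => by
    rw [← H.algebraNorm_eq]; exact Ideal.absNorm_dvd_norm_of_mem (hmem v)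
  obtain ⟨a, ha⟩ := hdvd (1, 0)
  obtain ⟨c, hc⟩ := hdvd (0, 1)
  obtain ⟨d, hd⟩ := hdvd (1, 1)
  set Q : BinForm := ⟨a, d - a - c, c⟩ with hQ
  have hval : ∀ v, H.nrm (comb e₁ e₂ v) = Q.eval v * (Ideal.absNorm J : ℤ) := by
    intro v
    simp only [nrm, cu_comb, cv_comb, one_mul, zero_mul, add_zero, zero_add] at ha hc hd
    simp only [nrm, cu_comb, cv_comb, hQ, BinForm.eval, Int.cast_eq]
    linear_combination (v.1 ^ 2 - v.1 * v.2) * ha + (v.2 ^ 2 - v.1 * v.2) * hc + (v.1 * v.2) * hd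
  refine ⟨Q, e₁, e₂, ⟨?_, ?_⟩, H.comb_injective hd0, hval, hlat⟩
  · have h := hval (1, 0)
    have h0 : 0 < H.nrm (comb e₁ e₂ (1, 0)) := by
      refine lt_of_le_of_ne (H.nrm_nonneg _) fun h0 => ?_
      have := H.comb_injective hd0 (a₁ := (1, 0)) (a₂ := 0)
        (by rw [H.nrm_eq_zero_iff.mp h0.symm]; simp [comb])
      simpa using congrArg Prod.fst this
    rw [h, show Q.eval ((1 : ℤ), (0 : ℤ)) = Q.a by simp [BinForm.eval]] at h0
    exact pos_of_mul_pos_left h0 (Int.natCast_nonneg _)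
  · have hdet2 : H.det e₁ e₂ ^ 2 = (2 * (Ideal.absNorm J : ℤ)) ^ 2 := by
      rw [← Int.natAbs_sq, hdet]; push_cast; ring
    have h1 := hval (1, 0)
    have h2 := hval (0, 1)
    have h3 := hval (1, 1)
    simp only [nrm, cu_comb, cv_comb, BinForm.eval, Int.cast_eq, one_mul, zero_mul, add_zero,
      zero_add, mul_one, mul_zero, one_pow, ne_eq, OfNat.ofNat_ne_zero, not_false_eq_true,
      zero_pow] at h1 h2 h3
    have hb : 2 * H.cu e₁ * H.cu e₂ + H.cu e₁ * H.cv e₂ + H.cu e₂ * H.cv e₁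
        + 2 * H.M * H.cv e₁ * H.cv e₂ = Q.b * (Ideal.absNorm J : ℤ) := by
      linear_combination h3 - h1 - h2
    refine mul_left_cancel₀ (pow_ne_zero 2 hn) ?_
    rw [det] at hdet2
    linear_combination (-(Q.b * (Ideal.absNorm J : ℤ)) - (2 * H.cu e₁ * H.cu e₂
        + H.cu e₁ * H.cv e₂ + H.cu e₂ * H.cv e₁ + 2 * H.M * H.cv e₁ * H.cv e₂)) * hb
      + 4 * (Q.c * (Ideal.absNorm J : ℤ)) * h1
      + 4 * (H.cu e₁ ^ 2 + H.cu e₁ * H.cv e₁ + H.M * H.cv e₁ ^ 2) * h2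
      - (N : ℤ) * hdet2
      - (H.cu e₁ * H.cv e₂ - H.cu e₂ * H.cv e₁) ^ 2 * H.four_mul

end QuadOrder

end Fermat.Agent.RT.Two.Theta

end
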