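import Fermat.Agent.RT.Two.Theta.Count
import Fermat.Agent.RT.Two.Theta.Lattice

/-!
# The forms attached to classes and parities, weighted by the character

The index set is the class group times the three nonzero parities. The weighted Gauss sums vanish
and the weighted representation numbers of an odd `n` count the ideals of norm `n`.
-/

set_option autoImplicit false
set_option linter.unusedSectionVars false

noncomputable section

namespace Fermat.Agent.RT.Two.Theta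

open scoped nonZeroDivisors

section Cls

variable {O : Type} [CommRing O] [IsDedekindDomain O]

open Classical in
/-- The class of an ideal. -/
def cls (I : Ideal O) : ClassGroup O :=
  if h : I ≠ ⊥ then ClassGroup.mk0 ⟨I, mem_nonZeroDivisors_of_ne_zero h⟩ else 1

theorem cls_mul {I J : Ideal O} (hI : I ≠ ⊥) (hJ : J ≠ ⊥) : cls (I * J) = cls I * cls J := by
  have hIJ : I * J ≠ ⊥ := mul_ne_zero hI hJ
  rw [cls, cls, cls, dif_pos hI, dif_pos hJ, dif_pos hIJ, ← map_mul]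
  rfl

theorem exists_gen {I : Ideal O} (hI : I ≠ ⊥) (h : cls I = 1) : ∃ x : O, I = Ideal.span {x} := by
  rw [cls, dif_pos hI, ClassGroup.mk0_eq_one_iff] at h
  obtain ⟨x, hx⟩ := h.principal
  exact ⟨x, hx⟩

theorem cls_span (x : O) : cls (Ideal.span {x}) = 1 := by
  by_cases h : Ideal.span {x} ≠ ⊥
  · rw [cls, dif_pos h, ClassGroup.mk0_eq_one_iff]
    exact ⟨⟨x, rfl⟩⟩
  · rw [cls, dif_neg h]

theorem exists_cls_eq (c : ClassGroup O) : ∃ I : Ideal O, I ≠ ⊥ ∧ cls I = c := by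
  obtain ⟨⟨I, hI⟩, rfl⟩ := ClassGroup.mk0_surjective c
  have h : I ≠ ⊥ := nonZeroDivisors.ne_zero hI
  exact ⟨I, h, by rw [cls, dif_pos h]⟩

end Cls

variable {O : Type} [CommRing O] [IsDedekindDomain O] [CharZero O] [Module.Free ℤ O]
  [Module.Finite ℤ O] {N : ℕ} (H : QuadOrder O N)

theorem QuadOrder.absNorm_span (x : O) :
    (Ideal.absNorm (Ideal.span {x}) : ℤ) = H.nrm x := by
  rw [Ideal.absNorm_span_singleton, H.algebraNorm_eq, Int.natAbs_of_nonneg (H.nrm_nonneg x)]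

theorem QuadOrder.odd_nrm_iff (x : O) :
    Odd (Ideal.absNorm (Ideal.span {x})) ↔ ¬ (2 : ℤ) ∣ H.nrm x := by
  rw [← H.absNorm_span, ← Int.odd_coe_nat, Int.odd_iff]
  omega

include H in
/-- Every class contains an ideal of odd norm. -/
theorem QuadOrder.exists_odd_ideal (c : ClassGroup O) :
    ∃ J : Ideal O, J ≠ ⊥ ∧ Odd (Ideal.absNorm J) ∧ cls J = c := by
  have : Fact (Nat.Prime 2) := ⟨Nat.prime_two⟩
  obtain ⟨I, hI, hc⟩ := exists_cls_eq c⁻¹
  have hnorm : Ideal.absNorm I ≠ 0 := fun h => hI (Ideal.absNorm_eq_zero_iff.mp h)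
  obtain ⟨x, hxI, hx⟩ : ∃ x ∈ I, x ∉ Ideal.span {((2 : ℕ) : O)} * I := by
    by_contra hall
    simp only [not_exists, not_and, not_not] at hall
    have h := Ideal.absNorm_dvd_absNorm_of_le (show I ≤ Ideal.span {((2 : ℕ) : O)} * I from hall)
    rw [map_mul, H.absNorm_span_natCast'] at h
    have := Nat.le_of_dvd (Nat.pos_of_ne_zero hnorm) h
    have := Nat.pos_of_ne_zero hnorm
    omega
  obtain ⟨J, hJ⟩ : I ∣ Ideal.span {x} :=
    Ideal.dvd_iff_le.mpr ((Ideal.span_singleton_le_iff_mem I).mpr hxI)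
  have hx0 : x ≠ 0 := fun h => hx (h ▸ zero_mem _)
  have hJ0 : J ≠ ⊥ := fun h => hx0 (by simpa [h] using hJ)
  refine ⟨J, hJ0, ?_, ?_⟩
  · by_contra hev
    rw [Nat.not_odd_iff_even, even_iff_two_dvd] at hev
    obtain ⟨P, hP, hle, h2P⟩ := H.exists_prime_above (l := 2) hev
    have hprime : (Ideal.span {((2 : ℕ) : O)}).IsPrime := by
      refine H.span_isPrime_of_no_root fun t => ?_
      unfold QuadOrder.IsRoot
      rw [ZMod.intCast_eq_one_iff_odd.mpr H.odd]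
      revert t
      decide
    have he : Ideal.span {((2 : ℕ) : O)} = P :=
      (hprime.isMaximal (by simp)).eq_of_le hP.ne_top ((Ideal.span_singleton_le_iff_mem _).mpr h2P)
    refine hx ?_
    have : Ideal.span {x} ≤ Ideal.span {((2 : ℕ) : O)} * I := by
      rw [hJ, mul_comm I J]
      exact Ideal.mul_mono_left (he ▸ hle)
    exact this (Ideal.mem_span_singleton_self x)
  · have h := cls_mul hI hJ0
    rw [← hJ, cls_span, hc] at h
    exact inv_mul_eq_one.mp h.symm ▸ rfl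

/-- A choice of ideals of odd norm in the classes and of the forms on their lattices. -/
structure FormData where
  J : ClassGroup O → Ideal O
  Q : ClassGroup O × Fin 3 → BinForm
  e₁ : ClassGroup O × Fin 3 → O
  e₂ : ClassGroup O × Fin 3 → O
  J_ne : ∀ c, J c ≠ ⊥
  J_odd : ∀ c, Odd (Ideal.absNorm (J c))
  J_cls : ∀ c, cls (J c) = c
  pos : ∀ i, (Q i).IsPos N
  inj : ∀ i, Function.Injective (QuadOrder.comb (e₁ i) (e₂ i))
  val : ∀ i v, H.nrm (QuadOrder.comb (e₁ i) (e₂ i) v) = (Q i).eval v * (Ideal.absNorm (J i.1) : ℤ)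
  lat : ∀ i x, H.InLat (J i.1) i.2 x ↔ ∃ v, QuadOrder.comb (e₁ i) (e₂ i) v = x

theorem nonempty_formData : Nonempty (FormData H) := by
  choose J h1 h2 h3 using H.exists_odd_ideal
  choose Q e₁ e₂ h4 h5 h6 h7 using
    fun i : ClassGroup O × Fin 3 => H.exists_form (h1 i.1) (h2 i.1) i.2
  exact ⟨⟨J, Q, e₁, e₂, h1, h2, h3, h4, h5, h6, h7⟩⟩

namespace ThetaData

variable {H} (D : ThetaData H)

theorem ψ_span_congr {x y : O} (hy : ¬ (2 : ℤ) ∣ H.nrm y) (h : H.par x = H.par y) :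
    D.ψ (Ideal.span {x}) = D.ψ (Ideal.span {y}) := by
  have hx : ¬ (2 : ℤ) ∣ H.nrm x := by
    rw [← H.par_eq_zero_iff, h, H.par_eq_zero_iff]; exact hy
  have hne : ∀ z, ¬ (2 : ℤ) ∣ H.nrm z → Ideal.span {z} ≠ ⊥ := fun z hz h0 => by
    rw [Ideal.span_singleton_eq_bot] at h0
    exact hz (by simp [h0, QuadOrder.nrm])
  have hc : ¬ (2 : ℤ) ∣ H.nrm (H.conj y) := by rwa [H.nrm_conj]
  have key : ∀ z, ¬ (2 : ℤ) ∣ H.nrm z → (2 : O) ∣ z * H.conj y - 1 →
      D.ψ (Ideal.span {z}) + D.ψ (Ideal.span {H.conj y}) = 0 := fun z hz h2 => by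
    rw [← D.ψ_mul _ _ (hne _ hz) (hne _ hc), Ideal.span_singleton_mul_span_singleton]
    exact D.ψ_span _ (Ideal.mem_span_singleton.mpr h2)
  have e1 := key x hx (by
    rw [show x * H.conj y - 1 = (x - y) * H.conj y + (y * H.conj y - 1) by ring]
    exact dvd_add (dvd_mul_of_dvd_left (H.two_dvd_sub_iff.mpr h) _)
      (H.two_dvd_mul_conj_sub_one hy))
  have e2 := key y hy (H.two_dvd_mul_conj_sub_one hy)
  exact add_right_cancel (e1.trans e2.symm)

variable (B : FormData H)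

/-- The value of the character at an index. -/
def idx (i : ClassGroup O × Fin 3) : ZMod 3 :=
  D.ψ (Ideal.span {H.rep i.2}) - D.ψ (B.J i.1)

/-- The weight of an index. -/
def wt (i : ClassGroup O × Fin 3) : ℤ := eps3 (D.idx B i)

theorem idx_shift {R : Ideal O} (hR : R ≠ ⊥) {c c' : ClassGroup O} {g₁ g₂ : O} {k j : Fin 3}
    (ho1 : ¬ (2 : ℤ) ∣ H.nrm g₁) (ho2 : ¬ (2 : ℤ) ∣ H.nrm g₂)
    (heq : Ideal.span {g₂} * B.J c' = Ideal.span {g₁} * (B.J c * (R * R)))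
    (hpar : pmul (H.par g₂) (parVec j) = pmul (H.par g₁) (parVec k)) :
    D.idx B (c', j) = D.idx B (c, k) - (D.ψ R + D.ψ R) := by
  have hne : ∀ z, ¬ (2 : ℤ) ∣ H.nrm z → Ideal.span {z} ≠ ⊥ := fun z hz h0 => by
    rw [Ideal.span_singleton_eq_bot] at h0
    exact hz (by simp [h0, QuadOrder.nrm])
  have hodd : ¬ (2 : ℤ) ∣ H.nrm (g₁ * H.rep k) := by
    rw [H.nrm_mul]
    intro h
    exact (Int.prime_two.dvd_or_dvd h).elim ho1 (H.rep_odd k)
  have e1 := D.ψ_span_congr hodd (x := g₂ * H.rep j)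
    (by rw [H.par_mul, H.par_mul, H.par_rep, H.par_rep, hpar])
  rw [← Ideal.span_singleton_mul_span_singleton, ← Ideal.span_singleton_mul_span_singleton,
    D.ψ_mul _ _ (hne _ ho2) (hne _ (H.rep_odd _)),
    D.ψ_mul _ _ (hne _ ho1) (hne _ (H.rep_odd _))] at e1
  have hRR : R * R ≠ ⊥ := mul_ne_zero hR hR
  have e2 := congrArg D.ψ heq
  rw [D.ψ_mul _ _ (hne _ ho2) (B.J_ne c'),
    D.ψ_mul _ _ (hne _ ho1) (mul_ne_zero (B.J_ne c) hRR),
    D.ψ_mul _ _ (B.J_ne c) hRR, D.ψ_mul _ _ hR hR] at e2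
  simp only [idx]
  linear_combination e1 - e2

/-- The change of variables between the lattices. -/
theorem exists_subst {R : Ideal O} {i i' : ClassGroup O × Fin 3} {g₁ g₂ : O}
    (hp1 : H.par g₁ ≠ 0) (heq : Ideal.span {g₂} * B.J i'.1 = Ideal.span {g₁} * (B.J i.1 * R))
    (hpar : pmul (H.par g₂) (parVec i'.2) = pmul (H.par g₁) (parVec i.2)) (v : ℤ × ℤ) :
    ∃ w, g₁ * QuadOrder.comb (B.e₁ i) (B.e₂ i) w
      = g₂ * QuadOrder.comb (B.e₁ i') (B.e₂ i') v := by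
  obtain ⟨hy, hpy⟩ := (B.lat i' (QuadOrder.comb (B.e₁ i') (B.e₂ i') v)).mpr ⟨v, rfl⟩
  have hin : g₂ * QuadOrder.comb (B.e₁ i') (B.e₂ i') v ∈ Ideal.span {g₁} * (B.J i.1 * R) :=
    heq ▸ Ideal.mul_mem_mul (Ideal.mem_span_singleton_self g₂) hy
  obtain ⟨z, hz, hze⟩ := Ideal.mem_span_singleton_mul.mp hin
  have hzJ : z ∈ B.J i.1 := (Ideal.mul_le_inf.trans inf_le_left) hz
  have hzp : H.par z = 0 ∨ H.par z = parVec i.2 :=
    parity_transfer hp1 hpar (by rw [← H.par_mul, hze, H.par_mul]) hpy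
  obtain ⟨w, rfl⟩ := (B.lat i z).mp ⟨hzJ, hzp⟩
  exact ⟨w, hze⟩

theorem gaussSum_shift {R : Ideal O} {q : ℕ} [NeZero q]
    (hRq : (Ideal.absNorm R).Coprime q) {i i' : ClassGroup O × Fin 3} {g₁ g₂ : O}
    (ho1 : ¬ (2 : ℤ) ∣ H.nrm g₁)
    (heq : Ideal.span {g₂} * B.J i'.1 = Ideal.span {g₁} * (B.J i.1 * (R * R)))
    (hpar : pmul (H.par g₂) (parVec i'.2) = pmul (H.par g₁) (parVec i.2)) (a : ℤ) :
    (B.Q i').gaussSum a q = (B.Q i).gaussSum a q := by
  have hp1 := H.par_ne_zero_of_odd ho1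
  obtain ⟨⟨p, q'⟩, hpq⟩ := exists_subst B hp1 heq hpar (1, 0)
  obtain ⟨⟨r, s⟩, hrs⟩ := exists_subst B hp1 heq hpar (0, 1)
  have hA : ∀ v : ℤ × ℤ,
      g₁ * QuadOrder.comb (B.e₁ i) (B.e₂ i) (p * v.1 + r * v.2, q' * v.1 + s * v.2)
        = g₂ * QuadOrder.comb (B.e₁ i') (B.e₂ i') v := by
    intro v
    simp only [QuadOrder.comb] at hpq hrs ⊢
    push_cast at hpq hrs ⊢
    linear_combination (v.1 : O) * hpq + (v.2 : O) * hrs
  have hn1 : H.nrm g₁ ≠ 0 := fun h => ho1 (h ▸ dvd_zero _)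
  have hnorm : H.nrm g₂ * (Ideal.absNorm (B.J i'.1) : ℤ)
      = H.nrm g₁ * ((Ideal.absNorm (B.J i.1) : ℤ) * (Ideal.absNorm R : ℤ) ^ 2) := by
    rw [← H.absNorm_span, ← H.absNorm_span, pow_two]
    exact_mod_cast (by simpa only [map_mul] using congrArg Ideal.absNorm heq)
  have hJn : (Ideal.absNorm (B.J i.1) : ℤ) ≠ 0 :=
    Int.natCast_ne_zero.mpr fun h => B.J_ne _ (Ideal.absNorm_eq_zero_iff.mp h)
  have hscale : ∀ v : ℤ × ℤ, (B.Q i).eval (p * v.1 + r * v.2, q' * v.1 + s * v.2)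
      = (Ideal.absNorm R : ℤ) ^ 2 * (B.Q i').eval v := by
    intro v
    have h := congrArg H.nrm (hA v)
    rw [H.nrm_mul, H.nrm_mul, B.val, B.val] at h
    refine mul_left_cancel₀ (mul_ne_zero hn1 hJn) ?_
    linear_combination h + (B.Q i').eval v * hnorm
  have hdet : (p * s - q' * r) ^ 2 = ((Ideal.absNorm R : ℤ) ^ 2) ^ 2 := by
    have h := (B.Q i).disc_subst p q' r s
    have s1 := hscale (1, 0)
    have s2 := hscale (0, 1)
    have s3 := hscale (1, 1)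
    simp only [mul_one, mul_zero, add_zero, zero_add] at s1 s2 s3
    rw [s1, s2, s3, (B.pos i).disc] at h
    have h' := (B.Q i').disc_subst 1 0 0 1
    simp only [add_zero, zero_add, mul_one, mul_zero, sub_zero] at h'
    have h4N : (-(4 * N) : ℤ) ≠ 0 := by simp [H.N_pos.ne']
    refine mul_right_cancel₀ h4N ?_
    rw [(B.pos i').disc] at h'
    linear_combination -h + ((Ideal.absNorm R : ℤ) ^ 2) ^ 2 * h'
  have hu : IsUnit ((Ideal.absNorm R : ℤ) : ZMod q) := by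
    rw [Int.cast_natCast]
    exact (ZMod.isUnit_iff_coprime _ _).mpr hRq
  refine BinForm.gaussSum_scale hscale hu ?_ a
  have h2 : IsUnit (((p * s - q' * r : ℤ) : ZMod q) ^ 2) := by
    rw [← Int.cast_pow, hdet, Int.cast_pow, Int.cast_pow]
    exact (hu.pow 2).pow 2
  exact (isUnit_pow_iff two_ne_zero).mp h2

/-- The class translation by a square of an odd ideal permutes the parities and keeps the Gauss
sums. -/
theorem exists_shift {R : Ideal O} (hR : R ≠ ⊥) (hRodd : Odd (Ideal.absNorm R)) {q : ℕ} [NeZero q]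
    (hRq : (Ideal.absNorm R).Coprime q) (c : ClassGroup O) :
    ∃ σ : Fin 3 → Fin 3, Function.Injective σ ∧ ∀ k,
      D.idx B (c * (cls R * cls R), σ k) = D.idx B (c, k) - (D.ψ R + D.ψ R) ∧
      ∀ a : ℤ, (B.Q (c * (cls R * cls R), σ k)).gaussSum a q = (B.Q (c, k)).gaussSum a q := by
  obtain ⟨c', hc'⟩ : ∃ c', c' = c * (cls R * cls R) := ⟨_, rfl⟩
  rw [← hc']
  obtain ⟨J₀, hJ₀, hJ₀odd, hJ₀c⟩ := H.exists_odd_ideal c'⁻¹
  have hRR : R * R ≠ ⊥ := mul_ne_zero hR hR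
  have hJRR : B.J c * (R * R) ≠ ⊥ := mul_ne_zero (B.J_ne c) hRR
  obtain ⟨g₁, hg₁⟩ := exists_gen (I := B.J c' * J₀) (mul_ne_zero (B.J_ne c') hJ₀)
    (by rw [cls_mul (B.J_ne c') hJ₀, B.J_cls, hJ₀c, mul_inv_cancel])
  obtain ⟨g₂, hg₂⟩ := exists_gen (I := B.J c * (R * R) * J₀) (mul_ne_zero hJRR hJ₀)
    (by rw [cls_mul hJRR hJ₀, cls_mul (B.J_ne c) hRR, cls_mul hR hR, B.J_cls, hJ₀c, ← hc',
      mul_inv_cancel])
  have ho1 : ¬ (2 : ℤ) ∣ H.nrm g₁ := by
    rw [← H.odd_nrm_iff, ← hg₁, map_mul]; exact (B.J_odd c').mul hJ₀odd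
  have ho2 : ¬ (2 : ℤ) ∣ H.nrm g₂ := by
    rw [← H.odd_nrm_iff, ← hg₂, map_mul, map_mul, map_mul]
    exact ((B.J_odd c).mul (hRodd.mul hRodd)).mul hJ₀odd
  have heq : Ideal.span {g₂} * B.J c' = Ideal.span {g₁} * (B.J c * (R * R)) := by
    rw [← hg₁, ← hg₂]; ring
  choose σ hσ using
    exists_pmul_parVec _ _ (H.par_ne_zero_of_odd ho1) (H.par_ne_zero_of_odd ho2)
  refine ⟨σ, fun k k' hk => ?_, fun k =>
    ⟨D.idx_shift B hR ho1 ho2 heq (hσ k),
      fun a => gaussSum_shift B hRq (i := (c, k)) (i' := (c', σ k)) ho1 heq (hσ k) a⟩⟩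
  exact pmul_parVec_inj _ (H.par_ne_zero_of_odd ho1) k k' ((hσ k).symm.trans (hk ▸ hσ k'))

/-- **The weighted Gauss sums vanish.** -/
theorem sum_wt_gaussSum [Fintype (ClassGroup O)] (q : ℕ) [NeZero q] (a : ℤ) :
    ∑ i, (D.wt B i : ℂ) * (B.Q i).gaussSum a q = 0 := by
  classical
  obtain ⟨l, hl, hg, hlT, hodd⟩ := D.many (insert 2 q.primeFactors)
  have := Fact.mk hl
  obtain ⟨t, ht⟩ : ∃ t : ZMod l, H.IsRoot t := by
    by_contra hno
    rw [not_exists] at hno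
    exact Nat.not_even_iff_odd.mpr hodd (D.even_of_inert l hl hg hno)
  set R := H.rootIdeal t ht
  have hs : D.ψ R + D.ψ R ≠ 0 := by
    have h0 : D.ψ R ≠ 0 := fun h => Nat.not_even_iff_odd.mpr hodd ((D.split l hg t ht).mp h)
    revert h0
    generalize D.ψ R = x
    revert x
    decide
  simp only [Finset.mem_insert, Nat.mem_primeFactors, not_or] at hlT
  have hRodd : Odd (Ideal.absNorm R) := by
    rw [H.absNorm_rootIdeal ht]; exact hl.odd_of_ne_two hlT.1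
  have hRq : (Ideal.absNorm R).Coprime q := by
    rw [H.absNorm_rootIdeal ht, hl.coprime_iff_not_dvd]
    exact fun h => hlT.2 ⟨hl, h, NeZero.ne q⟩
  choose σ hσinj hσ using D.exists_shift B (H.rootIdeal_ne_bot ht) hRodd hRq
  let π : ClassGroup O × Fin 3 → ClassGroup O × Fin 3 :=
    fun i => (i.1 * (cls R * cls R), σ i.1 i.2)
  have hπ : Function.Bijective π := Finite.injective_iff_bijective.mp fun i j h => by
    obtain ⟨h1, h2⟩ := Prod.ext_iff.mp h
    have hc : i.1 = j.1 := mul_right_cancel h1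
    refine Prod.ext hc (hσinj j.1 ?_)
    simpa [π, hc] using h2
  set S : ZMod 3 → ℂ := fun s => ∑ i, (eps3 (D.idx B i + s) : ℂ) * (B.Q i).gaussSum a q with hS
  have hshift : ∀ s, S s = S (s - (D.ψ R + D.ψ R)) := fun s => by
    refine (Fintype.sum_bijective π hπ _ _ fun i => ?_).symm
    simp only [π, R]
    rw [(hσ i.1 i.2).1, (hσ i.1 i.2).2 a]
    ring_nf
  have h3 : S 0 + S (0 + -(D.ψ R + D.ψ R)) + S (0 + -(D.ψ R + D.ψ R) + -(D.ψ R + D.ψ R)) = 0 := by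
    simp only [hS, ← Finset.sum_add_distrib]
    refine Finset.sum_eq_zero fun i _ => ?_
    rw [← add_mul, ← add_mul]
    have h := eps3_sum_shift (-(D.ψ R + D.ψ R)) (D.idx B i) (neg_ne_zero.mpr hs)
    rw [add_zero, zero_add, ← add_assoc, ← Int.cast_add, ← Int.cast_add, h, Int.cast_zero,
      zero_mul]
  have e1 : S 0 = S (0 + -(D.ψ R + D.ψ R)) := by rw [← sub_eq_add_neg]; exact hshift 0
  have e2 : S (0 + -(D.ψ R + D.ψ R)) = S (0 + -(D.ψ R + D.ψ R) + -(D.ψ R + D.ψ R)) := by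
    conv_rhs => rw [← sub_eq_add_neg]
    exact hshift _
  rw [← e2, ← e1] at h3
  have h0 : S 0 = 0 := by linear_combination h3 / 3
  simpa [hS, wt] using h0

theorem sum_wt [Fintype (ClassGroup O)] : ∑ i, D.wt B i = 0 := by
  have h := D.sum_wt_gaussSum B 1 0
  simp only [BinForm.gaussSum_one, mul_one] at h
  exact_mod_cast h

end ThetaData

end Fermat.Agent.RT.Two.Theta

end
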