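import Fermat.Agent.RT.Two.Theta.Primes

/-!
# Ideals of given norm weighted by a cubic character

The weighted numbers of ideals of norm `n` satisfy, modulo two, the recursion of a Hecke
eigensystem whose eigenvalue at a good prime is the parity of the trace.
-/

set_option autoImplicit false
set_option linter.unusedSectionVars false

noncomputable section

namespace Fermat.Agent.RT.Two.Theta

/-- The weights: one, minus one, zero. -/
def eps3 (j : ZMod 3) : ℤ := if j = 0 then 1 else if j = 1 then -1 else 0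

theorem eps3_add_sub : ∀ a x : ZMod 3, a ≠ 0 → eps3 (a + x) + eps3 (-a + x) = -eps3 x := by decide

theorem eps3_sum_shift : ∀ s x : ZMod 3, s ≠ 0 →
    eps3 x + eps3 (x + s) + eps3 (x + s + s) = 0 := by decide

theorem eps3_zero : eps3 0 = 1 := rfl

/-- A character of order three on ideals, trivial on elements congruent to one modulo two, with
prescribed behaviour at the good primes. -/
structure ThetaData {O : Type} [CommRing O] {N : ℕ} (H : QuadOrder O N) where
  ψ : Ideal O → ZMod 3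
  a : ℕ → ℕ
  good : ℕ → Prop
  ψ_mul : ∀ I J, I ≠ ⊥ → J ≠ ⊥ → ψ (I * J) = ψ I + ψ J
  ψ_span : ∀ x : O, x - 1 ∈ Ideal.span {(2 : O)} → ψ (Ideal.span {x}) = 0
  not_dvd : ∀ l, l.Prime → good l → ¬ l ∣ 2 * N
  even_of_inert : ∀ l, l.Prime → good l → (∀ t : ZMod l, ¬ H.IsRoot t) → Even (a l)
  split : ∀ (l : ℕ) [Fact l.Prime], good l → ∀ (t : ZMod l) (ht : H.IsRoot t),
    (ψ (H.rootIdeal t ht) = 0 ↔ Even (a l))
  many : ∀ T : Finset ℕ, ∃ l, l.Prime ∧ good l ∧ l ∉ T ∧ Odd (a l)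

namespace ThetaData

variable {O : Type} [CommRing O] [IsDedekindDomain O] [CharZero O] [Module.Free ℤ O]
  [Module.Finite ℤ O] {N : ℕ} {H : QuadOrder O N} (D : ThetaData H)

theorem ψ_top : D.ψ ⊤ = 0 := by
  have h := D.ψ_mul ⊤ ⊤ top_ne_bot top_ne_bot
  rw [Ideal.top_mul] at h
  exact left_eq_add.mp h

theorem ψ_span_natCast {l : ℕ} (hl : Odd l) : D.ψ (Ideal.span {(l : O)}) = 0 := by
  refine D.ψ_span _ ?_
  obtain ⟨k, rfl⟩ := hl
  exact Ideal.mem_span_singleton'.mpr ⟨(k : O), by push_cast; ring⟩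

variable (O) in
/-- The ideals of norm `n`. -/
def idealsOfNorm (n : ℕ) : Finset (Ideal O) :=
  (Ideal.finite_setOfPred_absNorm_eq (S := O) n).toFinset

theorem mem_idealsOfNorm {n : ℕ} {I : Ideal O} :
    I ∈ idealsOfNorm O n ↔ Ideal.absNorm I = n := by
  simp [idealsOfNorm]

theorem ne_bot_of_mem {n : ℕ} (hn : n ≠ 0) {I : Ideal O} (hI : I ∈ idealsOfNorm O n) : I ≠ ⊥ :=
  fun h => hn (by rw [← mem_idealsOfNorm.mp hI, h, Ideal.absNorm_bot])

/-- The weighted number of ideals of norm `n`. -/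
def count (n : ℕ) : ℤ := ∑ I ∈ idealsOfNorm O n, eps3 (D.ψ I)

theorem count_one : D.count 1 = 1 := by
  have h : idealsOfNorm O 1 = {⊤} := by
    ext I
    simp [mem_idealsOfNorm, Ideal.absNorm_eq_one_iff]
  rw [count, h, Finset.sum_singleton, ψ_top, eps3_zero]

/-- The multiples by a nonzero ideal of the ideals of norm `n`. -/
theorem sum_image_mul {n : ℕ} (hn : n ≠ 0) {P : Ideal O} (hP : P ≠ ⊥) [DecidableEq (Ideal O)] :
    ∑ I ∈ (idealsOfNorm O n).image (P * ·), eps3 (D.ψ I)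
      = ∑ J ∈ idealsOfNorm O n, eps3 (D.ψ P + D.ψ J) := by
  rw [Finset.sum_image fun x _ y _ h => mul_left_cancel₀ hP h]
  exact Finset.sum_congr rfl fun J hJ => by rw [D.ψ_mul P J hP (ne_bot_of_mem hn hJ)]

theorem exists_eq_mul {P I : Ideal O} (h : I ≤ P) : ∃ J, I = P * J :=
  Ideal.dvd_iff_le.mpr h

/-- Inert primes. -/
theorem count_inert {l : ℕ} [hl : Fact l.Prime] (hl2 : Odd l) (hr : ∀ t : ZMod l, ¬ H.IsRoot t)
    {n : ℕ} (hn : n ≠ 0) :
    D.count (l * n) = if l ∣ n then D.count (n / l) else 0 := by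
  classical
  have hl0 : (Ideal.span {(l : O)}) ≠ ⊥ := by
    simp [hl.out.ne_zero]
  have hprime := H.span_isPrime_of_no_root hr
  have hmax : (Ideal.span {(l : O)}).IsMaximal := hprime.isMaximal hl0
  have hdiv : ∀ I ∈ idealsOfNorm O (l * n), ∃ J, I = Ideal.span {(l : O)} * J ∧
      l * Ideal.absNorm J = n := by
    intro I hI
    rw [mem_idealsOfNorm] at hI
    obtain ⟨P, hP, hIP, hlP⟩ := H.exists_prime_above (l := l) (hI ▸ dvd_mul_right l n)
    have hPe : Ideal.span {(l : O)} = P :=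
      hmax.eq_of_le hP.ne_top ((Ideal.span_singleton_le_iff_mem _).mpr hlP)
    obtain ⟨J, rfl⟩ := exists_eq_mul (hPe ▸ hIP)
    refine ⟨J, rfl, ?_⟩
    rw [map_mul, H.absNorm_span_natCast', pow_two, mul_assoc] at hI
    exact Nat.eq_of_mul_eq_mul_left hl.out.pos hI
  by_cases hd : l ∣ n
  · rw [if_pos hd]
    obtain ⟨m, rfl⟩ := hd
    rw [Nat.mul_div_cancel_left _ hl.out.pos]
    have hm : m ≠ 0 := fun h => hn (by rw [h, mul_zero])
    have hset : idealsOfNorm O (l * (l * m))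
        = (idealsOfNorm O m).image (Ideal.span {(l : O)} * ·) := by
      ext I
      simp only [Finset.mem_image]
      constructor
      · intro hI
        obtain ⟨J, rfl, hJ⟩ := hdiv I hI
        exact ⟨J, mem_idealsOfNorm.mpr (Nat.eq_of_mul_eq_mul_left hl.out.pos hJ), rfl⟩
      · rintro ⟨J, hJ, rfl⟩
        rw [mem_idealsOfNorm] at hJ ⊢
        rw [map_mul, H.absNorm_span_natCast', hJ, pow_two, mul_assoc]
    rw [count, hset, D.sum_image_mul hm hl0, D.ψ_span_natCast hl2]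
    simp [count]
  · rw [if_neg hd]
    refine Finset.sum_eq_zero fun I hI => ?_
    obtain ⟨J, -, hJ⟩ := hdiv I hI
    exact absurd ⟨_, hJ.symm⟩ hd

/-- Split primes. -/
theorem count_split {l : ℕ} [hl : Fact l.Prime] (hl2 : Odd l) (hlN : ¬ l ∣ N) {t : ZMod l}
    (ht : H.IsRoot t) {n : ℕ} (hn : n ≠ 0) :
    D.count (l * n) + (if l ∣ n then D.count (n / l) else 0)
      = ∑ J ∈ idealsOfNorm O n,
          (eps3 (D.ψ (H.rootIdeal t ht) + D.ψ J) + eps3 (-D.ψ (H.rootIdeal t ht) + D.ψ J)) := by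
  classical
  set P := H.rootIdeal t ht with hP
  set P' := H.rootIdeal (1 - t) (H.isRoot_one_sub ht) with hP'
  have hPmax := H.rootIdeal_isMaximal ht
  have hP'max := H.rootIdeal_isMaximal (H.isRoot_one_sub ht)
  have hP0 := H.rootIdeal_ne_bot ht
  have hP'0 := H.rootIdeal_ne_bot (H.isRoot_one_sub ht)
  have hPP : P * P' = Ideal.span {(l : O)} := H.rootIdeal_mul ht hlN
  have hψ : D.ψ P' = -D.ψ P := by
    have h := D.ψ_mul P P' hP0 hP'0
    rw [hPP, D.ψ_span_natCast hl2] at h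
    exact eq_neg_of_add_eq_zero_right h.symm
  have hset : idealsOfNorm O (l * n)
      = (idealsOfNorm O n).image (P * ·) ∪ (idealsOfNorm O n).image (P' * ·) := by
    ext I
    simp only [Finset.mem_union, Finset.mem_image]
    constructor
    · intro hI
      rw [mem_idealsOfNorm] at hI
      obtain ⟨Q, hQ, hIQ, hlQ⟩ := H.exists_prime_above (l := l) (hI ▸ dvd_mul_right l n)
      rcases H.prime_eq_rootIdeal ht hlN hQ hlQ with rfl | rfl
      · obtain ⟨J, rfl⟩ := exists_eq_mul hIQ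
        rw [map_mul, H.absNorm_rootIdeal ht] at hI
        exact Or.inl ⟨J, mem_idealsOfNorm.mpr (Nat.eq_of_mul_eq_mul_left hl.out.pos hI), rfl⟩
      · obtain ⟨J, rfl⟩ := exists_eq_mul hIQ
        rw [map_mul, H.absNorm_rootIdeal (H.isRoot_one_sub ht)] at hI
        exact Or.inr ⟨J, mem_idealsOfNorm.mpr (Nat.eq_of_mul_eq_mul_left hl.out.pos hI), rfl⟩
    · rintro (⟨J, hJ, rfl⟩ | ⟨J, hJ, rfl⟩) <;> rw [mem_idealsOfNorm] at hJ ⊢ <;>
        rw [map_mul, H.absNorm_rootIdeal, hJ]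
  have hinter : ∑ I ∈ (idealsOfNorm O n).image (P * ·) ∩ (idealsOfNorm O n).image (P' * ·),
      eps3 (D.ψ I) = if l ∣ n then D.count (n / l) else 0 := by
    have hmem : ∀ J ∈ idealsOfNorm O n, ∀ J' ∈ idealsOfNorm O n, P * J = P' * J' →
        ∃ J'', P * J = Ideal.span {(l : O)} * J'' ∧ l * Ideal.absNorm J'' = n := by
      intro J hJ J' hJ' e
      have hle : P' * J' ≤ P := e ▸ Ideal.mul_le_left
      rcases hPmax.isPrime.mul_le.mp hle with h | h
      · exact absurd (hP'max.eq_of_le hPmax.ne_top h) (H.rootIdeal_ne ht hlN).symm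
      · obtain ⟨J'', rfl⟩ := exists_eq_mul h
        refine ⟨J'', by rw [e, ← hPP]; ring, ?_⟩
        rw [mem_idealsOfNorm, map_mul, H.absNorm_rootIdeal ht] at hJ'
        exact hJ'
    by_cases hd : l ∣ n
    · rw [if_pos hd]
      obtain ⟨m, rfl⟩ := hd
      rw [Nat.mul_div_cancel_left _ hl.out.pos]
      have hm : m ≠ 0 := fun h => hn (by rw [h, mul_zero])
      have hset' : (idealsOfNorm O (l * m)).image (P * ·) ∩ (idealsOfNorm O (l * m)).image (P' * ·)
          = (idealsOfNorm O m).image (Ideal.span {(l : O)} * ·) := by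
        ext I
        simp only [Finset.mem_inter, Finset.mem_image]
        constructor
        · rintro ⟨⟨J, hJ, rfl⟩, J', hJ', e⟩
          obtain ⟨J'', e', hJ''⟩ := hmem J hJ J' hJ' e.symm
          exact ⟨J'', mem_idealsOfNorm.mpr (Nat.eq_of_mul_eq_mul_left hl.out.pos hJ''), e'.symm⟩
        · rintro ⟨J, hJ, rfl⟩
          rw [mem_idealsOfNorm] at hJ
          refine ⟨⟨P' * J, ?_, by rw [← hPP]; ring⟩, P * J, ?_, by rw [← hPP]; ring⟩ <;>
            rw [mem_idealsOfNorm, map_mul, H.absNorm_rootIdeal, hJ]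
      rw [hset', D.sum_image_mul hm (hPP ▸ mul_ne_zero hP0 hP'0), D.ψ_span_natCast hl2]
      simp [count]
    · rw [if_neg hd]
      refine Finset.sum_eq_zero fun I hI => ?_
      simp only [Finset.mem_inter, Finset.mem_image] at hI
      obtain ⟨⟨J, hJ, rfl⟩, J', hJ', e⟩ := hI
      obtain ⟨J'', -, hJ''⟩ := hmem J hJ J' hJ' e.symm
      exact absurd ⟨_, hJ''.symm⟩ hd
  rw [count, hset, ← hinter, Finset.sum_union_inter, D.sum_image_mul hn hP0,
    D.sum_image_mul hn hP'0, hψ, ← Finset.sum_add_distrib]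

/-- The recursion modulo two. -/
theorem count_rec {l : ℕ} (hl : l.Prime) (hg : D.good l) {n : ℕ} (hn : n ≠ 0) :
    ((D.count (l * n) + if l ∣ n then D.count (n / l) else 0 : ℤ) : ZMod 2)
      = (D.a l : ZMod 2) * (D.count n : ZMod 2) := by
  have := Fact.mk hl
  have hlN : ¬ l ∣ N := fun h => D.not_dvd l hl hg (h.mul_left 2)
  have hl2 : Odd l := hl.odd_of_ne_two fun h => D.not_dvd l hl hg (h ▸ dvd_mul_right 2 N)
  by_cases hr : ∃ t : ZMod l, H.IsRoot t
  · obtain ⟨t, ht⟩ := hr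
    rw [D.count_split hl2 hlN ht hn]
    by_cases hz : D.ψ (H.rootIdeal t ht) = 0
    · have ha : (D.a l : ZMod 2) = 0 :=
        (ZMod.natCast_eq_zero_iff_even).mpr ((D.split l hg t ht).mp hz)
      rw [ha, zero_mul, hz, Int.cast_sum]
      refine Finset.sum_eq_zero fun J _ => ?_
      rw [neg_zero, zero_add, Int.cast_add, CharTwo.add_self_eq_zero]
    · have ha : (D.a l : ZMod 2) = 1 :=
        ZMod.natCast_eq_one_iff_odd.mpr (Nat.not_even_iff_odd.mp fun h => hz ((D.split l hg t ht).mpr h))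
      rw [ha, one_mul, count, Int.cast_sum, Int.cast_sum]
      refine Finset.sum_congr rfl fun J _ => ?_
      rw [eps3_add_sub _ _ hz, Int.cast_neg, CharTwo.neg_eq]
  · rw [not_exists] at hr
    have ha : (D.a l : ZMod 2) = 0 :=
      (ZMod.natCast_eq_zero_iff_even).mpr (D.even_of_inert l hl hg hr)
    rw [D.count_inert hl2 hr hn, ha, zero_mul, Int.cast_add, CharTwo.add_self_eq_zero]

end ThetaData

end Fermat.Agent.RT.Two.Theta

end
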