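import Fermat.Agent.RT.Two.Theta.Summable

/-!
# Poisson summation for binary theta series
-/

set_option autoImplicit false

noncomputable section

open Complex Filter
open scoped Real Topology

namespace Fermat.Agent.RT.Two.Theta

theorem sqrt_ofReal_mul {r : ℝ} (hr : 0 < r) {x : ℂ} (hx : x ≠ 0) :
    ((r : ℂ) * x) ^ (1 / 2 : ℂ) = (Real.sqrt r : ℂ) * x ^ (1 / 2 : ℂ) := by
  rw [cpow_def_of_ne_zero (mul_ne_zero (by exact_mod_cast hr.ne') hx), cpow_def_of_ne_zero hx,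
    log_ofReal_mul hr hx, add_mul, Complex.exp_add]
  congr 1
  rw [Real.sqrt_eq_rpow, Real.rpow_def_of_pos hr, ofReal_exp]
  congr 1
  push_cast
  ring

/-- Poisson summation for a shifted Gaussian. -/
theorem tsum_sq_shift {τ : ℂ} (hτ : 0 < τ.im) (s : ℂ) :
    ∑' n : ℤ, cexp (π * I * τ * ((n : ℂ) + s) ^ 2) =
      1 / (-I * τ) ^ (1 / 2 : ℂ) *
        ∑' k : ℤ, cexp (-(π * I * (k : ℂ) ^ 2 / τ) + 2 * π * I * k * s) := by
  have hτ0 : τ ≠ 0 := fun h => by simp [h] at hτ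
  have hl : ∀ n : ℤ, cexp (π * I * τ * ((n : ℂ) + s) ^ 2)
      = cexp (π * I * τ * s ^ 2) * jacobiTheta₂_term n (s * τ) τ := fun n => by
    rw [jacobiTheta₂_term, ← Complex.exp_add]
    ring_nf
  have hr : ∀ k : ℤ, cexp (-(π * I * (k : ℂ) ^ 2 / τ) + 2 * π * I * k * s)
      = jacobiTheta₂_term k s (-1 / τ) := fun k => by
    rw [jacobiTheta₂_term]
    ring_nf
  rw [tsum_congr hl, tsum_congr hr, tsum_mul_left, ← jacobiTheta₂, ← jacobiTheta₂,
    jacobiTheta₂_functional_equation, mul_div_cancel_right₀ s hτ0,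
    ← mul_assoc, ← mul_assoc, mul_comm (cexp _) (1 / _), mul_assoc (1 / _), ← Complex.exp_add]
  rw [show π * I * τ * s ^ 2 + -π * I * (s * τ) ^ 2 / τ = 0 by field_simp; ring]
  rw [Complex.exp_zero, mul_one]

namespace BinForm

/-- The adjugate form. -/
def dual (Q : BinForm) : BinForm := ⟨Q.c, -Q.b, Q.a⟩

variable {Q : BinForm} {N : ℕ}

theorem IsPos.dual (h : Q.IsPos N) [NeZero N] : Q.dual.IsPos N :=
  ⟨h.c_pos, by simp only [BinForm.dual]; linear_combination h.disc⟩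

/-- **Poisson summation** for a shifted binary theta series. -/
theorem IsPos.poisson (h : Q.IsPos N) [NeZero N] {w : ℂ} (hw : 0 < w.im) (r : ℝ × ℝ) :
    ∑' v : ℤ × ℤ, cexp (2 * π * I * (Q.eval ((v.1 : ℝ) + r.1, (v.2 : ℝ) + r.2) : ℝ) * w) =
      I / (w * Real.sqrt (4 * N)) * ∑' v : ℤ × ℤ,
        cexp (2 * π * I * ((v.1 : ℂ) * r.1 + (v.2 : ℂ) * r.2)) *
          cexp (2 * π * I * (Q.dual.eval v : ℤ) * (-1 / (4 * N * w))) := by
  have ha : (0 : ℝ) < Q.a := by exact_mod_cast h.a_pos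
  have haC : (Q.a : ℂ) ≠ 0 := by exact_mod_cast h.a_pos.ne'
  have hN : (0 : ℝ) < N := by exact_mod_cast Nat.pos_of_ne_zero (NeZero.ne N)
  have hNC : (N : ℂ) ≠ 0 := by exact_mod_cast NeZero.ne N
  have hd : (Q.b : ℂ) ^ 2 - 4 * Q.a * Q.c = -(4 * N) := by exact_mod_cast h.disc
  have hw0 : w ≠ 0 := fun e => by simp [e] at hw
  set τ₁ : ℂ := (2 * Q.a : ℝ) * w with hτ₁def
  set τ₂ : ℂ := (2 * N / Q.a : ℝ) * w with hτ₂def
  have hτ₁ : 0 < τ₁.im := by rw [hτ₁def, im_ofReal_mul]; positivity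
  have hτ₂ : 0 < τ₂.im := by rw [hτ₂def, im_ofReal_mul]; positivity
  set s : ℤ → ℝ := fun y => r.1 + Q.b * ((y : ℝ) + r.2) / (2 * Q.a) with hs
  let G : ℤ → ℤ → ℂ := fun y k =>
    cexp (-(π * I * (k : ℂ) ^ 2 / τ₁) + 2 * π * I * k * s y) *
      cexp (π * I * τ₂ * ((y : ℂ) + r.2) ^ 2)
  have hG : Summable (Function.uncurry G) := by
    refine Summable.of_norm_bounded
      ((summable_exp_sq_shift (t := π * τ₂.im) (by positivity) r.2).mul_of_nonneg
        (summable_exp_sq (t := π * (-1 / τ₁).im) ?_) (fun _ => (Real.exp_pos _).le)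
        fun _ => (Real.exp_pos _).le) fun ⟨y, k⟩ => le_of_eq ?_
    · refine mul_pos Real.pi_pos ?_
      rw [neg_div, one_div, neg_im, inv_im, neg_div, neg_neg]
      exact div_pos hτ₁ (normSq_pos.2 fun e => by simp [e] at hτ₁)
    · simp only [Function.uncurry_apply_pair, G, norm_mul, norm_exp]
      rw [mul_comm]
      congr 1 <;> congr 1
      · rw [show (π : ℂ) * I * τ₂ * ((y : ℂ) + r.2) ^ 2
            = ((π * ((y : ℝ) + r.2) ^ 2 : ℝ) : ℂ) * (I * τ₂) by push_cast; ring,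
          re_ofReal_mul, I_mul_re]
        ring
      · rw [show -(π * I * (k : ℂ) ^ 2 / τ₁) + 2 * π * I * k * s y
            = ((π * (k : ℝ) ^ 2 : ℝ) : ℂ) * (I * (-1 / τ₁))
              + ((2 * π * k * s y : ℝ) : ℂ) * I by push_cast; ring,
          add_re, re_ofReal_mul, re_ofReal_mul, I_mul_re, I_re]
        ring
  have hL : Summable fun v : ℤ × ℤ =>
      cexp (2 * π * I * (Q.eval ((v.1 : ℝ) + r.1, (v.2 : ℝ) + r.2) : ℝ) * w) :=
    h.summable_term hw r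
  have hinner : ∀ y : ℤ,
      ∑' x : ℤ, cexp (2 * π * I * (Q.eval ((x : ℝ) + r.1, (y : ℝ) + r.2) : ℝ) * w) =
        1 / (-I * τ₁) ^ (1 / 2 : ℂ) * ∑' k : ℤ, G y k := fun y => by
    have : ∀ x : ℤ, cexp (2 * π * I * (Q.eval ((x : ℝ) + r.1, (y : ℝ) + r.2) : ℝ) * w) =
        cexp (π * I * τ₁ * ((x : ℂ) + s y) ^ 2) * cexp (π * I * τ₂ * ((y : ℂ) + r.2) ^ 2) :=
      fun x => by
        rw [← Complex.exp_add]
        congr 1
        simp only [eval, hs, hτ₁def, hτ₂def]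
        push_cast
        field_simp
        linear_combination -(((y : ℂ) + r.2) ^ 2) * hd
    rw [tsum_congr this, tsum_mul_right, tsum_sq_shift hτ₁, mul_assoc, ← tsum_mul_right]
  have houter : ∀ k : ℤ, ∑' y : ℤ, G y k = 1 / (-I * τ₂) ^ (1 / 2 : ℂ) * ∑' l : ℤ,
      cexp (2 * π * I * ((k : ℂ) * r.1 + (l : ℂ) * r.2)) *
        cexp (2 * π * I * (Q.dual.eval (k, l) : ℤ) * (-1 / (4 * N * w))) := fun k => by
    have hτ₂0 : τ₂ ≠ 0 := fun e => by simp [e] at hτ₂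
    set β : ℂ := k * Q.b / (2 * Q.a) with hβ
    set A : ℂ := -(π * I * (k : ℂ) ^ 2 / τ₁) + 2 * π * I * k * r.1 - π * I * β ^ 2 / τ₂ with hA
    have : ∀ y : ℤ, G y k = cexp A * cexp (π * I * τ₂ * ((y : ℂ) + (r.2 + β / τ₂)) ^ 2) := fun y => by
      simp only [G, ← Complex.exp_add, hA, hβ, hs]
      congr 1
      push_cast
      field_simp
      ring
    rw [tsum_congr this, tsum_mul_left, tsum_sq_shift hτ₂, mul_left_comm, ← tsum_mul_left]
    congr 1
    refine tsum_congr fun l => ?_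
    rw [← Complex.exp_add, ← Complex.exp_add]
    congr 1
    simp only [hA, hβ, hτ₁def, hτ₂def, BinForm.dual, eval, Int.cast_eq]
    push_cast
    field_simp
    linear_combination (-4 * (k : ℂ) ^ 2) * hd
  have hR : Summable fun v : ℤ × ℤ =>
      cexp (2 * π * I * ((v.1 : ℂ) * r.1 + (v.2 : ℂ) * r.2)) *
        cexp (2 * π * I * (Q.dual.eval v : ℤ) * (-1 / (4 * N * w))) := by
    have hz : 0 < (-1 / (4 * N * w) : ℂ).im := by
      rw [neg_div, one_div, neg_im, inv_im, neg_div, neg_neg]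
      refine div_pos ?_ (normSq_pos.2 (mul_ne_zero (mul_ne_zero (by norm_num) hNC) hw0))
      rw [show (4 * N * w : ℂ) = ((4 * N : ℝ) : ℂ) * w by push_cast; ring, im_ofReal_mul]
      positivity
    refine (h.dual.summable_theta hz).norm.of_norm_bounded fun v => ?_
    rw [norm_mul]
    refine mul_le_of_le_one_left (norm_nonneg _) (le_of_eq ?_)
    rw [show (2 * π * I * ((v.1 : ℂ) * r.1 + (v.2 : ℂ) * r.2))
      = ((2 * π * ((v.1 : ℝ) * r.1 + (v.2 : ℝ) * r.2) : ℝ) : ℂ) * I by push_cast; ring]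
    exact norm_exp_ofReal_mul_I _
  rw [← (Equiv.prodComm ℤ ℤ).tsum_eq]
  have hL' := hL.comp_injective (Equiv.prodComm ℤ ℤ).injective
  simp only [Function.comp_def, Equiv.prodComm_apply, Prod.swap] at hL' ⊢
  rw [hL'.tsum_prod, tsum_congr hinner, tsum_mul_left, ← hG.tsum_comm, tsum_congr houter, tsum_mul_left,
    ← mul_assoc, hR.tsum_prod]
  congr 1
  have hx : -I * w ≠ 0 := mul_ne_zero (neg_ne_zero.2 I_ne_zero) hw0
  rw [hτ₁def, hτ₂def, mul_left_comm (-I), mul_left_comm (-I) ((2 * N / Q.a : ℝ) : ℂ),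
    sqrt_ofReal_mul (by positivity) hx, sqrt_ofReal_mul (by positivity) hx, div_mul_div_comm,
    one_mul, mul_mul_mul_comm, ← ofReal_mul, ← Real.sqrt_mul (by positivity),
    ← cpow_add _ _ hx, add_halves, cpow_one]
  rw [show 2 * (Q.a : ℝ) * (2 * N / Q.a) = 4 * N by field_simp; ring]
  rw [div_eq_div_iff (mul_ne_zero (by exact_mod_cast (Real.sqrt_pos.2 (mul_pos four_pos hN)).ne') hx)
    (mul_ne_zero hw0 (by exact_mod_cast (Real.sqrt_pos.2 (mul_pos four_pos hN)).ne'))]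
  linear_combination (w * (Real.sqrt (4 * N) : ℂ)) * I_sq

end BinForm

end Fermat.Agent.RT.Two.Theta
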