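import Fermat.Agent.RT.Two.Theta.Quad

/-!
# Primes of the quadratic order

An odd prime `ℓ` prime to `N` splits into the two kernels of `u + v ω ↦ u + v t` for the roots `t`
of `X² - X + M` modulo `ℓ`, or is inert when there is no root.
-/

set_option autoImplicit false
set_option linter.unusedSectionVars false

noncomputable section

namespace Fermat.Agent.RT.Two.Theta

namespace QuadOrder

variable {O : Type} [CommRing O] [IsDedekindDomain O] [CharZero O] [Module.Free ℤ O]
  [Module.Finite ℤ O] {N : ℕ} (H : QuadOrder O N) {l : ℕ}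

/-- `t` is a root of `X² - X + M` modulo `l`. -/
def IsRoot (t : ZMod l) : Prop := t ^ 2 - t + (H.M : ZMod l) = 0

theorem isRoot_one_sub {t : ZMod l} (ht : H.IsRoot t) : H.IsRoot (1 - t) := by
  unfold IsRoot at ht ⊢
  linear_combination ht

/-- The evaluation at a root. -/
def rootHom (t : ZMod l) (ht : H.IsRoot t) : O →+* ZMod l where
  toFun x := (H.cu x : ZMod l) + (H.cv x : ZMod l) * t
  map_one' := by simp
  map_mul' x y := by
    unfold IsRoot at ht
    rw [H.cu_mul, H.cv_mul]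
    push_cast
    linear_combination (-(H.cv x : ZMod l) * (H.cv y : ZMod l)) * ht
  map_zero' := by simp
  map_add' x y := by
    rw [H.cu_add, H.cv_add]
    push_cast
    ring

/-- The kernel of the evaluation at a root. -/
def rootIdeal (t : ZMod l) (ht : H.IsRoot t) : Ideal O := RingHom.ker (H.rootHom t ht)

theorem mem_rootIdeal {t : ZMod l} (ht : H.IsRoot t) {x : O} :
    x ∈ H.rootIdeal t ht ↔ (H.cu x : ZMod l) + (H.cv x : ZMod l) * t = 0 := Iff.rfl

variable [hl : Fact l.Prime]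

theorem rootHom_surjective {t : ZMod l} (ht : H.IsRoot t) :
    Function.Surjective (H.rootHom t ht) := fun z => ⟨(z.val : O), by simp⟩

theorem rootIdeal_isMaximal {t : ZMod l} (ht : H.IsRoot t) : (H.rootIdeal t ht).IsMaximal :=
  RingHom.ker_isMaximal_of_surjective _ (H.rootHom_surjective ht)

theorem absNorm_rootIdeal {t : ZMod l} (ht : H.IsRoot t) :
    Ideal.absNorm (H.rootIdeal t ht) = l := by
  rw [Ideal.absNorm_apply, Submodule.cardQuot_apply]
  exact (Nat.card_congr
    (RingHom.quotientKerEquivOfSurjective (H.rootHom_surjective ht)).toEquiv).trans (Nat.card_zmod l)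

theorem natCast_mem_rootIdeal {t : ZMod l} (ht : H.IsRoot t) : (l : O) ∈ H.rootIdeal t ht := by
  rw [rootIdeal, RingHom.mem_ker, map_natCast, ZMod.natCast_self]

theorem rootIdeal_ne_bot {t : ZMod l} (ht : H.IsRoot t) : H.rootIdeal t ht ≠ ⊥ := fun h => by
  have := H.natCast_mem_rootIdeal ht
  rw [h, Ideal.mem_bot, Nat.cast_eq_zero] at this
  exact hl.out.ne_zero this

theorem two_mul_root_ne {t : ZMod l} (ht : H.IsRoot t) (hlN : ¬ l ∣ N) : 2 * t - 1 ≠ 0 := by
  intro h
  refine hlN ((ZMod.natCast_eq_zero_iff N l).mp ?_)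
  have h4 : (4 : ZMod l) * (H.M : ZMod l) = (N : ZMod l) + 1 := by
    exact_mod_cast congrArg (Int.cast (R := ZMod l)) H.four_mul
  unfold IsRoot at ht
  linear_combination -h4 + 4 * ht - (2 * t - 1) * h

theorem rootIdeal_ne {t : ZMod l} (ht : H.IsRoot t) (hlN : ¬ l ∣ N) :
    H.rootIdeal t ht ≠ H.rootIdeal (1 - t) (H.isRoot_one_sub ht) := by
  intro h
  refine H.two_mul_root_ne ht hlN ?_
  have hmem : H.el (-(t.val : ℤ)) 1 ∈ H.rootIdeal t ht := by
    simp [mem_rootIdeal]
  rw [h, mem_rootIdeal] at hmem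
  simp at hmem
  linear_combination -hmem

theorem rootIdeal_mul {t : ZMod l} (ht : H.IsRoot t) (hlN : ¬ l ∣ N) :
    H.rootIdeal t ht * H.rootIdeal (1 - t) (H.isRoot_one_sub ht) = Ideal.span {(l : O)} := by
  have h1 := H.rootIdeal_isMaximal ht
  have h2 := H.rootIdeal_isMaximal (H.isRoot_one_sub ht)
  rw [Ideal.mul_eq_inf_of_coprime (h1.coprime_of_ne h2 (H.rootIdeal_ne ht hlN))]
  refine le_antisymm (fun x hx => ?_) ?_
  · obtain ⟨ha, hb⟩ := Ideal.mem_inf.mp hx
    rw [mem_rootIdeal] at ha hb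
    have hne := H.two_mul_root_ne ht hlN
    have hv : (H.cv x : ZMod l) = 0 := by
      refine (mul_eq_zero.mp ?_).resolve_right hne
      linear_combination ha - hb
    have hu : (H.cu x : ZMod l) = 0 := by simpa [hv] using ha
    obtain ⟨a, ha'⟩ := (ZMod.intCast_zmod_eq_zero_iff_dvd _ l).mp hu
    obtain ⟨b, hb'⟩ := (ZMod.intCast_zmod_eq_zero_iff_dvd _ l).mp hv
    refine Ideal.mem_span_singleton'.mpr ⟨H.el a b, ?_⟩
    rw [← H.el_coords x, ha', hb']
    simp only [el]
    push_cast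
    ring
  · rw [Ideal.span_singleton_le_iff_mem]
    exact ⟨H.natCast_mem_rootIdeal ht, H.natCast_mem_rootIdeal _⟩

theorem prime_eq_rootIdeal {t : ZMod l} (ht : H.IsRoot t) (hlN : ¬ l ∣ N) {P : Ideal O}
    (hP : P.IsPrime) (hlP : (l : O) ∈ P) :
    P = H.rootIdeal t ht ∨ P = H.rootIdeal (1 - t) (H.isRoot_one_sub ht) := by
  have hle : H.rootIdeal t ht * H.rootIdeal (1 - t) (H.isRoot_one_sub ht) ≤ P := by
    rw [H.rootIdeal_mul ht hlN, Ideal.span_singleton_le_iff_mem]
    exact hlP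
  rcases hP.mul_le.mp hle with h | h
  · exact Or.inl ((H.rootIdeal_isMaximal ht).eq_of_le hP.ne_top h).symm
  · exact Or.inr ((H.rootIdeal_isMaximal (H.isRoot_one_sub ht)).eq_of_le hP.ne_top h).symm

theorem span_isPrime_of_no_root (h : ∀ t : ZMod l, ¬ H.IsRoot t) :
    (Ideal.span {(l : O)}).IsPrime := by
  have key : ∀ x : O, (l : ℤ) ∣ H.nrm x → x ∈ Ideal.span {(l : O)} := by
    intro x hx
    have h0 : ((H.nrm x : ℤ) : ZMod l) = 0 := (ZMod.intCast_zmod_eq_zero_iff_dvd _ l).mpr hx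
    rw [nrm] at h0
    push_cast at h0
    have hv : (H.cv x : ZMod l) = 0 := by
      by_contra hv
      refine h (-(H.cu x : ZMod l) / H.cv x) ?_
      unfold IsRoot
      field_simp
      linear_combination h0
    have hu : (H.cu x : ZMod l) = 0 := by simpa [hv] using h0
    obtain ⟨a, ha⟩ := (ZMod.intCast_zmod_eq_zero_iff_dvd _ l).mp hu
    obtain ⟨b, hb⟩ := (ZMod.intCast_zmod_eq_zero_iff_dvd _ l).mp hv
    refine Ideal.mem_span_singleton'.mpr ⟨H.el a b, ?_⟩
    rw [← H.el_coords x, ha, hb]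
    simp only [el]
    push_cast
    ring
  have hdvd : ∀ x ∈ Ideal.span {(l : O)}, (l : ℤ) ∣ H.nrm x := by
    intro x hx
    obtain ⟨y, rfl⟩ := Ideal.mem_span_singleton'.mp hx
    rw [H.nrm_mul, show ((l : O)) = ((l : ℤ) : O) by simp, H.nrm_intCast, pow_two]
    exact dvd_mul_of_dvd_right (dvd_mul_right _ _) _
  refine ⟨fun htop => ?_, fun {x y} hxy => ?_⟩
  · have h1 := hdvd 1 (htop ▸ Submodule.mem_top)
    rw [H.nrm_one] at h1
    exact (Nat.prime_iff_prime_int.mp hl.out).not_dvd_one h1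
  · have h1 := hdvd _ hxy
    rw [H.nrm_mul] at h1
    exact ((Nat.prime_iff_prime_int.mp hl.out).dvd_or_dvd h1).imp (key x) (key y)

include H in
theorem absNorm_span_natCast' (n : ℕ) : Ideal.absNorm (Ideal.span {(n : O)}) = n ^ 2 := by
  rw [Ideal.absNorm_span_natCast, Module.finrank_eq_card_basis H.bas, Fintype.card_fin]

include H in
/-- An ideal of norm divisible by `l` lies in a prime over `l`. -/
theorem exists_prime_above {I : Ideal O} (h : l ∣ Ideal.absNorm I) :
    ∃ P : Ideal O, P.IsPrime ∧ I ≤ P ∧ (l : O) ∈ P := by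
  obtain ⟨P, hP, hle⟩ := Ideal.exists_le_maximal (I ⊔ Ideal.span {(l : O)}) (fun htop => by
    have h1 : (1 : O) ∈ I ⊔ Ideal.span {(l : O)} := htop ▸ Submodule.mem_top
    obtain ⟨i, hi, z, hz, e⟩ := Submodule.mem_sup.mp h1
    obtain ⟨y, rfl⟩ := Ideal.mem_span_singleton'.mp hz
    have hdvd : (l : ℤ) ∣ H.nrm i := by
      rw [← H.algebraNorm_eq]
      exact (Int.natCast_dvd_natCast.mpr h).trans (Ideal.absNorm_dvd_norm_of_mem hi)
    have hi' : i = H.el (1 - (l : ℤ) * H.cu y) (-((l : ℤ) * H.cv y)) := by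
      have e' : i = 1 - y * (l : O) := by linear_combination e
      rw [e']
      conv_lhs => rw [← H.el_coords y]
      simp only [el]
      push_cast
      ring
    rw [hi', nrm, cu_el, cv_el, ← ZMod.intCast_zmod_eq_zero_iff_dvd] at hdvd
    push_cast at hdvd
    simp at hdvd)
  exact ⟨P, hP.isPrime, le_sup_left.trans hle,
    hle (Ideal.mem_sup_right (Ideal.mem_span_singleton_self _))⟩

end QuadOrder

end Fermat.Agent.RT.Two.Theta

end
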