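import Mathlib

/-!
# The maximal order of discriminant `-N`

For `N ≡ 3 (mod 8)` an order with basis `1, ω` and `ω² = ω - (N + 1) / 4`: coordinates, the norm
form, and arithmetic modulo two.
-/

set_option autoImplicit false
set_option linter.unusedSectionVars false

noncomputable section

namespace Fermat.Agent.RT.Two.Theta

open Module

theorem abs_le_sq (a : ℤ) : |a| ≤ a ^ 2 := by
  rcases eq_or_ne a 0 with rfl | h
  · simp
  · rw [← sq_abs]
    nlinarith [Int.one_le_abs h]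

theorem intCast_two_eq_zero_iff (z : ℤ) : (z : ZMod 2) = 0 ↔ (2 : ℤ) ∣ z := by
  exact_mod_cast ZMod.intCast_zmod_eq_zero_iff_dvd z 2

/-- An integral basis `1, ω` with `ω² = ω - M`, `4 M = N + 1`, `M` odd. -/
structure QuadOrder (O : Type) [CommRing O] (N : ℕ) where
  bas : Basis (Fin 2) ℤ O
  M : ℤ
  four_mul : 4 * M = N + 1
  odd : Odd M
  one : bas 0 = 1
  sq : bas 1 * bas 1 = bas 1 - (M : O)

namespace QuadOrder

variable {O : Type} [CommRing O] {N : ℕ} (H : QuadOrder O N)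

/-- The generator. -/
def gen : O := H.bas 1

/-- The first coordinate. -/
def cu (x : O) : ℤ := H.bas.repr x 0

/-- The second coordinate. -/
def cv (x : O) : ℤ := H.bas.repr x 1

/-- The element with given coordinates. -/
def el (u v : ℤ) : O := (u : O) + (v : O) * H.gen

theorem el_eq_smul (u v : ℤ) : H.el u v = u • H.bas 0 + v • H.bas 1 := by
  rw [el, gen, H.one, zsmul_eq_mul, zsmul_eq_mul, mul_one]

theorem el_coords (x : O) : H.el (H.cu x) (H.cv x) = x := by
  rw [el_eq_smul]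
  conv_rhs => rw [← H.bas.sum_repr x, Fin.sum_univ_two]
  rfl

@[simp] theorem cu_el (u v : ℤ) : H.cu (H.el u v) = u := by
  rw [cu, el_eq_smul, map_add, map_zsmul, map_zsmul, H.bas.repr_self, H.bas.repr_self]
  simp

@[simp] theorem cv_el (u v : ℤ) : H.cv (H.el u v) = v := by
  rw [cv, el_eq_smul, map_add, map_zsmul, map_zsmul, H.bas.repr_self, H.bas.repr_self]
  simp

theorem ext_coords {x y : O} (hu : H.cu x = H.cu y) (hv : H.cv x = H.cv y) : x = y := by
  rw [← H.el_coords x, ← H.el_coords y, hu, hv]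

theorem el_mul (u v u' v' : ℤ) :
    H.el u v * H.el u' v' = H.el (u * u' - H.M * v * v') (u * v' + u' * v + v * v') := by
  have h := H.sq
  simp only [el, gen] at *
  push_cast
  linear_combination ((v : O) * v') * h

theorem el_intCast (n : ℤ) : H.el n 0 = (n : O) := by simp [el]

@[simp] theorem cu_intCast (n : ℤ) : H.cu (n : O) = n := by rw [← el_intCast, cu_el]

@[simp] theorem cv_intCast (n : ℤ) : H.cv (n : O) = 0 := by rw [← el_intCast, cv_el]

theorem cu_add (x y : O) : H.cu (x + y) = H.cu x + H.cu y := by simp [cu]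

theorem cv_add (x y : O) : H.cv (x + y) = H.cv x + H.cv y := by simp [cv]

theorem cu_neg (x : O) : H.cu (-x) = -H.cu x := by simp [cu]

theorem cv_neg (x : O) : H.cv (-x) = -H.cv x := by simp [cv]

theorem cu_sub (x y : O) : H.cu (x - y) = H.cu x - H.cu y := by simp [cu]

theorem cv_sub (x y : O) : H.cv (x - y) = H.cv x - H.cv y := by simp [cv]

theorem cu_mul (x y : O) :
    H.cu (x * y) = H.cu x * H.cu y - H.M * H.cv x * H.cv y := by
  conv_lhs => rw [← H.el_coords x, ← H.el_coords y, el_mul, cu_el]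

theorem cv_mul (x y : O) :
    H.cv (x * y) = H.cu x * H.cv y + H.cu y * H.cv x + H.cv x * H.cv y := by
  conv_lhs => rw [← H.el_coords x, ← H.el_coords y, el_mul, cv_el]

@[simp] theorem cu_zero : H.cu 0 = 0 := by simp [cu]

@[simp] theorem cv_zero : H.cv 0 = 0 := by simp [cv]

@[simp] theorem cu_one : H.cu 1 = 1 := by
  simpa using H.cu_intCast 1

@[simp] theorem cv_one : H.cv 1 = 0 := by
  simpa using H.cv_intCast 1

/-- The norm form. -/
def nrm (x : O) : ℤ := H.cu x ^ 2 + H.cu x * H.cv x + H.M * H.cv x ^ 2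

/-- The conjugate. -/
def conj (x : O) : O := H.el (H.cu x + H.cv x) (-H.cv x)

theorem mul_conj (x : O) : x * H.conj x = (H.nrm x : O) := by
  refine H.ext_coords ?_ ?_
  · rw [cu_mul, conj, cu_el, cv_el, cu_intCast, nrm]; ring
  · rw [cv_mul, conj, cu_el, cv_el, cv_intCast]; ring

theorem nrm_mul (x y : O) : H.nrm (x * y) = H.nrm x * H.nrm y := by
  simp only [nrm, cu_mul, cv_mul]; ring

@[simp] theorem nrm_intCast (n : ℤ) : H.nrm (n : O) = n ^ 2 := by simp [nrm]

theorem nrm_neg (x : O) : H.nrm (-x) = H.nrm x := by simp [nrm, cu_neg, cv_neg]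

theorem nrm_one : H.nrm 1 = 1 := by simp [nrm]

theorem nrm_conj (x : O) : H.nrm (H.conj x) = H.nrm x := by
  simp only [nrm, conj, cu_el, cv_el]; ring

theorem four_mul_nrm (x : O) :
    4 * H.nrm x = (2 * H.cu x + H.cv x) ^ 2 + N * H.cv x ^ 2 := by
  simp only [nrm]
  linear_combination H.cv x ^ 2 * H.four_mul

theorem nrm_nonneg (x : O) : 0 ≤ H.nrm x := by
  have h := H.four_mul_nrm x
  have : (0 : ℤ) ≤ (2 * H.cu x + H.cv x) ^ 2 + N * H.cv x ^ 2 := by positivity
  linarith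

include H in
theorem N_pos : 0 < N := by
  rcases Nat.eq_zero_or_pos N with h | h
  · exfalso
    have := H.four_mul
    subst h
    push_cast at this
    omega
  · exact h

theorem nrm_eq_zero_iff {x : O} : H.nrm x = 0 ↔ x = 0 := by
  refine ⟨fun h => ?_, fun h => by simp [h, nrm]⟩
  have h4 := H.four_mul_nrm x
  rw [h, mul_zero] at h4
  have hN : (0 : ℤ) < N := by exact_mod_cast H.N_pos
  obtain ⟨h1, h2⟩ := (add_eq_zero_iff_of_nonneg (sq_nonneg _) (by positivity)).mp h4.symm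
  have hv : H.cv x = 0 := by
    simpa using (mul_eq_zero.mp h2).resolve_left hN.ne'
  rw [sq_eq_zero_iff, hv] at h1
  exact H.ext_coords (by simpa using h1) (by simp [hv])

theorem algebraNorm_eq (x : O) : Algebra.norm ℤ x = H.nrm x := by
  rw [Algebra.norm_eq_matrix_det H.bas, Matrix.det_fin_two]
  have e0 : ∀ i, Algebra.leftMulMatrix H.bas x i 0 = H.bas.repr x i := fun i => by
    rw [Algebra.leftMulMatrix_eq_repr_mul, H.one, mul_one]
  have e1 : ∀ i, Algebra.leftMulMatrix H.bas x i 1 = H.bas.repr (x * H.el 0 1) i := fun i => by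
    rw [Algebra.leftMulMatrix_eq_repr_mul]
    simp [el, gen]
  rw [e0, e0, e1, e1]
  change H.cu x * H.cv (x * H.el 0 1) - H.cu (x * H.el 0 1) * H.cv x = _
  rw [cu_mul, cv_mul, cu_el, cv_el, nrm]
  ring

theorem finite_nrm_eq (m : ℤ) : {x : O | H.nrm x = m}.Finite := by
  have hsub : (fun x => (H.cu x, H.cv x)) '' {x : O | H.nrm x = m} ⊆
      Set.Icc (-(5 * |m| + 1)) (5 * |m| + 1) ×ˢ Set.Icc (-(5 * |m| + 1)) (5 * |m| + 1) := by
    rintro _ ⟨x, hx, rfl⟩
    have h := H.four_mul_nrm x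
    rw [show H.nrm x = m from hx] at h
    have hN : (1 : ℤ) ≤ N := by exact_mod_cast H.N_pos
    have hv : H.cv x ^ 2 ≤ 4 * |m| := by
      nlinarith [le_abs_self m, sq_nonneg (2 * H.cu x + H.cv x),
        mul_le_mul_of_nonneg_right hN (sq_nonneg (H.cv x))]
    have hw : (2 * H.cu x + H.cv x) ^ 2 ≤ 4 * |m| := by
      nlinarith [le_abs_self m, mul_nonneg (show (0 : ℤ) ≤ N by positivity) (sq_nonneg (H.cv x))]
    have a1 := abs_le_sq (H.cv x)
    have a2 := abs_le_sq (2 * H.cu x + H.cv x)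
    simp only [Set.mem_prod, Set.mem_Icc]
    rcases abs_le.mp (a1.trans hv) with ⟨b1, b2⟩
    rcases abs_le.mp (a2.trans hw) with ⟨b3, b4⟩
    have := abs_nonneg m
    refine ⟨⟨?_, ?_⟩, ?_, ?_⟩ <;> linarith
  refine Set.Finite.of_finite_image ((Set.Finite.prod (Set.finite_Icc _ _) (Set.finite_Icc _ _)).subset
    hsub) fun x _ y _ h => ?_
  exact H.ext_coords (congrArg Prod.fst h) (congrArg Prod.snd h)

/-! ### Modulo two -/

theorem two_dvd_iff {x : O} : (2 : O) ∣ x ↔ (2 : ℤ) ∣ H.cu x ∧ (2 : ℤ) ∣ H.cv x := by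
  constructor
  · rintro ⟨y, rfl⟩
    rw [two_mul, cu_add, cv_add, ← two_mul, ← two_mul]
    exact ⟨dvd_mul_right _ _, dvd_mul_right _ _⟩
  · rintro ⟨⟨a, ha⟩, b, hb⟩
    refine ⟨H.el a b, ?_⟩
    refine H.ext_coords ?_ ?_
    · rw [two_mul, cu_add, cu_el, ha]; ring
    · rw [two_mul, cv_add, cv_el, hb]; ring

theorem two_dvd_nrm_iff {x : O} : (2 : ℤ) ∣ H.nrm x ↔ (2 : O) ∣ x := by
  rw [H.two_dvd_iff]
  constructor
  · intro h
    have h' : ((H.nrm x : ℤ) : ZMod 2) = 0 := (ZMod.intCast_zmod_eq_zero_iff_dvd _ 2).mpr h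
    have hM : (H.M : ZMod 2) = 1 := ZMod.intCast_eq_one_iff_odd.mpr H.odd
    simp only [nrm, Int.cast_add, Int.cast_mul, Int.cast_pow, hM] at h'
    have key : ∀ a b : ZMod 2, a ^ 2 + a * b + 1 * b ^ 2 = 0 → a = 0 ∧ b = 0 := by decide
    obtain ⟨ha, hb⟩ := key _ _ h'
    exact ⟨(ZMod.intCast_zmod_eq_zero_iff_dvd _ 2).mp ha,
      (ZMod.intCast_zmod_eq_zero_iff_dvd _ 2).mp hb⟩
  · rintro ⟨⟨a, ha⟩, b, hb⟩
    exact ⟨2 * a ^ 2 + 2 * a * b + 2 * H.M * b ^ 2, by rw [nrm, ha, hb]; ring⟩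

/-- The parities of the coordinates. -/
def par (x : O) : ZMod 2 × ZMod 2 := ((H.cu x : ZMod 2), (H.cv x : ZMod 2))

theorem two_dvd_sub_iff {x y : O} : (2 : O) ∣ x - y ↔ H.par x = H.par y := by
  rw [H.two_dvd_iff, par, par, Prod.ext_iff, cu_sub, cv_sub,
    ← intCast_two_eq_zero_iff, ← intCast_two_eq_zero_iff]
  simp [sub_eq_zero]

theorem par_eq_zero_iff {x : O} : H.par x = 0 ↔ (2 : ℤ) ∣ H.nrm x := by
  rw [H.two_dvd_nrm_iff, H.two_dvd_iff, par, Prod.ext_iff,
    ← intCast_two_eq_zero_iff, ← intCast_two_eq_zero_iff]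
  simp

theorem two_dvd_mul_conj_sub_one {x : O} (hx : ¬ (2 : ℤ) ∣ H.nrm x) :
    (2 : O) ∣ x * H.conj x - 1 := by
  obtain ⟨k, hk⟩ : Odd (H.nrm x) := Int.odd_iff.mpr (by omega)
  refine ⟨(k : O), ?_⟩
  rw [H.mul_conj, hk]
  push_cast
  ring

end QuadOrder

end Fermat.Agent.RT.Two.Theta

end
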