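import Fermat.Agent.RT.Two.Theta.Defs

/-!
# Convergence of binary theta series
-/

set_option autoImplicit false

noncomputable section

open Complex Filter
open scoped Real Topology

namespace Fermat.Agent.RT.Two.Theta

theorem summable_exp_sq {t : ℝ} (ht : 0 < t) :
    Summable fun n : ℤ => Real.exp (-t * (n : ℝ) ^ 2) := by
  have := summable_pow_mul_jacobiTheta₂_term_bound 0 (T := t / π) (div_pos ht Real.pi_pos) 0
  refine this.congr fun n => ?_
  rw [pow_zero, one_mul]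
  congr 1
  field_simp
  ring

theorem summable_exp_sq_shift {t : ℝ} (ht : 0 < t) (r : ℝ) :
    Summable fun n : ℤ => Real.exp (-t * ((n : ℝ) + r) ^ 2) := by
  refine ((summable_exp_sq (half_pos ht)).mul_left (Real.exp (t * r ^ 2))).of_nonneg_of_le
    (fun n => (Real.exp_pos _).le) fun n => ?_
  rw [← Real.exp_add]
  exact Real.exp_le_exp.2 (by nlinarith [mul_nonneg ht.le (sq_nonneg ((n : ℝ) + 2 * r))])

namespace BinForm

variable {Q : BinForm} {N : ℕ}

theorem eval_intCast {R : Type*} [CommRing R] (Q : BinForm) (v : ℤ × ℤ) :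
    ((Q.eval v : ℤ) : R) = Q.eval ((v.1 : R), (v.2 : R)) := by
  simp [eval]

theorem eval_zero (Q : BinForm) {R : Type*} [CommRing R] : Q.eval (0 : R × R) = 0 := by
  simp [eval]

theorem IsPos.sq_le_real (h : Q.IsPos N) [NeZero N] (v : ℝ × ℝ) :
    (N : ℝ) * (v.1 ^ 2 + v.2 ^ 2) ≤ (Q.a + Q.c) * Q.eval v := by
  have hd : (Q.b : ℝ) ^ 2 - 4 * Q.a * Q.c = -(4 * N) := by exact_mod_cast h.disc
  have ha : (0 : ℝ) < Q.a := by exact_mod_cast h.a_pos
  have hc : (0 : ℝ) < Q.c := by exact_mod_cast h.c_pos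
  have e1 : 4 * (Q.a : ℝ) * Q.eval v
      = (2 * Q.a * v.1 + Q.b * v.2) ^ 2 + 4 * N * v.2 ^ 2 := by
    simp only [eval]; linear_combination -(v.2 ^ 2) * hd
  have e2 : 4 * (Q.c : ℝ) * Q.eval v
      = (2 * Q.c * v.2 + Q.b * v.1) ^ 2 + 4 * N * v.1 ^ 2 := by
    simp only [eval]; linear_combination -(v.1 ^ 2) * hd
  nlinarith [sq_nonneg (2 * Q.a * v.1 + Q.b * v.2), sq_nonneg (2 * Q.c * v.2 + Q.b * v.1)]

theorem IsPos.eval_pos (h : Q.IsPos N) [NeZero N] {v : ℤ × ℤ} (hv : v ≠ 0) : 0 < Q.eval v := by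
  refine (h.eval_nonneg v).lt_of_ne fun h0 => hv ?_
  have := h.sq_le v
  rw [← h0, mul_zero] at this
  have hN : (0 : ℤ) < N := by exact_mod_cast Nat.pos_of_ne_zero (NeZero.ne N)
  have h2 : v.1 ^ 2 + v.2 ^ 2 ≤ 0 := nonpos_of_mul_nonpos_right this hN
  have a := sq_nonneg v.1
  have b := sq_nonneg v.2
  exact Prod.ext (pow_eq_zero_iff two_ne_zero |>.1 (by linarith : v.1 ^ 2 = 0))
    (pow_eq_zero_iff two_ne_zero |>.1 (by linarith : v.2 ^ 2 = 0))

/-- Sums over shifted lattices converge. -/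
theorem IsPos.summable_exp (h : Q.IsPos N) [NeZero N] {t : ℝ} (ht : 0 < t) (r : ℝ × ℝ) :
    Summable fun v : ℤ × ℤ =>
      Real.exp (-t * Q.eval ((v.1 : ℝ) + r.1, (v.2 : ℝ) + r.2)) := by
  have hac : (0 : ℝ) < (Q.a + Q.c : ℝ) := by
    exact_mod_cast add_pos h.a_pos h.c_pos
  have hN : (0 : ℝ) < N := by exact_mod_cast Nat.pos_of_ne_zero (NeZero.ne N)
  set s : ℝ := t * N / (Q.a + Q.c) with hs
  have hs0 : 0 < s := div_pos (mul_pos ht hN) hac
  refine ((summable_exp_sq_shift hs0 r.1).mul_of_nonneg (summable_exp_sq_shift hs0 r.2)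
    (fun _ => (Real.exp_pos _).le) fun _ => (Real.exp_pos _).le).of_nonneg_of_le
    (fun _ => (Real.exp_pos _).le) fun v => ?_
  rw [← Real.exp_add]
  refine Real.exp_le_exp.2 ?_
  have := mul_le_mul_of_nonneg_left
    (h.sq_le_real ((v.1 : ℝ) + r.1, (v.2 : ℝ) + r.2)) (div_nonneg ht.le hac.le)
  rw [← mul_assoc, ← mul_assoc, div_mul_cancel₀ t hac.ne', div_mul_eq_mul_div, ← hs] at this
  simp only at this
  linarith

theorem norm_cexp_eval (z : ℂ) (q : ℝ) :
    ‖cexp (2 * π * I * (q : ℂ) * z)‖ = Real.exp (-(2 * π * z.im) * q) := by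
  rw [norm_exp]
  congr 1
  simp
  ring

theorem IsPos.summable_term (h : Q.IsPos N) [NeZero N] {z : ℂ} (hz : 0 < z.im) (r : ℝ × ℝ) :
    Summable fun v : ℤ × ℤ =>
      cexp (2 * π * I * (Q.eval ((v.1 : ℝ) + r.1, (v.2 : ℝ) + r.2) : ℝ) * z) := by
  refine Summable.of_norm_bounded (h.summable_exp (by positivity : (0 : ℝ) < 2 * π * z.im) r)
    fun v => le_of_eq ?_
  rw [norm_cexp_eval]

theorem IsPos.summable_theta (h : Q.IsPos N) [NeZero N] {z : ℂ} (hz : 0 < z.im) :
    Summable fun v : ℤ × ℤ => cexp (2 * π * I * (Q.eval v : ℤ) * z) := by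
  refine (h.summable_term hz 0).congr fun v => ?_
  simp [eval]

theorem IsPos.summable_theta_bound (h : Q.IsPos N) [NeZero N] {t : ℝ} (ht : 0 < t) :
    Summable fun v : ℤ × ℤ => Real.exp (-t * (Q.eval v : ℤ)) := by
  refine (h.summable_exp ht 0).congr fun v => ?_
  simp [eval]

/-- As `Im α → ∞` only the constant term of a theta series with bounded coefficients is left. -/
theorem IsPos.tendsto_tsum (h : Q.IsPos N) [NeZero N] {β : Type*} {l : Filter β} {α : β → ℂ}
    (hα : Tendsto (fun x => (α x).im) l atTop) (φ : ℤ × ℤ → ℂ) {C : ℝ}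
    (hφ : ∀ v, ‖φ v‖ ≤ C) :
    Tendsto (fun x => ∑' v, φ v * cexp (2 * π * I * (Q.eval v : ℤ) * α x)) l (𝓝 (φ 0)) := by
  have hC : 0 ≤ C := (norm_nonneg _).trans (hφ 0)
  have key := tendsto_tsum_of_dominated_convergence
    (f := fun x v => φ v * cexp (2 * π * I * (Q.eval v : ℤ) * α x))
    (g := fun v => if v = 0 then φ 0 else 0)
    (bound := fun v => C * Real.exp (-(2 * π) * (Q.eval v : ℤ))) (𝓕 := l) ?_ ?_ ?_
  · rwa [tsum_ite_eq] at key
  · exact (h.summable_theta_bound (by positivity : (0 : ℝ) < 2 * π)).mul_left C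
  · intro v
    rcases eq_or_ne v 0 with rfl | hv
    · simpa [eval_zero] using tendsto_const_nhds
    · rw [if_neg hv]
      refine squeeze_zero_norm (a := fun x => C * Real.exp (-(2 * π * (α x).im) * (Q.eval v : ℤ)))
        (fun x => ?_) ?_
      · rw [norm_mul, ← ofReal_intCast, norm_cexp_eval]
        exact mul_le_mul_of_nonneg_right (hφ v) (Real.exp_pos _).le
      · have hq : (0 : ℝ) < (Q.eval v : ℤ) := by exact_mod_cast h.eval_pos hv
        have : Tendsto (fun x => -(2 * π * (α x).im) * ((Q.eval v : ℤ) : ℝ)) l atBot :=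
          (tendsto_neg_atTop_atBot.comp (hα.const_mul_atTop Real.two_pi_pos)).atBot_mul_const hq
        simpa using (Real.tendsto_exp_atBot.comp this).const_mul C
  · filter_upwards [hα.eventually_ge_atTop 1] with x hx v
    rw [norm_mul, ← ofReal_intCast, norm_cexp_eval]
    refine mul_le_mul (hφ v) (Real.exp_le_exp.2 ?_) (Real.exp_pos _).le hC
    have hq : (0 : ℝ) ≤ (Q.eval v : ℤ) := by exact_mod_cast h.eval_nonneg v
    rw [neg_mul, neg_mul, neg_le_neg_iff]
    exact mul_le_mul_of_nonneg_right (le_mul_of_one_le_right Real.two_pi_pos.le hx) hq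

end BinForm

end Fermat.Agent.RT.Two.Theta
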